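import Fermat.Agent.S53.Defs

/-!
# S53, Component A: Burnside's theorem for a 2-dimensional absolutely irreducible
residual Galois representation.

Main result: `H24S53.burnside_data`: in a suitable basis, the matrix units `E₁₁` and `E₂₁` are
formal `𝒪`-linear combinations of the matrices `rbar σ`.

Auxiliary results (all names prefixed `h13_`):
* `h13_mul_mul_eq_trace_smul`: `D * Y * D = tr (D * Y) • D` for singular `2 × 2` matrices `D`;
* `h13_exists_invariant`: a nonzero `D` with `D ∘ T σ ∘ D = 0` gives a proper invariant subspace;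
* `h13_span_eq_top`: Burnside, the `rbar σ` span `M₂(k)`.
-/

set_option autoImplicit false

namespace H24S53

open Matrix
open scoped TensorProduct

/-- For `2 × 2` matrices with `det D = 0` we have `D * Y * D = tr (D * Y) • D`. -/
theorem h13_mul_mul_eq_trace_smul {K : Type*} [CommRing K] (D Y : Matrix (Fin 2) (Fin 2) K)
    (hD : D.det = 0) : D * Y * D = (D * Y).trace • D := by
  rw [Matrix.det_fin_two] at hD
  ext i j
  fin_cases i <;> fin_cases j <;>
    simp [Matrix.mul_apply, Fin.sum_univ_two, Matrix.trace] <;>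
    first
      | linear_combination (Y 1 1) * hD
      | linear_combination (-(Y 0 1)) * hD
      | linear_combination (-(Y 1 0)) * hD
      | linear_combination (Y 0 0) * hD
      | linear_combination (-(Y 1 1)) * hD
      | linear_combination (Y 0 1) * hD
      | linear_combination (Y 1 0) * hD
      | linear_combination (-(Y 0 0)) * hD

/-- If a nonzero endomorphism `D` satisfies `D ∘ T σ ∘ D = 0` for all `σ` in a monoid acting
through `T`, then there is a proper nonzero invariant subspace. -/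
theorem h13_exists_invariant {K W G : Type*} [Field K] [AddCommGroup W] [Module K W] [Monoid G]
    (T : G →* Module.End K W) (D : Module.End K W) (hD : D ≠ 0)
    (hDT : ∀ σ, D * T σ * D = 0) :
    ∃ U : Submodule K W, (∀ σ, ∀ x ∈ U, T σ x ∈ U) ∧ U ≠ ⊥ ∧ U ≠ ⊤ := by
  obtain ⟨w, hw⟩ : ∃ w, D w ≠ 0 := by
    by_contra h
    exact hD (LinearMap.ext fun w => by
      by_contra hw
      exact h ⟨w, hw⟩)
  refine ⟨Submodule.span K (Set.range fun σ => T σ (D w)), ?_, ?_, ?_⟩
  · intro σ x hx
    induction hx using Submodule.span_induction with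
    | mem y hy =>
      obtain ⟨τ, rfl⟩ := hy
      apply Submodule.subset_span
      exact ⟨σ * τ, by simp [map_mul]⟩
    | zero => simp
    | add y z _ _ hy hz => rw [map_add]; exact Submodule.add_mem _ hy hz
    | smul c y _ hy => rw [map_smul]; exact Submodule.smul_mem _ c hy
  · intro h
    have hmem : D w ∈ Submodule.span K (Set.range fun σ => T σ (D w)) :=
      Submodule.subset_span ⟨1, by simp⟩
    rw [h, Submodule.mem_bot] at hmem
    exact hw hmem
  · intro h
    have hle : Submodule.span K (Set.range fun σ => T σ (D w)) ≤ LinearMap.ker D := by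
      rw [Submodule.span_le]
      rintro _ ⟨σ, rfl⟩
      rw [SetLike.mem_coe, LinearMap.mem_ker]
      have := congrArg (fun f : Module.End K W => f w) (hDT σ)
      simpa using this
    rw [h, top_le_iff, LinearMap.ker_eq_top] at hle
    exact hD hle

theorem h13_exists_eigen {K : Type*} [Field K] [IsAlgClosed K] (Y : Matrix (Fin 2) (Fin 2) K) :
    ∃ t : K, (t • (1 : Matrix (Fin 2) (Fin 2) K) - Y).det = 0 := by
  have hdeg : Y.charpoly.degree ≠ 0 := by
    rw [Matrix.charpoly_degree_eq_dim]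
    simp
  obtain ⟨t, ht⟩ := IsAlgClosed.exists_root Y.charpoly hdeg
  refine ⟨t, ?_⟩
  have h := Matrix.eval_charpoly Y t
  rw [Polynomial.IsRoot.def] at ht
  rw [ht] at h
  have hs : (Matrix.scalar (Fin 2)) t = t • (1 : Matrix (Fin 2) (Fin 2) K) := by
    ext i j
    simp [Matrix.one_apply, Matrix.diagonal_apply]
  rw [hs] at h
  exact h.symm

theorem h13_exists_singular {K G : Type*} [Field K] [IsAlgClosed K] [Monoid G]
    (R : G → Matrix (Fin 2) (Fin 2) K) (hRm : ∀ σ τ, R (σ * τ) = R σ * R τ)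
    (C : Matrix (Fin 2) (Fin 2) K) (hC : C ≠ 0) (hCt : ∀ σ, (C * R σ).trace = 0) :
    ∃ D : Matrix (Fin 2) (Fin 2) K, D ≠ 0 ∧ D.det = 0 ∧ ∀ σ, (D * R σ).trace = 0 := by
  by_cases hdet : C.det = 0
  · exact ⟨C, hC, hdet, hCt⟩
  by_cases hsc : ∃ (σ₀ : G) (t : K), t • (1 : Matrix (Fin 2) (Fin 2) K) - R σ₀ ≠ 0 ∧
      (t • (1 : Matrix (Fin 2) (Fin 2) K) - R σ₀).det = 0
  · obtain ⟨σ₀, t, hX, hXdet⟩ := hsc
    refine ⟨(t • (1 : Matrix (Fin 2) (Fin 2) K) - R σ₀) * C, ?_, ?_, ?_⟩
    · intro h0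
      apply hX
      have hu : IsUnit C.det := isUnit_iff_ne_zero.mpr hdet
      have := congrArg (· * C⁻¹) h0
      simpa [Matrix.mul_assoc, Matrix.mul_nonsing_inv C hu] using this
    · rw [Matrix.det_mul, hXdet, zero_mul]
    · intro σ
      rw [Matrix.sub_mul, Matrix.sub_mul, Matrix.trace_sub, Matrix.smul_mul, Matrix.smul_mul,
        Matrix.one_mul, Matrix.trace_smul, hCt σ, smul_zero, zero_sub, neg_eq_zero,
        Matrix.mul_assoc, Matrix.trace_mul_comm, Matrix.mul_assoc, ← hRm]
      exact hCt _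
  · refine ⟨Matrix.single 0 1 1, ?_, ?_, ?_⟩
    · intro h0
      have := congrFun (congrFun h0 0) 1
      simp at this
    · simp [Matrix.det_fin_two]
    · intro σ
      obtain ⟨t, ht⟩ := h13_exists_eigen (R σ)
      have hz : t • (1 : Matrix (Fin 2) (Fin 2) K) - R σ = 0 := by
        by_contra hne
        exact hsc ⟨σ, t, hne, ht⟩
      have hR : R σ = t • (1 : Matrix (Fin 2) (Fin 2) K) := (sub_eq_zero.mp hz).symm
      rw [hR]
      simp

theorem h13_exists_trace_annihilator {k : Type*} [Field k]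
    (B : Submodule k (Matrix (Fin 2) (Fin 2) k)) (hB : B < ⊤) :
    ∃ C : Matrix (Fin 2) (Fin 2) k, C ≠ 0 ∧ ∀ X ∈ B, (C * X).trace = 0 := by
  obtain ⟨f, hf, hle⟩ := Submodule.exists_le_ker_of_lt_top B hB
  have key : ∀ X : Matrix (Fin 2) (Fin 2) k,
      f X = ((Matrix.of fun i j => f (Matrix.single j i 1)) * X).trace := by
    intro X
    have hX : X = X 0 0 • Matrix.single 0 0 (1 : k) + X 0 1 • Matrix.single 0 1 (1 : k)
        + X 1 0 • Matrix.single 1 0 (1 : k) + X 1 1 • Matrix.single 1 1 (1 : k) := by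
      ext i j
      fin_cases i <;> fin_cases j <;> simp [Matrix.single]
    conv_lhs => rw [hX]
    simp only [map_add, map_smul, smul_eq_mul, Matrix.trace_fin_two, Matrix.mul_apply,
      Fin.sum_univ_two, Matrix.of_apply]
    ring
  refine ⟨Matrix.of fun i j => f (Matrix.single j i 1), ?_, ?_⟩
  · intro h0
    apply hf
    ext X
    rw [key X, h0]
    simp
  · intro X hX
    rw [← key X]
    exact LinearMap.mem_ker.mp (hle hX)

/-- Burnside: the matrices of an absolutely irreducible 2-dimensional representation span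
the full matrix algebra. -/
theorem h13_span_eq_top {k : Type} [Field k] (ρbar : ResidualGaloisRep k)
    (habs : ρbar.IsAbsolutelyIrreducible) (b : Module.Basis (Fin 2) k ρbar.V) :
    Submodule.span k (Set.range fun σ : Gal => LinearMap.toMatrix b b (ρbar.ρ σ)) = ⊤ := by
  by_contra hne
  obtain ⟨C₀, hC₀, hC₀t⟩ := h13_exists_trace_annihilator _ (lt_top_iff_ne_top.mpr hne)
  set K := AlgebraicClosure k with hK
  set rbar : Gal → Matrix (Fin 2) (Fin 2) k := fun σ => LinearMap.toMatrix b b (ρbar.ρ σ)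
    with hrbar
  have hrm : ∀ σ τ, rbar (σ * τ) = rbar σ * rbar τ := by
    intro σ τ
    simp only [hrbar, map_mul]
    exact LinearMap.toMatrix_mul b _ _
  set R : Gal → Matrix (Fin 2) (Fin 2) K := fun σ => (rbar σ).map (algebraMap k K) with hR
  have hRm : ∀ σ τ, R (σ * τ) = R σ * R τ := by
    intro σ τ
    simp only [hR, hrm, Matrix.map_mul]
  have hC : C₀.map (algebraMap k K) ≠ 0 := by
    intro h0
    apply hC₀
    apply Matrix.map_injective (algebraMap k K).injective
    show C₀.map (algebraMap k K) = (0 : Matrix (Fin 2) (Fin 2) k).map (algebraMap k K)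
    rw [h0]
    simp
  have hCt : ∀ σ, ((C₀.map (algebraMap k K)) * R σ).trace = 0 := by
    intro σ
    have h1 := hC₀t (rbar σ) (Submodule.subset_span ⟨σ, rfl⟩)
    have h2 : ((C₀.map (algebraMap k K)) * R σ) = (C₀ * rbar σ).map (algebraMap k K) := by
      simp only [hR, Matrix.map_mul]
    rw [h2]
    have h3 := (AddMonoidHom.map_trace (algebraMap k K).toAddMonoidHom (C₀ * rbar σ))
    simp only [RingHom.toAddMonoidHom_eq_coe, AddMonoidHom.coe_coe] at h3
    rw [← h3, h1, map_zero]
  obtain ⟨D, hD, hDdet, hDt⟩ := h13_exists_singular R hRm _ hC hCt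
  have hDRD : ∀ σ, D * R σ * D = 0 := by
    intro σ
    rw [h13_mul_mul_eq_trace_smul D (R σ) hDdet, hDt σ, zero_smul]
  set bK : Module.Basis (Fin 2) K (K ⊗[k] ρbar.V) := Algebra.TensorProduct.basis K b with hbK
  have hT : ∀ σ, (ρbar.baseChange K).ρ σ = Matrix.toLin bK bK (R σ) := by
    intro σ
    have : LinearMap.toMatrix bK bK ((ρbar.baseChange K).ρ σ) = R σ :=
      LinearMap.toMatrix_baseChange K (ρbar.ρ σ) b b
    rw [← this, Matrix.toLin_toMatrix]
  have hDl : (Matrix.toLin bK bK D : Module.End K (K ⊗[k] ρbar.V)) ≠ 0 := by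
    intro h0
    apply hD
    have := congrArg (LinearMap.toMatrix bK bK) h0
    simpa using this
  have hDT : ∀ σ, (Matrix.toLin bK bK D : Module.End K (K ⊗[k] ρbar.V)) *
      (ρbar.baseChange K).ρ σ * (Matrix.toLin bK bK D) = 0 := by
    intro σ
    rw [hT σ, Module.End.mul_eq_comp, Module.End.mul_eq_comp, ← Matrix.toLin_mul,
      ← Matrix.toLin_mul, hDRD σ, map_zero]
  obtain ⟨U, hU, hUbot, hUtop⟩ := h13_exists_invariant (ρbar.baseChange K).ρ _ hDl hDT
  rcases habs U hU with h | h
  · exact hUbot h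
  · exact hUtop h

/-- Every element of the span of the `rbar σ` is a formal combination with coefficients
lifted to `𝒪`. -/
theorem h13_exists_list (𝒪 : Type) [CommRing 𝒪] [IsLocalRing 𝒪]
    (rbar : Gal → M2 (IsLocalRing.ResidueField 𝒪)) (X : M2 (IsLocalRing.ResidueField 𝒪))
    (hX : X ∈ Submodule.span (IsLocalRing.ResidueField 𝒪) (Set.range rbar)) :
    ∃ l : List (𝒪 × Gal), (l.map fun p => IsLocalRing.residue 𝒪 p.1 • rbar p.2).sum = X := by
  induction hX using Submodule.span_induction with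
  | mem y hy =>
    obtain ⟨σ, rfl⟩ := hy
    exact ⟨[(1, σ)], by simp⟩
  | zero => exact ⟨[], by simp⟩
  | add y z _ _ hy hz =>
    obtain ⟨l, rfl⟩ := hy
    obtain ⟨l', rfl⟩ := hz
    exact ⟨l ++ l', by simp⟩
  | smul c y _ hy =>
    obtain ⟨l, rfl⟩ := hy
    obtain ⟨c', rfl⟩ := IsLocalRing.residue_surjective c
    refine ⟨l.map fun p => (c' * p.1, p.2), ?_⟩
    rw [List.smul_sum, List.map_map, List.map_map]
    congr 1
    apply List.map_congr_left
    intro p _
    simp [mul_smul]

theorem burnside_data (𝒪 : Type) [CommRing 𝒪] [IsLocalRing 𝒪]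
    (ρbar : ResidualGaloisRep (IsLocalRing.ResidueField 𝒪)) (habs : ρbar.IsAbsolutelyIrreducible) :
    ∃ (rbar : Gal → M2 (IsLocalRing.ResidueField 𝒪)) (l₀ l₁ : List (𝒪 × Gal)), IsMatOfRes ρbar rbar ∧
      (l₀.map fun p => IsLocalRing.residue 𝒪 p.1 • rbar p.2).sum = Matrix.single 0 0 1 ∧
      (l₁.map fun p => IsLocalRing.residue 𝒪 p.1 • rbar p.2).sum = Matrix.single 1 0 1 := by
  let b : Module.Basis (Fin 2) (IsLocalRing.ResidueField 𝒪) ρbar.V :=
    Module.finBasisOfFinrankEq _ _ ρbar.finrank_eq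
  have hspan := h13_span_eq_top ρbar habs b
  obtain ⟨l₀, hl₀⟩ := h13_exists_list 𝒪 (fun σ => LinearMap.toMatrix b b (ρbar.ρ σ))
    (Matrix.single 0 0 1) (by rw [hspan]; exact Submodule.mem_top)
  obtain ⟨l₁, hl₁⟩ := h13_exists_list 𝒪 (fun σ => LinearMap.toMatrix b b (ρbar.ρ σ))
    (Matrix.single 1 0 1) (by rw [hspan]; exact Submodule.mem_top)
  exact ⟨fun σ => LinearMap.toMatrix b b (ρbar.ρ σ), l₀, l₁, ⟨b, fun _ => rfl⟩, hl₀, hl₁⟩

end H24S53
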