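import Fermat.Agent.S53.Defs

/-!
# S53, component M: matrix bookkeeping for `GaloisRepAdic` / `ResidualGaloisRep`

All statements are the ones fixed in `NOTES/S53_interface.md`; private helpers are prefixed `h1_`.
-/

set_option autoImplicit false

open scoped TensorProduct

namespace H24S53

section Generic

variable {A : Type} [CommRing A]

/-- Coordinates of an element of `I • ⊤` lie in `I`. -/
theorem h1_repr_mem_of_mem_smul_top {V : Type} [AddCommGroup V] [Module A V]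
    {ι : Type} (b : Module.Basis ι A V) (I : Ideal A) {x : V}
    (hx : x ∈ I • (⊤ : Submodule A V)) (i : ι) : b.repr x i ∈ I := by
  refine Submodule.smul_induction_on (p := fun x => b.repr x i ∈ I) hx ?_ ?_
  · intro r hr m _
    rw [map_smul, Finsupp.smul_apply, smul_eq_mul]
    exact I.mul_mem_right _ hr
  · intro x y hx hy
    rw [map_add, Finsupp.add_apply]
    exact I.add_mem hx hy

/-- Matrix of a conjugated endomorphism in a transported basis. -/
theorem h1_toMatrix_map_symm {V V' : Type} [AddCommGroup V] [Module A V] [AddCommGroup V']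
    [Module A V'] (b : Module.Basis (Fin 2) A V) (e : V' ≃ₗ[A] V) (F : Module.End A V') :
    LinearMap.toMatrix (b.map e.symm) (b.map e.symm) F =
      LinearMap.toMatrix b b (e.toLinearMap ∘ₗ F ∘ₗ e.symm.toLinearMap) := by
  ext i j
  simp only [LinearMap.toMatrix_apply, Module.Basis.map_apply, Module.Basis.map_repr,
    LinearEquiv.trans_apply, LinearEquiv.symm_symm, LinearMap.comp_apply, LinearEquiv.coe_coe]

/-- Intertwining linear equivalences versus conjugating invertible matrices. -/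
theorem h1_exists_linearEquiv_iff {V V' : Type} [AddCommGroup V] [Module A V]
    [AddCommGroup V'] [Module A V']
    (b : Module.Basis (Fin 2) A V) (b' : Module.Basis (Fin 2) A V')
    (f : Gal → Module.End A V) (f' : Gal → Module.End A V') (r r' : Gal → M2 A)
    (hr : ∀ σ, LinearMap.toMatrix b b (f σ) = r σ)
    (hr' : ∀ σ, LinearMap.toMatrix b' b' (f' σ) = r' σ) :
    (∃ e : V ≃ₗ[A] V', ∀ σ x, e (f σ x) = f' σ (e x)) ↔
      ∃ g : M2 A, IsUnit g ∧ ∀ σ, g * r σ = r' σ * g := by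
  constructor
  · rintro ⟨e, he⟩
    refine ⟨LinearMap.toMatrix b b' e.toLinearMap, ?_, fun σ => ?_⟩
    · have h1 : LinearMap.toMatrix b b' e.toLinearMap *
          LinearMap.toMatrix b' b e.symm.toLinearMap = 1 := by
        rw [← LinearMap.toMatrix_comp b' b b']
        have : e.toLinearMap ∘ₗ e.symm.toLinearMap = LinearMap.id := by
          ext x; simp
        rw [this, LinearMap.toMatrix_id]
      exact (Matrix.isUnit_iff_isUnit_det _).2 (Matrix.isUnit_det_of_right_inverse h1)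
    · rw [← hr σ, ← hr' σ, ← LinearMap.toMatrix_comp b b b', ← LinearMap.toMatrix_comp b b' b']
      congr 1
      ext x
      simp only [LinearMap.comp_apply, LinearEquiv.coe_coe]
      exact he σ x
  · rintro ⟨g, hg, hgr⟩
    obtain ⟨u, rfl⟩ := hg
    have h12 : (Matrix.toLin b b' (u : M2 A)) ∘ₗ (Matrix.toLin b' b ((u⁻¹ : (M2 A)ˣ) : M2 A)) =
        LinearMap.id := by
      rw [← Matrix.toLin_mul b' b b', Units.mul_inv, Matrix.toLin_one]
    have h21 : (Matrix.toLin b' b ((u⁻¹ : (M2 A)ˣ) : M2 A)) ∘ₗ (Matrix.toLin b b' (u : M2 A)) =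
        LinearMap.id := by
      rw [← Matrix.toLin_mul b b' b, Units.inv_mul, Matrix.toLin_one]
    refine ⟨LinearEquiv.ofLinearMap (Matrix.toLin b b' (u : M2 A))
      (Matrix.toLin b' b ((u⁻¹ : (M2 A)ˣ) : M2 A)) h12 h21, fun σ x => ?_⟩
    have hf : f σ = Matrix.toLin b b (r σ) := by rw [← hr σ, Matrix.toLin_toMatrix]
    have hf' : f' σ = Matrix.toLin b' b' (r' σ) := by rw [← hr' σ, Matrix.toLin_toMatrix]
    have key : (Matrix.toLin b b' (u : M2 A)) ∘ₗ f σ = f' σ ∘ₗ (Matrix.toLin b b' (u : M2 A)) := by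
      rw [hf, hf', ← Matrix.toLin_mul b b b', ← Matrix.toLin_mul b b' b', hgr σ]
    exact congrArg (fun F : V →ₗ[A] V' => F x) key

/-- A basis in which a family with matrices `r` gets the conjugated matrices `r'`. -/
theorem h1_exists_basis_conj {V : Type} [AddCommGroup V] [Module A V]
    (b : Module.Basis (Fin 2) A V) (f : Gal → Module.End A V) (r r' : Gal → M2 A)
    (hr : ∀ σ, LinearMap.toMatrix b b (f σ) = r σ)
    (g : M2 A) (hg : IsUnit g) (hgr : ∀ σ, g * r σ = r' σ * g) :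
    ∃ b' : Module.Basis (Fin 2) A V, ∀ σ, LinearMap.toMatrix b' b' (f σ) = r' σ := by
  obtain ⟨e, he⟩ := (h1_exists_linearEquiv_iff b b f (fun σ => Matrix.toLin b b (r' σ)) r r' hr
    (fun σ => by rw [LinearMap.toMatrix_toLin])).2 ⟨g, hg, hgr⟩
  refine ⟨b.map e.symm, fun σ => ?_⟩
  rw [h1_toMatrix_map_symm]
  have : e.toLinearMap ∘ₗ f σ ∘ₗ e.symm.toLinearMap = Matrix.toLin b b (r' σ) := by
    ext x
    simp only [LinearMap.comp_apply, LinearEquiv.coe_coe]
    rw [he σ (e.symm x), LinearEquiv.apply_symm_apply]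
  rw [this, LinearMap.toMatrix_toLin]

end Generic

section Adic

variable {A : Type} [CommRing A] [IsLocalRing A]

theorem isMatOf_ofMat (r : Gal → M2 A) (hr : IsHom r) (hc : MatCont A r) :
    IsMatOf (ofMat r hr hc) r := by
  refine ⟨Pi.basisFun A (Fin 2), fun σ => ?_⟩
  show LinearMap.toMatrix (Pi.basisFun A (Fin 2)) (Pi.basisFun A (Fin 2))
    (Matrix.toLin' (r σ)) = r σ
  rw [LinearMap.toMatrix_eq_toMatrix', LinearMap.toMatrix'_toLin']

theorem exists_isMatOf (ρ : GaloisRepAdic A) : ∃ r, IsMatOf ρ r :=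
  ⟨fun σ => LinearMap.toMatrix (Module.finBasisOfFinrankEq A ρ.V ρ.finrank_eq)
    (Module.finBasisOfFinrankEq A ρ.V ρ.finrank_eq) (ρ.ρ σ),
    Module.finBasisOfFinrankEq A ρ.V ρ.finrank_eq, fun _ => rfl⟩

theorem IsMatOf.isHom {ρ : GaloisRepAdic A} {r : Gal → M2 A} (h : IsMatOf ρ r) : IsHom r := by
  obtain ⟨b, hb⟩ := h
  refine ⟨?_, fun σ τ => ?_⟩
  · rw [← hb 1, map_one]
    exact LinearMap.toMatrix_one b
  · rw [← hb, ← hb, ← hb, map_mul]
    exact LinearMap.toMatrix_mul b _ _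

theorem IsMatOf.matCont {ρ : GaloisRepAdic A} {r : Gal → M2 A} (h : IsMatOf ρ r) :
    MatCont A r := by
  obtain ⟨b, hb⟩ := h
  intro n
  obtain ⟨L, hL, h1⟩ := ρ.isAdicContinuous n
  refine ⟨L, hL, fun σ hσ i j => ?_⟩
  have e1 : (r σ - 1) i j = b.repr (ρ.ρ σ (b j) - b j) i := by
    rw [← hb σ, Matrix.sub_apply, LinearMap.toMatrix_apply, map_sub, Finsupp.sub_apply,
      Module.Basis.repr_self, Matrix.one_apply, Finsupp.single_apply]
    congr 1
    by_cases hij : i = j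
    · simp [hij]
    · have : ¬ j = i := fun h => hij h.symm
      simp [hij, this]
  rw [e1]
  exact h1_repr_mem_of_mem_smul_top b _ (h1 σ hσ (b j)) i

theorem isEquiv_iff_of_isMatOf {ρ ρ' : GaloisRepAdic A} {r r' : Gal → M2 A}
    (h : IsMatOf ρ r) (h' : IsMatOf ρ' r') :
    ρ.IsEquiv ρ' ↔ ∃ g : M2 A, IsUnit g ∧ ∀ σ, g * r σ = r' σ * g := by
  obtain ⟨b, hb⟩ := h
  obtain ⟨b', hb'⟩ := h'
  rw [← h1_exists_linearEquiv_iff b b' (fun σ => ρ.ρ σ) (fun σ => ρ'.ρ σ) r r' hb hb']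
  constructor
  · rintro ⟨e⟩
    exact ⟨e.toLinearEquiv, e.map_apply⟩
  · rintro ⟨e, he⟩
    exact ⟨⟨e, he⟩⟩

theorem IsMatOf.baseChangeAlong {B : Type} [CommRing B] [IsLocalRing B]
    {ρ : GaloisRepAdic A} {r : Gal → M2 A} (h : IsMatOf ρ r) (φ : A →+* B) (hφ : IsLocalHom φ) :
    IsMatOf (ρ.baseChangeAlong φ hφ) (fun σ => (r σ).map φ) := by
  obtain ⟨b, hb⟩ := h
  let _ : Algebra A B := φ.toAlgebra
  refine ⟨Algebra.TensorProduct.basis B b, fun σ => ?_⟩
  show LinearMap.toMatrix (Algebra.TensorProduct.basis B b) (Algebra.TensorProduct.basis B b)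
    ((ρ.ρ σ).baseChange B) = (r σ).map φ
  rw [LinearMap.toMatrix_baseChange, hb σ]
  rfl

theorem IsMatOf.conj {ρ : GaloisRepAdic A} {r r' : Gal → M2 A} (h : IsMatOf ρ r)
    (g : M2 A) (hg : IsUnit g) (hr' : ∀ σ, g * r σ = r' σ * g) : IsMatOf ρ r' := by
  obtain ⟨b, hb⟩ := h
  exact h1_exists_basis_conj b (fun σ => ρ.ρ σ) r r' hb g hg hr'

theorem IsMatOf.residual {ρ : GaloisRepAdic A} {r : Gal → M2 A} (h : IsMatOf ρ r) :
    IsMatOfRes ρ.residual (fun σ => (r σ).map (IsLocalRing.residue A)) := by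
  obtain ⟨b, hb⟩ := h
  refine ⟨Algebra.TensorProduct.basis (IsLocalRing.ResidueField A) b, fun σ => ?_⟩
  show LinearMap.toMatrix (Algebra.TensorProduct.basis (IsLocalRing.ResidueField A) b)
    (Algebra.TensorProduct.basis (IsLocalRing.ResidueField A) b)
    ((ρ.ρ σ).baseChange (IsLocalRing.ResidueField A)) = (r σ).map (IsLocalRing.residue A)
  rw [LinearMap.toMatrix_baseChange, hb σ]
  rfl

end Adic

section Residual

theorem IsMatOfRes.baseChange {k k' : Type} [Field k] [Field k'] [Algebra k k']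
    {ρ : ResidualGaloisRep k} {r : Gal → M2 k} (h : IsMatOfRes ρ r) :
    IsMatOfRes (ρ.baseChange k') (fun σ => (r σ).map (algebraMap k k')) := by
  obtain ⟨b, hb⟩ := h
  refine ⟨Algebra.TensorProduct.basis k' b, fun σ => ?_⟩
  show LinearMap.toMatrix (Algebra.TensorProduct.basis k' b) (Algebra.TensorProduct.basis k' b)
    ((ρ.ρ σ).baseChange k') = (r σ).map (algebraMap k k')
  rw [LinearMap.toMatrix_baseChange, hb σ]

theorem res_isEquiv_iff_of_isMatOfRes {k : Type} [Field k] {ρ ρ' : ResidualGaloisRep k}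
    {r r' : Gal → M2 k} (h : IsMatOfRes ρ r) (h' : IsMatOfRes ρ' r') :
    ρ.IsEquiv ρ' ↔ ∃ g : M2 k, IsUnit g ∧ ∀ σ, g * r σ = r' σ * g := by
  obtain ⟨b, hb⟩ := h
  obtain ⟨b', hb'⟩ := h'
  rw [← h1_exists_linearEquiv_iff b b' (fun σ => ρ.ρ σ) (fun σ => ρ'.ρ σ) r r' hb hb']
  constructor
  · rintro ⟨e⟩
    exact ⟨e.toLinearEquiv, e.map_apply⟩
  · rintro ⟨e, he⟩
    exact ⟨⟨e, he⟩⟩

end Residual

end H24S53
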