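import Fermat.Agent.S53.Core6
import Fermat.Agent.S53.MatrixRep

/-!
# S53, slice P0: the maximal ideal `Mbar rbar` is a good ideal

`rbar` itself is a normalised `𝒟`-deformation over the residue field `k = ResidueField 𝒪`
(a finite test algebra), and `Mbar rbar` is by definition the kernel of `evP rbar`.
-/

set_option autoImplicit false
open IsLocalRing

namespace H24S53

variable {𝒪 : Type} [CommRing 𝒪] [IsLocalRing 𝒪]
  {𝒟 : ∀ ⦃A : Type⦄ [CommRing A] [IsLocalRing A] [Algebra 𝒪 A], GaloisRepAdic A → Prop}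

/-- A matrix of the residual representation is a matrix of the associated `GaloisRepAdic`. -/
theorem h19_isMatOf_ofResidual {k : Type} [Field k] (ρbar : ResidualGaloisRep k)
    (rbar : Gal → M2 k) (hrbar : IsMatOfRes ρbar rbar) :
    IsMatOf (GaloisRepAdic.ofResidualGaloisRep ρbar) rbar := by
  obtain ⟨b, hb⟩ := hrbar
  exact ⟨b, hb⟩

/-- `ev` over the residue field is the residual combination. -/
theorem h19_ev_residueField (rbar : Gal → M2 (ResidueField 𝒪)) (l : List (𝒪 × Gal)) :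
    ev (𝒪 := 𝒪) rbar l = (l.map fun p => residue 𝒪 p.1 • rbar p.2).sum := rfl

/-- `rbar` is a normalised `𝒟`-deformation of itself over the residue field. -/
theorem h19_isNDef_rbar (h𝒟 : GaloisRep.IsDeformationCondition 𝒪 𝒟)
    (ρbar : ResidualGaloisRep (ResidueField 𝒪))
    (hbar : 𝒟 (GaloisRepAdic.ofResidualGaloisRep ρbar))
    (rbar : Gal → M2 (ResidueField 𝒪)) (hrbar : IsMatOfRes ρbar rbar)
    (l₀ l₁ : List (𝒪 × Gal))
    (h₀ : (l₀.map fun p => residue 𝒪 p.1 • rbar p.2).sum = Matrix.single 0 0 1)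
    (h₁ : (l₁.map fun p => residue 𝒪 p.1 • rbar p.2).sum = Matrix.single 1 0 1) :
    IsNDef 𝒟 rbar l₀ l₁ (ResidueField 𝒪) rbar := by
  have hM : IsMatOf (GaloisRepAdic.ofResidualGaloisRep ρbar) rbar :=
    h19_isMatOf_ofResidual ρbar rbar hrbar
  have hhom : IsHom rbar := hM.isHom
  have hcont : MatCont (ResidueField 𝒪) rbar := hM.matCont
  have hloc : IsLocalHom (algebraMap 𝒪 (ResidueField 𝒪)) := by
    show IsLocalHom (residue 𝒪)
    infer_instance
  have hsurj : Function.Surjective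
      (residue (ResidueField 𝒪) ∘ algebraMap 𝒪 (ResidueField 𝒪)) :=
    (IsLocalRing.residue_surjective (R := ResidueField 𝒪)).comp
      (IsLocalRing.residue_surjective (R := 𝒪))
  have htest : GaloisRep.IsArtinianTestAlgebra 𝒪 (ResidueField 𝒪) :=
    ⟨hloc, hsurj, inferInstance⟩
  refine ⟨hloc, hsurj, hhom, hcont, ?_, ?_, ?_⟩
  · intro σ i j c hc
    have : algebraMap 𝒪 (ResidueField 𝒪) c = rbar σ i j := hc
    rw [this, sub_self]
    exact Ideal.zero_mem _
  · refine ⟨?_, ?_, ?_⟩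
    · rw [h19_ev_residueField, h₀]
      simp [Matrix.single]
    · rw [h19_ev_residueField, h₀]
      simp [Matrix.single]
    · rw [h19_ev_residueField, h₁]
      simp [Matrix.single]
  · have e : (GaloisRepAdic.ofResidualGaloisRep ρbar).IsEquiv (ofMat rbar hhom hcont) :=
      (isEquiv_iff_of_isMatOf hM (isMatOf_ofMat rbar hhom hcont)).mpr
        ⟨1, isUnit_one, fun σ => by rw [one_mul, mul_one]⟩
    exact h𝒟.of_isEquiv htest e hbar

/-- **Slice P0**: `Mbar rbar` is a good ideal. -/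
theorem kGood_Mbar [Finite (ResidueField 𝒪)] (h𝒟 : GaloisRep.IsDeformationCondition 𝒪 𝒟)
    (ρbar : ResidualGaloisRep (ResidueField 𝒪))
    (hbar : 𝒟 (GaloisRepAdic.ofResidualGaloisRep ρbar))
    (rbar : Gal → M2 (ResidueField 𝒪)) (hrbar : IsMatOfRes ρbar rbar)
    (l₀ l₁ : List (𝒪 × Gal))
    (h₀ : (l₀.map fun p => residue 𝒪 p.1 • rbar p.2).sum = Matrix.single 0 0 1)
    (h₁ : (l₁.map fun p => residue 𝒪 p.1 • rbar p.2).sum = Matrix.single 1 0 1) :
    KGood 𝒟 rbar l₀ l₁ (Mbar rbar) :=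
  kGood_ker h𝒟 (h19_isNDef_rbar h𝒟 ρbar hbar rbar hrbar l₀ l₁ h₀ h₁)

end H24S53
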