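import Fermat.Agent.S53.Defs

/-!
# S53, Component N: normalisation of matrix lifts (helper2)
-/

set_option autoImplicit false

namespace H24S53

open IsLocalRing

section Basic

variable {A : Type} [CommRing A]

/-- `ev` is compatible with two-sided multiplication. -/
theorem h2_ev_conj {𝒪 : Type} [CommRing 𝒪] [Algebra 𝒪 A] (g h : M2 A) (r : Gal → M2 A)
    (l : List (𝒪 × Gal)) : ev (fun σ => g * r σ * h) l = g * ev r l * h := by
  unfold ev
  induction l with
  | nil => simp
  | cons p l ih =>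
    simp only [List.map_cons, List.sum_cons] at ih ⊢
    rw [ih, mul_add, add_mul, Matrix.mul_smul, Matrix.smul_mul]

theorem ev_map {𝒪 : Type} [CommRing 𝒪] [Algebra 𝒪 A] {B : Type} [CommRing B] [Algebra 𝒪 B]
    (φ : A →ₐ[𝒪] B) (r : Gal → M2 A)
    (l : List (𝒪 × Gal)) : (ev r l).map φ = ev (fun σ => (r σ).map φ) l := by
  unfold ev
  induction l with
  | nil => simp
  | cons p l ih =>
    simp only [List.map_cons, List.sum_cons] at ih ⊢
    rw [← ih]
    ext i j
    simp only [Matrix.map_apply, Matrix.add_apply, Matrix.smul_apply, smul_eq_mul, map_add,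
      map_mul, AlgHom.commutes]

theorem h2_unit_mul_inv {g : M2 A} (hg : IsUnit g) :
    g * ((hg.unit⁻¹ : (M2 A)ˣ) : M2 A) = 1 := by
  have := hg.unit.mul_inv
  rwa [IsUnit.unit_spec] at this

theorem h2_unit_inv_mul {g : M2 A} (hg : IsUnit g) :
    ((hg.unit⁻¹ : (M2 A)ˣ) : M2 A) * g = 1 := by
  have := hg.unit.inv_mul
  rwa [IsUnit.unit_spec] at this

theorem h2_conj_eq {r r' : Gal → M2 A} (g : M2 A) (hg : IsUnit g)
    (h : ∀ σ, g * r σ = r' σ * g) (σ : Gal) : r' σ = g * r σ * ((hg.unit⁻¹ : (M2 A)ˣ) : M2 A) := by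
  rw [h σ, mul_assoc, h2_unit_mul_inv hg, mul_one]

theorem isHom_conj {r r' : Gal → M2 A} (hr : IsHom r) (g : M2 A) (hg : IsUnit g)
    (h : ∀ σ, g * r σ = r' σ * g) : IsHom r' := by
  have h1 := h2_unit_mul_inv hg
  have h2 := h2_unit_inv_mul hg
  refine ⟨?_, fun σ τ => ?_⟩
  · rw [h2_conj_eq g hg h, hr.1, mul_one, h1]
  · rw [h2_conj_eq g hg h (σ * τ), h2_conj_eq g hg h σ, h2_conj_eq g hg h τ, hr.2]
    calc g * (r σ * r τ) * ((hg.unit⁻¹ : (M2 A)ˣ) : M2 A)
        = g * r σ * 1 * r τ * ((hg.unit⁻¹ : (M2 A)ˣ) : M2 A) := by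
          simp only [mul_one, mul_assoc]
      _ = g * r σ * (((hg.unit⁻¹ : (M2 A)ˣ) : M2 A) * g) * r τ *
            ((hg.unit⁻¹ : (M2 A)ˣ) : M2 A) := by rw [h2]
      _ = _ := by simp only [mul_assoc]

/-- Entries in an ideal are preserved by left and right multiplication. -/
theorem h2_mul_mem (I : Ideal A) (g m h : M2 A) (hm : ∀ i j, m i j ∈ I) :
    ∀ i j, (g * m * h) i j ∈ I := by
  intro i j
  rw [Matrix.mul_apply]
  refine Ideal.sum_mem _ fun k _ => Ideal.mul_mem_right _ _ ?_
  rw [Matrix.mul_apply]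
  exact Ideal.sum_mem _ fun k' _ => Ideal.mul_mem_left _ _ (hm k' k)

theorem matCont_conj [IsLocalRing A] {r r' : Gal → M2 A} (hr : MatCont A r) (g : M2 A)
    (hg : IsUnit g) (h : ∀ σ, g * r σ = r' σ * g) : MatCont A r' := by
  have h1 := h2_unit_mul_inv hg
  intro n
  obtain ⟨L, hL, hc⟩ := hr n
  refine ⟨L, hL, fun σ hσ => ?_⟩
  have e : r' σ - 1 = g * (r σ - 1) * ((hg.unit⁻¹ : (M2 A)ˣ) : M2 A) := by
    rw [h2_conj_eq g hg h σ, mul_sub, sub_mul, mul_one, h1]
  rw [e]
  exact h2_mul_mem _ _ _ _ (hc σ hσ)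

end Basic

section Residue

variable {𝒪 A : Type} [CommRing 𝒪] [IsLocalRing 𝒪] [CommRing A] [IsLocalRing A]
  [Algebra 𝒪 A] [IsLocalHom (algebraMap 𝒪 A)]

/-- `Lifts` in terms of the residue map. -/
theorem h2_lifts_iff (rbar : Gal → M2 (ResidueField 𝒪)) (r : Gal → M2 A) :
    Lifts rbar r ↔ ∀ σ i j, residue A (r σ i j) =
      ResidueField.map (algebraMap 𝒪 A) (rbar σ i j) := by
  constructor
  · intro hl σ i j
    obtain ⟨c, hc⟩ := residue_surjective (rbar σ i j)
    have := hl σ i j c hc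
    rw [← residue_eq_zero_iff, map_sub, sub_eq_zero] at this
    rw [this, ← hc, ResidueField.map_residue]
  · intro hl σ i j c hc
    rw [← residue_eq_zero_iff, map_sub, sub_eq_zero, hl, ← hc, ResidueField.map_residue]

/-- The residue of `ev r l` is the image of the residual combination. -/
theorem h2_residue_ev (rbar : Gal → M2 (ResidueField 𝒪)) (r : Gal → M2 A) (hl : Lifts rbar r)
    (l : List (𝒪 × Gal)) (i j : Fin 2) :
    residue A (ev r l i j) = ResidueField.map (algebraMap 𝒪 A)
      ((l.map fun p => residue 𝒪 p.1 • rbar p.2).sum i j) := by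
  rw [h2_lifts_iff] at hl
  unfold ev
  induction l with
  | nil => simp
  | cons p l ih =>
    simp only [List.map_cons, List.sum_cons, Matrix.add_apply, Matrix.smul_apply, smul_eq_mul,
      map_add, map_mul]
    rw [ih, hl, ResidueField.map_residue]

/-- Residues of the entries of `ev r l₀` when the residual combination is `E₁₁`. -/
theorem h2_residue_ev_single (rbar : Gal → M2 (ResidueField 𝒪)) (r : Gal → M2 A)
    (hl : Lifts rbar r) (l : List (𝒪 × Gal)) (a b : Fin 2)
    (h : (l.map fun p => residue 𝒪 p.1 • rbar p.2).sum = Matrix.single a b 1) (i j : Fin 2) :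
    residue A (ev r l i j) = if a = i ∧ b = j then 1 else 0 := by
  rw [h2_residue_ev rbar r hl l i j, h, Matrix.single_apply]
  split_ifs <;> simp

theorem h2_isUnit_of_residue_eq_one {x : A} (h : residue A x = 1) : IsUnit x := by
  by_contra hx
  have : x ∈ maximalIdeal A := (mem_maximalIdeal x).2 hx
  rw [← residue_eq_zero_iff, h] at this
  exact one_ne_zero this

theorem h2_eq_zero_of_mul_eq_zero {x y : A} (h : x * y = 0) (hy : residue A y = 1) : x = 0 := by
  obtain ⟨u, hu⟩ := (h2_isUnit_of_residue_eq_one hy).exists_right_inv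
  calc x = x * (y * u) := by rw [hu, mul_one]
    _ = x * y * u := by ring
    _ = 0 := by rw [h, zero_mul]

set_option linter.unusedVariables false in
theorem normalized_unique
    (rbar : Gal → M2 (ResidueField 𝒪)) (l₀ l₁ : List (𝒪 × Gal))
    (h₀ : (l₀.map fun p => residue 𝒪 p.1 • rbar p.2).sum = Matrix.single 0 0 1)
    (h₁ : (l₁.map fun p => residue 𝒪 p.1 • rbar p.2).sum = Matrix.single 1 0 1)
    (r r' : Gal → M2 A) (hl : Lifts rbar r) (hl' : Lifts rbar r')
    (hn : IsNormalized l₀ l₁ r) (hn' : IsNormalized l₀ l₁ r')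
    (g : M2 A) (hg : IsUnit g) (h : ∀ σ, g * r σ = r' σ * g) : r = r' := by
  -- transport the intertwining relation to `ev`
  have hev : ∀ l : List (𝒪 × Gal), g * ev r l = ev r' l * g := by
    intro l
    have e1 := h2_ev_conj g 1 r l
    have e2 := h2_ev_conj 1 g r' l
    have e3 : (fun σ => g * r σ * 1) = (fun σ => 1 * r' σ * g) := by
      funext σ
      rw [mul_one, one_mul, h σ]
    rw [e3, e2, one_mul, mul_one] at e1
    exact e1.symm
  obtain ⟨hX01, hX10, hY10⟩ := hn
  obtain ⟨hX'01, hX'10, hY'10⟩ := hn'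
  have rX00 := h2_residue_ev_single rbar r hl l₀ 0 0 h₀ 0 0
  have rX11 := h2_residue_ev_single rbar r hl l₀ 0 0 h₀ 1 1
  have rX'00 := h2_residue_ev_single rbar r' hl' l₀ 0 0 h₀ 0 0
  have rX'11 := h2_residue_ev_single rbar r' hl' l₀ 0 0 h₀ 1 1
  simp only [and_self, if_true] at rX00 rX'00
  have rX11' : residue A (ev r l₀ 1 1) = 0 := by rw [rX11]; simp
  have rX'11' : residue A (ev r' l₀ 1 1) = 0 := by rw [rX'11]; simp
  have hX := hev l₀
  have hY := hev l₁
  -- entries of `g * X = X' * g`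
  have e01 := congrFun (congrFun hX 0) 1
  have e10 := congrFun (congrFun hX 1) 0
  simp only [Matrix.mul_apply, Fin.sum_univ_two, hX01, hX10, hX'01, hX'10, mul_zero, zero_mul,
    zero_add, add_zero] at e01 e10
  have g01 : g 0 1 = 0 := by
    apply h2_eq_zero_of_mul_eq_zero (y := ev r' l₀ 0 0 - ev r l₀ 1 1)
    · linear_combination -e01
    · rw [map_sub, rX'00, rX11', sub_zero]
  have g10 : g 1 0 = 0 := by
    apply h2_eq_zero_of_mul_eq_zero (y := ev r l₀ 0 0 - ev r' l₀ 1 1)
    · linear_combination e10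
    · rw [map_sub, rX00, rX'11', sub_zero]
  have f10 := congrFun (congrFun hY 1) 0
  simp only [Matrix.mul_apply, Fin.sum_univ_two, hY10, hY'10, g10, mul_zero, zero_mul,
    zero_add, add_zero, mul_one, one_mul] at f10
  -- so `g` is scalar
  have hgs : g = g 0 0 • (1 : M2 A) := by
    ext i j
    fin_cases i <;> fin_cases j <;> simp [g01, g10, f10]
  have hdet : IsUnit (g 0 0) := by
    have hd := (Matrix.isUnit_iff_isUnit_det g).1 hg
    rw [Matrix.det_fin_two, g01, zero_mul, sub_zero, f10] at hd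
    exact isUnit_of_mul_isUnit_left hd
  funext σ
  have hσ := h σ
  rw [hgs, Matrix.smul_mul, Matrix.mul_smul, one_mul, mul_one] at hσ
  ext i j
  have := congrFun (congrFun hσ i) j
  simp only [Matrix.smul_apply, smul_eq_mul] at this
  exact hdet.mul_left_cancel this

theorem h2_ext {R : Type} [CommRing R] (M N : M2 R) (h00 : M 0 0 = N 0 0) (h01 : M 0 1 = N 0 1)
    (h10 : M 1 0 = N 1 0) (h11 : M 1 1 = N 1 1) : M = N := by
  ext i j
  fin_cases i <;> fin_cases j <;> assumption

theorem h2_mapMatrix_eq_one (M : M2 A) (h00 : residue A (M 0 0) = 1)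
    (h01 : residue A (M 0 1) = 0) (h10 : residue A (M 1 0) = 0) (h11 : residue A (M 1 1) = 1) :
    (residue A).mapMatrix M = 1 := by
  apply h2_ext <;> simp [RingHom.mapMatrix_apply, Matrix.map_apply, *]

theorem h2_mem_of_mapMatrix_eq (M N : M2 A)
    (h : (residue A).mapMatrix M = (residue A).mapMatrix N) (i j : Fin 2) :
    (M - N) i j ∈ maximalIdeal A := by
  have := congrFun (congrFun h i) j
  simp only [RingHom.mapMatrix_apply, Matrix.map_apply] at this
  rw [Matrix.sub_apply, ← residue_eq_zero_iff, map_sub, this, sub_self]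

theorem h2_residue_of_mapMatrix_eq (M N : M2 A)
    (h : (residue A).mapMatrix M = (residue A).mapMatrix N) (i j : Fin 2) :
    residue A (M i j) = residue A (N i j) := by
  have := congrFun (congrFun h i) j
  simpa only [RingHom.mapMatrix_apply, Matrix.map_apply] using this

set_option linter.overlappingInstances false in
open Polynomial in
theorem h2_hensel_root [HenselianLocalRing A] (a b c d : A) (ra : residue A a = 1)
    (rb : residue A b = 0) (rc : residue A c = 0) (rd : residue A d = 0) :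
    ∃ μ : A, μ ^ 2 - (a + d) * μ + (a * d - b * c) = 0 ∧ residue A μ = 0 := by
  let f : A[X] := X ^ 2 - C (a + d) * X + C (a * d - b * c)
  have hf : f.Monic := by
    have : f = X ^ 2 + (C (-(a + d)) * X + C (a * d - b * c)) := by
      simp only [f, map_neg]; ring
    rw [this]
    apply Polynomial.monic_X_pow_add
    refine lt_of_le_of_lt (Polynomial.degree_add_le _ _) ?_
    refine max_lt ?_ ?_
    · refine lt_of_le_of_lt (Polynomial.degree_C_mul_X_le _) (by norm_num)
    · refine lt_of_le_of_lt Polynomial.degree_C_le (by norm_num)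
  have hf0 : f.eval 0 ∈ maximalIdeal A := by
    simp only [f, eval_add, eval_sub, eval_pow, eval_X, eval_mul, eval_C]
    rw [← residue_eq_zero_iff]
    simp [rb, rc, rd]
  have hf' : IsUnit (f.derivative.eval 0) := by
    have : f.derivative.eval 0 = -(a + d) := by
      simp [f, derivative_add, derivative_sub, derivative_mul, derivative_pow]
    rw [this]
    refine (h2_isUnit_of_residue_eq_one (x := a + d) ?_).neg
    rw [map_add, ra, rd, add_zero]
  obtain ⟨μ, hμ, hμm⟩ := HenselianLocalRing.is_henselian f hf 0 hf0 hf'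
  refine ⟨μ, ?_, ?_⟩
  · have := hμ
    simp only [IsRoot.def, f, eval_add, eval_sub, eval_pow, eval_X, eval_mul, eval_C] at this
    exact this
  · rw [sub_zero] at hμm
    exact (residue_eq_zero_iff μ).2 hμm

theorem h2_of_eq {R : Type} [CommRing R] {a b c d a' b' c' d' : R} (h1 : a = a') (h2 : b = b')
    (h3 : c = c') (h4 : d = d') : (!![a, b; c, d] : M2 R) = !![a', b'; c', d'] := by
  rw [h1, h2, h3, h4]

theorem h2_mapMatrix_of (a b c d : A) :
    (residue A).mapMatrix (!![a, b; c, d] : M2 A) =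
      !![residue A a, residue A b; residue A c, residue A d] := by
  apply h2_ext <;> simp [RingHom.mapMatrix_apply, Matrix.map_apply]

set_option linter.overlappingInstances false in
theorem normalize_exists [HenselianLocalRing A]
    (rbar : Gal → M2 (ResidueField 𝒪)) (l₀ l₁ : List (𝒪 × Gal))
    (h₀ : (l₀.map fun p => residue 𝒪 p.1 • rbar p.2).sum = Matrix.single 0 0 1)
    (h₁ : (l₁.map fun p => residue 𝒪 p.1 • rbar p.2).sum = Matrix.single 1 0 1)
    (r : Gal → M2 A) (hl : Lifts rbar r) :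
    ∃ g : M2 A, IsUnit g ∧ (∀ i j, (g - 1) i j ∈ maximalIdeal A) ∧
      ∃ r' : Gal → M2 A, (∀ σ, g * r σ = r' σ * g) ∧ Lifts rbar r' ∧ IsNormalized l₀ l₁ r' := by
  -- entries of `X = ev r l₀`
  have ra : residue A (ev r l₀ 0 0) = 1 := by
    rw [h2_residue_ev_single rbar r hl l₀ 0 0 h₀ 0 0]; simp
  have rb : residue A (ev r l₀ 0 1) = 0 := by
    rw [h2_residue_ev_single rbar r hl l₀ 0 0 h₀ 0 1]; simp
  have rc : residue A (ev r l₀ 1 0) = 0 := by
    rw [h2_residue_ev_single rbar r hl l₀ 0 0 h₀ 1 0]; simp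
  have rd : residue A (ev r l₀ 1 1) = 0 := by
    rw [h2_residue_ev_single rbar r hl l₀ 0 0 h₀ 1 1]; simp
  have rY10 : residue A (ev r l₁ 1 0) = 1 := by
    rw [h2_residue_ev_single rbar r hl l₁ 1 0 h₁ 1 0]; simp
  have hXeq : ev r l₀ = !![ev r l₀ 0 0, ev r l₀ 0 1; ev r l₀ 1 0, ev r l₀ 1 1] :=
    Matrix.eta_fin_two _
  generalize ev r l₀ 0 0 = a at ra hXeq
  generalize ev r l₀ 0 1 = b at rb hXeq
  generalize ev r l₀ 1 0 = c at rc hXeq
  generalize ev r l₀ 1 1 = d at rd hXeq
  obtain ⟨μ, hμ, rμ⟩ := h2_hensel_root a b c d ra rb rc rd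
  -- the other eigenvalue is `a + d - μ`
  obtain ⟨p, hp⟩ := (h2_isUnit_of_residue_eq_one (x := a + d - μ - d)
    (by simp [ra, rμ])).exists_right_inv
  obtain ⟨q, hq⟩ := (h2_isUnit_of_residue_eq_one (x := a - μ)
    (by simp [ra, rμ])).exists_right_inv
  have rt : residue A (c * p) = 0 := by rw [map_mul, rc, zero_mul]
  have rs : residue A (-b * q) = 0 := by rw [map_mul, map_neg, rb, neg_zero, zero_mul]
  -- eigenvector relations
  have E1 : c = (a + d - μ - d) * (c * p) := by linear_combination -c * hp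
  have E2 : b = -(a - μ) * (-b * q) := by linear_combination -b * hq
  generalize c * p = t at rt E1
  generalize -b * q = s at rs E2
  obtain ⟨w, hw⟩ := (h2_isUnit_of_residue_eq_one (x := 1 - s * t)
    (by simp [rs, rt])).exists_right_inv
  have rw' : residue A w = 1 := by
    have := congrArg (residue A) hw
    simpa [rs, rt] using this
  -- the matrices
  have hPP : (!![w, -s * w; -t * w, w] : M2 A) * !![1, s; t, 1] = 1 := by
    rw [Matrix.mul_fin_two, Matrix.one_fin_two]
    apply h2_of_eq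
    · linear_combination hw
    · ring
    · ring
    · linear_combination hw
  have hPP' : (!![1, s; t, 1] : M2 A) * !![w, -s * w; -t * w, w] = 1 := by
    rw [Matrix.mul_fin_two, Matrix.one_fin_two]
    apply h2_of_eq
    · linear_combination hw
    · ring
    · ring
    · linear_combination hw
  have hXP : ev r l₀ * (!![1, s; t, 1] : M2 A) = !![1, s; t, 1] * !![a + d - μ, 0; 0, μ] := by
    rw [hXeq, Matrix.mul_fin_two, Matrix.mul_fin_two]
    apply h2_of_eq
    · linear_combination (-(b * t - d + μ)) * hq + (-q * b) * E1 + (-q) * hμ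
    · linear_combination E2
    · linear_combination E1
    · linear_combination (-(c * s + d - μ)) * hq + (q * c) * E2 + q * hμ
  -- residues of `P`, `P⁻¹`
  have rP : (residue A).mapMatrix (!![1, s; t, 1] : M2 A) = 1 := by
    rw [h2_mapMatrix_of, rs, rt, map_one, Matrix.one_fin_two]
  have rPinv : (residue A).mapMatrix (!![w, -s * w; -t * w, w] : M2 A) = 1 := by
    rw [h2_mapMatrix_of, Matrix.one_fin_two]
    apply h2_of_eq
    · exact rw'
    · rw [map_mul, map_neg, rs, neg_zero, zero_mul]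
    · rw [map_mul, map_neg, rt, neg_zero, zero_mul]
    · exact rw'
  -- the rescaling unit
  have hZeq : (!![w, -s * w; -t * w, w] : M2 A) * ev r l₁ * !![1, s; t, 1] =
      !![((!![w, -s * w; -t * w, w] : M2 A) * ev r l₁ * !![1, s; t, 1]) 0 0,
         ((!![w, -s * w; -t * w, w] : M2 A) * ev r l₁ * !![1, s; t, 1]) 0 1;
         ((!![w, -s * w; -t * w, w] : M2 A) * ev r l₁ * !![1, s; t, 1]) 1 0,
         ((!![w, -s * w; -t * w, w] : M2 A) * ev r l₁ * !![1, s; t, 1]) 1 1] :=
    Matrix.eta_fin_two _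
  have ru : residue A (((!![w, -s * w; -t * w, w] : M2 A) * ev r l₁ * !![1, s; t, 1]) 1 0) = 1 := by
    rw [h2_residue_of_mapMatrix_eq _ (ev r l₁) (by rw [map_mul, map_mul, rP, rPinv, one_mul, mul_one])]
    exact rY10
  generalize ((!![w, -s * w; -t * w, w] : M2 A) * ev r l₁ * !![1, s; t, 1]) 0 0 = z00 at hZeq
  generalize ((!![w, -s * w; -t * w, w] : M2 A) * ev r l₁ * !![1, s; t, 1]) 0 1 = z01 at hZeq
  generalize ((!![w, -s * w; -t * w, w] : M2 A) * ev r l₁ * !![1, s; t, 1]) 1 0 = u at hZeq ru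
  generalize ((!![w, -s * w; -t * w, w] : M2 A) * ev r l₁ * !![1, s; t, 1]) 1 1 = z11 at hZeq
  obtain ⟨v, hv⟩ := (h2_isUnit_of_residue_eq_one ru).exists_right_inv
  have rv : residue A v = 1 := by
    have := congrArg (residue A) hv
    simpa [ru] using this
  have hDD : (!![1, 0; 0, v] : M2 A) * !![1, 0; 0, u] = 1 := by
    rw [Matrix.mul_fin_two, Matrix.one_fin_two]
    apply h2_of_eq
    · ring
    · ring
    · ring
    · linear_combination hv
  have hDD' : (!![1, 0; 0, u] : M2 A) * !![1, 0; 0, v] = 1 := by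
    rw [Matrix.mul_fin_two, Matrix.one_fin_two]
    apply h2_of_eq
    · ring
    · ring
    · ring
    · linear_combination hv
  have rD : (residue A).mapMatrix (!![1, 0; 0, v] : M2 A) = 1 := by
    rw [h2_mapMatrix_of, rv, map_one, map_zero, Matrix.one_fin_two]
  have rDinv : (residue A).mapMatrix (!![1, 0; 0, u] : M2 A) = 1 := by
    rw [h2_mapMatrix_of, ru, map_one, map_zero, Matrix.one_fin_two]
  -- assemble
  generalize hPdef : (!![1, s; t, 1] : M2 A) = P at hPP hPP' hXP rP hZeq
  generalize hPinvdef : (!![w, -s * w; -t * w, w] : M2 A) = Pinv at hPP hPP' rPinv hZeq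
  generalize hDdef : (!![1, 0; 0, v] : M2 A) = Dd at hDD hDD' rD
  generalize hDinvdef : (!![1, 0; 0, u] : M2 A) = Ddinv at hDD hDD' rDinv
  have hg1 : (Dd * Pinv) * (P * Ddinv) = 1 := by
    calc (Dd * Pinv) * (P * Ddinv) = Dd * (Pinv * P) * Ddinv := by simp only [mul_assoc]
      _ = 1 := by rw [hPP, mul_one, hDD]
  have hg2 : (P * Ddinv) * (Dd * Pinv) = 1 := by
    calc (P * Ddinv) * (Dd * Pinv) = P * (Ddinv * Dd) * Pinv := by simp only [mul_assoc]
      _ = 1 := by rw [hDD', mul_one, hPP']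
  have rg : (residue A).mapMatrix (Dd * Pinv) = 1 := by rw [map_mul, rD, rPinv, one_mul]
  have rginv : (residue A).mapMatrix (P * Ddinv) = 1 := by rw [map_mul, rP, rDinv, one_mul]
  refine ⟨Dd * Pinv, isUnit_iff_exists.2 ⟨P * Ddinv, hg1, hg2⟩, ?_,
    fun σ => (Dd * Pinv) * r σ * (P * Ddinv), ?_, ?_, ?_⟩
  · exact h2_mem_of_mapMatrix_eq (Dd * Pinv) 1 (by rw [rg, map_one])
  · intro σ
    rw [mul_assoc ((Dd * Pinv) * r σ), hg2, mul_one]
  · rw [h2_lifts_iff] at hl ⊢
    intro σ i j
    rw [← hl σ i j]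
    exact h2_residue_of_mapMatrix_eq ((Dd * Pinv) * r σ * (P * Ddinv)) (r σ)
      (by rw [map_mul, map_mul, rg, rginv, one_mul, mul_one]) i j
  · have key₀ : ev (fun σ => (Dd * Pinv) * r σ * (P * Ddinv)) l₀ =
        Dd * !![a + d - μ, 0; 0, μ] * Ddinv := by
      rw [h2_ev_conj]
      calc Dd * Pinv * ev r l₀ * (P * Ddinv) = Dd * Pinv * (ev r l₀ * P) * Ddinv := by
            simp only [mul_assoc]
        _ = Dd * (Pinv * P) * !![a + d - μ, 0; 0, μ] * Ddinv := by
            rw [hXP]; simp only [mul_assoc]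
        _ = _ := by rw [hPP, mul_one]
    have key₁ : ev (fun σ => (Dd * Pinv) * r σ * (P * Ddinv)) l₁ =
        Dd * !![z00, z01; u, z11] * Ddinv := by
      rw [h2_ev_conj, ← hZeq]
      simp only [mul_assoc]
    refine ⟨?_, ?_, ?_⟩
    · rw [key₀, ← hDdef, ← hDinvdef, Matrix.mul_fin_two, Matrix.mul_fin_two]
      simp
    · rw [key₀, ← hDdef, ← hDinvdef, Matrix.mul_fin_two, Matrix.mul_fin_two]
      simp
    · rw [key₁, ← hDdef, ← hDinvdef, Matrix.mul_fin_two, Matrix.mul_fin_two]
      simp only [Matrix.of_apply, Matrix.cons_val', Matrix.cons_val_zero, Matrix.cons_val_one,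
        Matrix.cons_val_fin_one]
      linear_combination hv

end Residue

end H24S53
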