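import Fermat.Agent.S53.MatrixRep
import Fermat.Agent.S53.Normalize

/-!
# S53, Component E: residual condition versus lifting matrices

* `H24S53.exists_isMatOf_lifts`: a deformation of `ρbar` has a matrix lifting `rbar`;
* `H24S53.residual_isEquiv_of_lifts`: conversely a representation with a matrix lifting `rbar`
  has residual representation equivalent to (the base change of) `ρbar`.
-/

set_option autoImplicit false

namespace H24S53

open IsLocalRing

variable {𝒪 A : Type} [CommRing 𝒪] [IsLocalRing 𝒪] [CommRing A] [IsLocalRing A]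
  [Algebra 𝒪 A] [IsLocalHom (algebraMap 𝒪 A)]

/-- The matrix of the base change of `ρbar` along the map of residue fields. -/
theorem h13_isMatOfRes_baseChangeAlong
    (ρbar : ResidualGaloisRep (ResidueField 𝒪)) (rbar : Gal → M2 (ResidueField 𝒪))
    (hrbar : IsMatOfRes ρbar rbar) :
    IsMatOfRes (ρbar.baseChangeAlong (ResidueField.map (algebraMap 𝒪 A)))
      (fun σ => (rbar σ).map (ResidueField.map (algebraMap 𝒪 A))) := by
  letI : Algebra (ResidueField 𝒪) (ResidueField A) :=
    (ResidueField.map (algebraMap 𝒪 A)).toAlgebra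
  exact IsMatOfRes.baseChange (k' := ResidueField A) hrbar

/-- `Lifts` as an equality of matrices over the residue field. -/
theorem h13_lifts_iff_map (rbar : Gal → M2 (ResidueField 𝒪)) (r : Gal → M2 A) :
    Lifts rbar r ↔ ∀ σ, (r σ).map (residue A) =
      (rbar σ).map (ResidueField.map (algebraMap 𝒪 A)) := by
  rw [h2_lifts_iff]
  constructor
  · intro h σ
    ext i j
    simp only [Matrix.map_apply]
    exact h σ i j
  · intro h σ i j
    have := congrFun (congrFun (h σ) i) j
    simpa only [Matrix.map_apply] using this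

/-- Lift an invertible matrix over the residue field to an invertible matrix. -/
theorem h13_exists_unit_lift (gbar : M2 (ResidueField A)) (hg : IsUnit gbar) :
    ∃ g : M2 A, IsUnit g ∧ g.map (residue A) = gbar := by
  choose f hf using fun i j => residue_surjective (gbar i j)
  refine ⟨Matrix.of f, ?_, ?_⟩
  · rw [Matrix.isUnit_iff_isUnit_det]
    have hdet : residue A (Matrix.of f).det = gbar.det := by
      rw [RingHom.map_det]
      congr 1
      ext i j
      simp [hf]
    have hne : residue A (Matrix.of f).det ≠ 0 := by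
      rw [hdet]
      exact ((Matrix.isUnit_iff_isUnit_det _).1 hg).ne_zero
    by_contra hnu
    exact hne ((residue_eq_zero_iff _).2 hnu)
  · ext i j
    simp [hf]

theorem exists_isMatOf_lifts
    (ρbar : ResidualGaloisRep (IsLocalRing.ResidueField 𝒪)) (rbar : Gal → M2 (IsLocalRing.ResidueField 𝒪))
    (hrbar : IsMatOfRes ρbar rbar) (ρ : GaloisRepAdic A)
    (h : ρ.residual.IsEquiv (ρbar.baseChangeAlong (IsLocalRing.ResidueField.map (algebraMap 𝒪 A)))) :
    ∃ r : Gal → M2 A, IsMatOf ρ r ∧ Lifts rbar r := by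
  obtain ⟨r', hr'⟩ := exists_isMatOf ρ
  obtain ⟨gbar, hgbar, hconj⟩ := (res_isEquiv_iff_of_isMatOfRes hr'.residual
    (h13_isMatOfRes_baseChangeAlong (A := A) ρbar rbar hrbar)).1 h
  obtain ⟨g, hg, hgmap⟩ := h13_exists_unit_lift gbar hgbar
  obtain ⟨u, rfl⟩ := hg
  refine ⟨fun σ => (u : M2 A) * r' σ * ((u⁻¹ : (M2 A)ˣ) : M2 A), ?_, ?_⟩
  · refine hr'.conj (u : M2 A) u.isUnit fun σ => ?_
    rw [Matrix.mul_assoc, Matrix.mul_assoc, Units.inv_mul, Matrix.mul_one]
  · rw [h13_lifts_iff_map]
    intro σ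
    have h1 : ((u : M2 A) * r' σ * ((u⁻¹ : (M2 A)ˣ) : M2 A)).map (residue A) * gbar =
        (rbar σ).map (ResidueField.map (algebraMap 𝒪 A)) * gbar := by
      rw [← hconj σ, ← hgmap, ← Matrix.map_mul, ← Matrix.map_mul, Matrix.mul_assoc,
        Matrix.mul_assoc, Units.inv_mul, Matrix.mul_one]
    obtain ⟨v, rfl⟩ := hgbar
    have h2 := congrArg (· * ((v⁻¹ : (M2 (ResidueField A))ˣ) : M2 (ResidueField A))) h1
    simpa only [Matrix.mul_assoc, Units.mul_inv, Matrix.mul_one] using h2

theorem residual_isEquiv_of_lifts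
    (ρbar : ResidualGaloisRep (IsLocalRing.ResidueField 𝒪)) (rbar : Gal → M2 (IsLocalRing.ResidueField 𝒪))
    (hrbar : IsMatOfRes ρbar rbar) (ρ : GaloisRepAdic A) (r : Gal → M2 A)
    (hr : IsMatOf ρ r) (hl : Lifts rbar r) :
    ρ.residual.IsEquiv (ρbar.baseChangeAlong (IsLocalRing.ResidueField.map (algebraMap 𝒪 A))) := by
  rw [res_isEquiv_iff_of_isMatOfRes hr.residual
    (h13_isMatOfRes_baseChangeAlong (A := A) ρbar rbar hrbar)]
  rw [h13_lifts_iff_map] at hl
  exact ⟨1, isUnit_one, fun σ => by rw [Matrix.one_mul, Matrix.mul_one, hl σ]⟩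

end H24S53
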