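import Fermat.Agent.S53.Core6
import Fermat.Agent.S53.ResidualLift
import Fermat.Agent.S53.Normalize
import Fermat.Agent.S53.MatrixRep

/-!
# S53, round 3, slices E and U5

* `H24S53.type_of_isEquiv`: over a complete Noetherian local `𝒪`-algebra a deformation condition
  is invariant under equivalence of representations;
* `H24S53.exists_isNDef_of_deformation`: every deformation of `ρbar` of type `𝒟` over a complete
  Noetherian local `𝒪`-algebra has a normalised matrix form.
-/

set_option autoImplicit false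
open IsLocalRing

namespace H24S53

variable {𝒪 : Type} [CommRing 𝒪] [IsLocalRing 𝒪]
  {𝒟 : ∀ ⦃A : Type⦄ [CommRing A] [IsLocalRing A] [Algebra 𝒪 A], GaloisRepAdic A → Prop}
  {rbar : Gal → M2 (ResidueField 𝒪)} {l₀ l₁ : List (𝒪 × Gal)}

/-- A local ring which is complete for its maximal ideal is Henselian. -/
theorem h13_henselianLocalRing_of_isAdicComplete (A : Type) [CommRing A] [IsLocalRing A]
    [IsAdicComplete (maximalIdeal A) A] : HenselianLocalRing A where
  is_henselian f hf a₀ h₁ h₂ :=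
    HenselianRing.is_henselian (I := maximalIdeal A) f hf a₀ h₁
      (h₂.map (Ideal.Quotient.mk (maximalIdeal A)))

/-! ### Slice E : `TypeEquiv.lean` -/
theorem type_of_isEquiv (h𝒟 : GaloisRep.IsDeformationCondition 𝒪 𝒟)
    {A : Type} [CommRing A] [IsLocalRing A] [IsNoetherianRing A]
    [IsAdicComplete (maximalIdeal A) A] [Algebra 𝒪 A] (hloc : IsLocalHom (algebraMap 𝒪 A))
    (hsurj : Function.Surjective (residue A ∘ algebraMap 𝒪 A))
    {ρ ρ' : GaloisRepAdic A} (e : ρ.IsEquiv ρ') (h : 𝒟 ρ) : 𝒟 ρ' := by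
  rw [h𝒟.iff_forall_surjective hloc hsurj] at h ⊢
  intro B _ _ _ hB q hq hqs
  obtain ⟨e⟩ := e
  exact h𝒟.of_isEquiv hB ⟨e.baseChangeAlong _ hq⟩ (h hB q hq hqs)

/-- reduction of an arbitrary deformation to a normalised matrix-valued one -/
theorem exists_isNDef_of_deformation (h𝒟 : GaloisRep.IsDeformationCondition 𝒪 𝒟)
    (ρbar : ResidualGaloisRep (ResidueField 𝒪))
    (rbar : Gal → M2 (ResidueField 𝒪)) (hrbar : IsMatOfRes ρbar rbar)
    (l₀ l₁ : List (𝒪 × Gal))
    (h₀ : (l₀.map fun p => residue 𝒪 p.1 • rbar p.2).sum = Matrix.single 0 0 1)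
    (h₁ : (l₁.map fun p => residue 𝒪 p.1 • rbar p.2).sum = Matrix.single 1 0 1)
    {A : Type} [CommRing A] [IsLocalRing A] [IsNoetherianRing A]
    [IsAdicComplete (maximalIdeal A) A] [Algebra 𝒪 A] [IsLocalHom (algebraMap 𝒪 A)]
    (hsurj : Function.Surjective (residue A ∘ algebraMap 𝒪 A))
    (ρA : GaloisRepAdic A) (hD : 𝒟 ρA)
    (hres : ρA.residual.IsEquiv (ρbar.baseChangeAlong (ResidueField.map (algebraMap 𝒪 A)))) :
    ∃ rA : Gal → M2 A, IsNDef 𝒟 rbar l₀ l₁ A rA ∧ IsMatOf ρA rA := by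
  haveI : HenselianLocalRing A := h13_henselianLocalRing_of_isAdicComplete A
  obtain ⟨r, hr, hl⟩ := exists_isMatOf_lifts ρbar rbar hrbar ρA hres
  obtain ⟨g, hg, -, r', hconj, hl', hn'⟩ := normalize_exists rbar l₀ l₁ h₀ h₁ r hl
  have hr' : IsMatOf ρA r' := hr.conj g hg hconj
  refine ⟨r', ?_, hr'⟩
  have hloc : IsLocalHom (algebraMap 𝒪 A) := inferInstance
  refine
    { isLocalHom := hloc
      residue_surjective := hsurj
      isHom := hr'.isHom
      matCont := hr'.matCont
      lifts := hl'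
      norm := hn'
      type := ?_ }
  refine type_of_isEquiv h𝒟 hloc hsurj ?_ hD
  exact (isEquiv_iff_of_isMatOf hr' (isMatOf_ofMat r' hr'.isHom hr'.matCont)).mpr
    ⟨1, isUnit_one, fun σ => by rw [one_mul, mul_one]⟩

end H24S53
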