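import Fermat.Agent.S53.Core6

/-!
# S53, slice U1 (helper2): basic consequences of a universal package `UnivPkg`

The universal matrix-valued function `P.r` is multiplicative, normalised, lifts `rbar`, and is
adically continuous; the projections `P.q K` are local and jointly injective.
-/

set_option autoImplicit false
set_option linter.style.haveILetI false
open IsLocalRing

namespace H24S53

variable {𝒪 : Type} [CommRing 𝒪] [IsLocalRing 𝒪]
  {𝒟 : ∀ ⦃A : Type⦄ [CommRing A] [IsLocalRing A] [Algebra 𝒪 A], GaloisRepAdic A → Prop}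
  {rbar : Gal → M2 (ResidueField 𝒪)} {l₀ l₁ : List (𝒪 × Gal)}

section Pkg
variable {R : Type} [CommRing R] [IsLocalRing R] [Algebra 𝒪 R]

theorem UnivPkg.isLocalHom_q (P : UnivPkg 𝒟 rbar l₀ l₁ R) (K : GoodK 𝒟 rbar l₀ l₁) :
    IsLocalHom (P.q K : R →+* Pol 𝒪 ⧸ K.1) := by
  haveI := K.2.1.isLocalRing
  exact IsLocalHom.of_surjective (P.q K : R →+* Pol 𝒪 ⧸ K.1) (P.q_surjective K)

/-- `mapMat (q K) P.r` is the tautological function `rK K`. -/
theorem UnivPkg.h2_mapMat_q (P : UnivPkg 𝒟 rbar l₀ l₁ R) (K : GoodK 𝒟 rbar l₀ l₁) :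
    mapMat (P.q K : R →+* Pol 𝒪 ⧸ K.1) P.r = rK K.1 := by
  funext σ
  ext i j
  exact P.q_r K σ i j

/-- an element of `R` whose image under some `q K` lies in the maximal ideal lies in the
maximal ideal. -/
theorem UnivPkg.h2_mem_maximalIdeal_of_q (P : UnivPkg 𝒟 rbar l₀ l₁ R) (K : GoodK 𝒟 rbar l₀ l₁)
    [IsLocalRing (Pol 𝒪 ⧸ K.1)] (a : R) (h : P.q K a ∈ maximalIdeal (Pol 𝒪 ⧸ K.1)) :
    a ∈ maximalIdeal R := by
  rw [mem_maximalIdeal, mem_nonunits_iff]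
  intro hu
  exact h (hu.map (P.q K))

theorem UnivPkg.eq_zero_of_forall [IsNoetherianRing R] (P : UnivPkg 𝒟 rbar l₀ l₁ R) (a : R)
    (h : ∀ K, P.q K a = 0) : a = 0 := by
  have hmem : a ∈ ⨅ n : ℕ, maximalIdeal R ^ n := by
    rw [Ideal.mem_iInf]
    intro n
    obtain ⟨K, hK⟩ := P.cofinal n
    exact hK (h K)
  rw [Ideal.iInf_pow_eq_bot_of_isLocalRing (maximalIdeal R) Ideal.IsPrime.ne_top'] at hmem
  exact hmem

/-- two elements of `R` with the same image under all `q K` are equal. -/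
theorem UnivPkg.h2_eq_of_forall [IsNoetherianRing R] (P : UnivPkg 𝒟 rbar l₀ l₁ R) (a b : R)
    (h : ∀ K, P.q K a = P.q K b) : a = b := by
  rw [← sub_eq_zero]
  exact P.eq_zero_of_forall _ fun K => by rw [map_sub, h K, sub_self]

/-- two matrices over `R` with the same image under all `q K` are equal. -/
theorem UnivPkg.h2_matrix_ext [IsNoetherianRing R] (P : UnivPkg 𝒟 rbar l₀ l₁ R) (M M' : M2 R)
    (h : ∀ K, M.map (P.q K) = M'.map (P.q K)) : M = M' := by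
  ext i j
  exact P.h2_eq_of_forall _ _ fun K => congrFun (congrFun (h K) i) j

theorem UnivPkg.isHom [IsNoetherianRing R] (P : UnivPkg 𝒟 rbar l₀ l₁ R) : IsHom P.r := by
  have hK : ∀ K : GoodK 𝒟 rbar l₀ l₁, IsHom (mapMat (P.q K : R →+* Pol 𝒪 ⧸ K.1) P.r) := by
    intro K
    haveI := K.2.1.isLocalRing
    rw [P.h2_mapMat_q K]
    exact K.2.2.2.isHom
  refine ⟨?_, fun σ τ => ?_⟩
  · apply P.h2_matrix_ext
    intro K
    have h1 : (P.r 1).map (P.q K) = 1 := (hK K).1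
    rw [h1, Matrix.map_one _ (map_zero _) (map_one _)]
  · apply P.h2_matrix_ext
    intro K
    have h1 : (P.r (σ * τ)).map (P.q K) = (P.r σ).map (P.q K) * (P.r τ).map (P.q K) :=
      (hK K).2 σ τ
    rw [h1, Matrix.map_mul]

theorem UnivPkg.isNormalized [IsNoetherianRing R] (P : UnivPkg 𝒟 rbar l₀ l₁ R) :
    IsNormalized l₀ l₁ P.r := by
  have hK : ∀ K : GoodK 𝒟 rbar l₀ l₁, ∀ (l : List (𝒪 × Gal)) (i j : Fin 2),
      P.q K (ev P.r l i j) = ev (rK K.1) l i j := by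
    intro K l i j
    rw [← ev_mapMat_apply, P.h2_mapMat_q K]
  have hN : ∀ K : GoodK 𝒟 rbar l₀ l₁, IsNormalized l₀ l₁ (rK K.1) := by
    intro K
    haveI := K.2.1.isLocalRing
    exact K.2.2.2.norm
  refine ⟨?_, ?_, ?_⟩
  · apply P.h2_eq_of_forall
    intro K
    rw [hK, (hN K).1, map_zero]
  · apply P.h2_eq_of_forall
    intro K
    rw [hK, (hN K).2.1, map_zero]
  · apply P.h2_eq_of_forall
    intro K
    rw [hK, (hN K).2.2, map_one]

theorem UnivPkg.lifts (P : UnivPkg 𝒟 rbar l₀ l₁ R) : Lifts rbar P.r := by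
  intro σ i j c hc
  obtain ⟨K, -⟩ := P.cofinal 0
  haveI := K.2.1.isLocalRing
  apply P.h2_mem_maximalIdeal_of_q K
  have h1 : rK K.1 σ i j - algebraMap 𝒪 (Pol 𝒪 ⧸ K.1) c ∈ maximalIdeal (Pol 𝒪 ⧸ K.1) :=
    K.2.2.2.lifts σ i j c hc
  rw [map_sub, P.q_r, AlgHom.commutes]
  exact h1

theorem UnivPkg.matCont (P : UnivPkg 𝒟 rbar l₀ l₁ R) : MatCont R P.r := by
  intro n
  obtain ⟨K, hK⟩ := P.cofinal n
  haveI := K.2.1.isLocalRing
  obtain ⟨N, hN⟩ := K.2.1.exists_pow_eq_bot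
  obtain ⟨L, hL, h1⟩ := (matCont_iff_of_pow_eq_bot hN (rK K.1)).mp K.2.2.2.matCont
  refine ⟨L, hL, fun σ hσ i j => hK ?_⟩
  rw [RingHom.mem_ker]
  have h2 : rK K.1 σ i j = (1 : M2 (Pol 𝒪 ⧸ K.1)) i j := by rw [h1 σ hσ]
  show P.q K ((P.r σ - 1) i j) = 0
  rw [Matrix.sub_apply, map_sub, P.q_r, ← rK_apply, h2]
  by_cases hij : i = j
  · subst hij; simp
  · simp [Matrix.one_apply_ne hij]

end Pkg

end H24S53
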