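import Fermat.Agent.S53.Core6

/-!
# S53, slice U4: existence of the classifying map `R → A` of a normalised deformation

Main result: `H24S53.UnivPkg.exists_algHom`.  Private helpers are prefixed `h1u4_`.
-/

set_option autoImplicit false
set_option linter.unusedSectionVars false
set_option linter.style.haveILetI false
open IsLocalRing

namespace H24S53

variable {𝒪 : Type} [CommRing 𝒪] [IsLocalRing 𝒪]
  {𝒟 : ∀ ⦃A : Type⦄ [CommRing A] [IsLocalRing A] [Algebra 𝒪 A], GaloisRepAdic A → Prop}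
  {rbar : Gal → M2 (ResidueField 𝒪)} {l₀ l₁ : List (𝒪 × Gal)}

section Quot

variable {A : Type} [CommRing A] [IsLocalRing A] [Algebra 𝒪 A]

theorem h1u4_pow_succ_ne_top (n : ℕ) : maximalIdeal A ^ (n + 1) ≠ ⊤ := fun h =>
  (maximalIdeal.isMaximal A).ne_top
    (top_le_iff.mp (h ▸ Ideal.pow_le_self (Nat.succ_ne_zero n)))

theorem h1u4_nontrivial_quot {I : Ideal A} (hI : I ≠ ⊤) : Nontrivial (A ⧸ I) :=
  Ideal.Quotient.nontrivial_iff.mpr hI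

theorem h1u4_isLocalRing_quot {I : Ideal A} (hI : I ≠ ⊤) : IsLocalRing (A ⧸ I) :=
  haveI := h1u4_nontrivial_quot hI
  IsLocalRing.of_surjective' (Ideal.Quotient.mk I) Ideal.Quotient.mk_surjective

theorem h1u4_isLocalHom_mk {I : Ideal A} (hI : I ≠ ⊤) :
    IsLocalHom ((Ideal.Quotient.mkₐ 𝒪 I : A →ₐ[𝒪] A ⧸ I) : A →+* A ⧸ I) :=
  haveI := h1u4_nontrivial_quot hI
  IsLocalHom.of_surjective _ (Ideal.Quotient.mkₐ_surjective 𝒪 I)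

theorem h1u4_finite_residueField [Finite (ResidueField 𝒪)] [IsLocalHom (algebraMap 𝒪 A)]
    (hsurj : Function.Surjective (residue A ∘ algebraMap 𝒪 A)) : Finite (ResidueField A) := by
  refine Finite.of_surjective (ResidueField.map (algebraMap 𝒪 A)) fun y => ?_
  obtain ⟨c, hc⟩ := hsurj y
  exact ⟨residue 𝒪 c, by rw [ResidueField.map_residue]; exact hc⟩

theorem h1u4_finite_quot [Finite (ResidueField 𝒪)] [IsNoetherianRing A]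
    [IsLocalHom (algebraMap 𝒪 A)]
    (hsurj : Function.Surjective (residue A ∘ algebraMap 𝒪 A)) (n : ℕ) :
    Finite (A ⧸ maximalIdeal A ^ n) := by
  haveI : Finite (A ⧸ maximalIdeal A) := h1u4_finite_residueField hsurj
  exact Ideal.finite_quotient_pow (IsNoetherian.noetherian (maximalIdeal A)) n

/-- Reduction of a normalised deformation over a complete ring modulo a proper open ideal. -/
theorem h1u4_isNDef_quot (h𝒟 : GaloisRep.IsDeformationCondition 𝒪 𝒟)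
    [IsNoetherianRing A] [IsAdicComplete (maximalIdeal A) A]
    {rA : Gal → M2 A} (hA : IsNDef 𝒟 rbar l₀ l₁ A rA) {I : Ideal A} (hI : I ≠ ⊤)
    [IsLocalRing (A ⧸ I)] [Finite (A ⧸ I)] :
    IsNDef 𝒟 rbar l₀ l₁ (A ⧸ I)
      (mapMat ((Ideal.Quotient.mkₐ 𝒪 I : A →ₐ[𝒪] A ⧸ I) : A →+* A ⧸ I) rA) := by
  haveI := hA.isLocalHom
  have hπ : IsLocalHom ((Ideal.Quotient.mkₐ 𝒪 I : A →ₐ[𝒪] A ⧸ I) : A →+* A ⧸ I) :=
    h1u4_isLocalHom_mk hI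
  haveI := hπ
  have hloc : IsLocalHom (algebraMap 𝒪 (A ⧸ I)) := by
    constructor
    intro c hc
    have h1 : IsUnit (((Ideal.Quotient.mkₐ 𝒪 I : A →ₐ[𝒪] A ⧸ I) : A →+* A ⧸ I)
        (algebraMap 𝒪 A c)) := hc
    exact isUnit_of_map_unit (algebraMap 𝒪 A) c (isUnit_of_map_unit _ _ h1)
  have hsurj : Function.Surjective (residue (A ⧸ I) ∘ algebraMap 𝒪 (A ⧸ I)) := by
    intro y
    obtain ⟨z, rfl⟩ := residue_surjective y
    obtain ⟨a, rfl⟩ := Ideal.Quotient.mk_surjective z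
    obtain ⟨c, hc⟩ := hA.residue_surjective (residue A a)
    refine ⟨c, ?_⟩
    show residue _ (algebraMap 𝒪 (A ⧸ I) c) = residue _ (Ideal.Quotient.mk I a)
    rw [← sub_eq_zero, ← map_sub, residue_eq_zero_iff]
    have h1 : algebraMap 𝒪 A c - a ∈ maximalIdeal A := by
      rw [← residue_eq_zero_iff, map_sub, sub_eq_zero]
      exact hc
    have h2 := map_nonunit ((Ideal.Quotient.mkₐ 𝒪 I : A →ₐ[𝒪] A ⧸ I) : A →+* A ⧸ I) _ h1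
    rw [map_sub] at h2
    exact h2
  have htest : GaloisRep.IsArtinianTestAlgebra 𝒪 (A ⧸ I) := ⟨hloc, hsurj, inferInstance⟩
  have hhom : IsHom (mapMat ((Ideal.Quotient.mkₐ 𝒪 I : A →ₐ[𝒪] A ⧸ I) : A →+* A ⧸ I) rA) :=
    isHom_mapMat _ hA.isHom
  have hcont : MatCont (A ⧸ I)
      (mapMat ((Ideal.Quotient.mkₐ 𝒪 I : A →ₐ[𝒪] A ⧸ I) : A →+* A ⧸ I) rA) :=
    matCont_mapMat _ hA.matCont
  refine ⟨hloc, hsurj, hhom, hcont, ?_, isNormalized_mapMat _ hA.norm, ?_⟩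
  · intro σ i j c hc
    have h1 := hA.lifts σ i j c hc
    have h2 := map_nonunit ((Ideal.Quotient.mkₐ 𝒪 I : A →ₐ[𝒪] A ⧸ I) : A →+* A ⧸ I) _ h1
    rw [map_sub] at h2
    exact h2
  · have h1 := (h𝒟.iff_forall_surjective hA.isLocalHom hA.residue_surjective
      (ofMat rA hA.isHom hA.matCont)).mp hA.type htest (Ideal.Quotient.mkₐ 𝒪 I) hπ
      (Ideal.Quotient.mkₐ_surjective 𝒪 I)
    exact h𝒟.of_isEquiv htest
      (isEquiv_baseChangeAlong_ofMat _ hπ hA.isHom hA.matCont hhom hcont) h1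

end Quot

section Main

variable {R : Type} [CommRing R] [IsLocalRing R] [Algebra 𝒪 R]
variable {A : Type} [CommRing A] [IsLocalRing A] [Algebra 𝒪 A]

theorem h1u4_evP_mapMat {B : Type} [CommRing B] [Algebra 𝒪 B] (ψ : A →ₐ[𝒪] B)
    (r : Gal → M2 A) (p : Pol 𝒪) :
    evP (𝒪 := 𝒪) (mapMat (ψ : A →+* B) r) p = ψ (evP (𝒪 := 𝒪) r p) := by
  have h : evP (𝒪 := 𝒪) (mapMat (ψ : A →+* B) r) = ψ.comp (evP (𝒪 := 𝒪) r) := by
    apply MvPolynomial.algHom_ext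
    rintro ⟨σ, i, j⟩
    rw [AlgHom.comp_apply, evP_X, evP_X]
    rfl
  exact DFunLike.congr_fun h p

/-- The reduction of `rA` modulo `m ^ (n + 1)`. -/
noncomputable def h1u4_t (𝒪 : Type) [CommRing 𝒪] {A : Type} [CommRing A] [IsLocalRing A]
    [Algebra 𝒪 A] (rA : Gal → M2 A) (n : ℕ) : Gal → M2 (A ⧸ maximalIdeal A ^ (n + 1)) :=
  mapMat ((Ideal.Quotient.mkₐ 𝒪 (maximalIdeal A ^ (n + 1)) :
    A →ₐ[𝒪] A ⧸ maximalIdeal A ^ (n + 1)) : A →+* A ⧸ maximalIdeal A ^ (n + 1)) rA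

theorem h1u4_evP_t (rA : Gal → M2 A) (n : ℕ) (p : Pol 𝒪) :
    evP (𝒪 := 𝒪) (h1u4_t 𝒪 rA n) p =
      Ideal.Quotient.mk (maximalIdeal A ^ (n + 1)) (evP (𝒪 := 𝒪) rA p) :=
  h1u4_evP_mapMat _ rA p

theorem h1u4_kGood [Finite (ResidueField 𝒪)] (h𝒟 : GaloisRep.IsDeformationCondition 𝒪 𝒟)
    [IsNoetherianRing A] [IsAdicComplete (maximalIdeal A) A]
    {rA : Gal → M2 A} (hA : IsNDef 𝒟 rbar l₀ l₁ A rA) (n : ℕ) :
    KGood 𝒟 rbar l₀ l₁ (RingHom.ker (evP (𝒪 := 𝒪) (h1u4_t 𝒪 rA n))) := by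
  haveI := hA.isLocalHom
  haveI : IsLocalRing (A ⧸ maximalIdeal A ^ (n + 1)) :=
    h1u4_isLocalRing_quot (h1u4_pow_succ_ne_top n)
  haveI : Finite (A ⧸ maximalIdeal A ^ (n + 1)) := h1u4_finite_quot hA.residue_surjective (n + 1)
  exact kGood_ker h𝒟 (h1u4_isNDef_quot h𝒟 hA (h1u4_pow_succ_ne_top n))

/-- The good ideal attached to the `n`-th truncation. -/
noncomputable def h1u4_K [Finite (ResidueField 𝒪)] (h𝒟 : GaloisRep.IsDeformationCondition 𝒪 𝒟)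
    [IsNoetherianRing A] [IsAdicComplete (maximalIdeal A) A]
    {rA : Gal → M2 A} (hA : IsNDef 𝒟 rbar l₀ l₁ A rA) (n : ℕ) : GoodK 𝒟 rbar l₀ l₁ :=
  ⟨RingHom.ker (evP (𝒪 := 𝒪) (h1u4_t 𝒪 rA n)), h1u4_kGood h𝒟 hA n⟩

theorem h1u4_mem_K [Finite (ResidueField 𝒪)] (h𝒟 : GaloisRep.IsDeformationCondition 𝒪 𝒟)
    [IsNoetherianRing A] [IsAdicComplete (maximalIdeal A) A]
    {rA : Gal → M2 A} (hA : IsNDef 𝒟 rbar l₀ l₁ A rA) (n : ℕ) (p : Pol 𝒪) :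
    p ∈ (h1u4_K h𝒟 hA n).1 ↔ evP (𝒪 := 𝒪) rA p ∈ maximalIdeal A ^ (n + 1) := by
  show p ∈ RingHom.ker (evP (𝒪 := 𝒪) (h1u4_t 𝒪 rA n)) ↔ _
  rw [RingHom.mem_ker, h1u4_evP_t, Ideal.Quotient.eq_zero_iff_mem]

theorem h1u4_K_le [Finite (ResidueField 𝒪)] (h𝒟 : GaloisRep.IsDeformationCondition 𝒪 𝒟)
    [IsNoetherianRing A] [IsAdicComplete (maximalIdeal A) A]
    {rA : Gal → M2 A} (hA : IsNDef 𝒟 rbar l₀ l₁ A rA) {m n : ℕ} (h : m ≤ n) :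
    (h1u4_K h𝒟 hA n).1 ≤ (h1u4_K h𝒟 hA m).1 := by
  intro p hp
  rw [h1u4_mem_K] at hp ⊢
  exact Ideal.pow_le_pow_right (Nat.succ_le_succ h) hp

/-- The `n`-th approximation of the classifying map. -/
noncomputable def h1u4_phi [Finite (ResidueField 𝒪)]
    (h𝒟 : GaloisRep.IsDeformationCondition 𝒪 𝒟) (P : UnivPkg 𝒟 rbar l₀ l₁ R)
    [IsNoetherianRing A] [IsAdicComplete (maximalIdeal A) A]
    {rA : Gal → M2 A} (hA : IsNDef 𝒟 rbar l₀ l₁ A rA) (n : ℕ) :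
    R →ₐ[𝒪] A ⧸ maximalIdeal A ^ (n + 1) :=
  (Ideal.kerLiftAlg (evP (𝒪 := 𝒪) (h1u4_t 𝒪 rA n))).comp (P.q (h1u4_K h𝒟 hA n))

theorem h1u4_phi_eq [Finite (ResidueField 𝒪)]
    (h𝒟 : GaloisRep.IsDeformationCondition 𝒪 𝒟) (P : UnivPkg 𝒟 rbar l₀ l₁ R)
    [IsNoetherianRing A] [IsAdicComplete (maximalIdeal A) A]
    {rA : Gal → M2 A} (hA : IsNDef 𝒟 rbar l₀ l₁ A rA) (n : ℕ) (a : R) (p : Pol 𝒪)
    (hp : P.q (h1u4_K h𝒟 hA n) a = Ideal.Quotient.mk _ p) :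
    h1u4_phi h𝒟 P hA n a =
      Ideal.Quotient.mk (maximalIdeal A ^ (n + 1)) (evP (𝒪 := 𝒪) rA p) := by
  show Ideal.kerLiftAlg (evP (𝒪 := 𝒪) (h1u4_t 𝒪 rA n)) (P.q (h1u4_K h𝒟 hA n) a) = _
  rw [hp]
  show Ideal.kerLiftAlg (evP (𝒪 := 𝒪) (h1u4_t 𝒪 rA n)) (Ideal.Quotient.mk _ p) = _
  rw [Ideal.kerLiftAlg_mk, h1u4_evP_t]

theorem h1u4_phi_exists [Finite (ResidueField 𝒪)]
    (h𝒟 : GaloisRep.IsDeformationCondition 𝒪 𝒟) (P : UnivPkg 𝒟 rbar l₀ l₁ R)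
    [IsNoetherianRing A] [IsAdicComplete (maximalIdeal A) A]
    {rA : Gal → M2 A} (hA : IsNDef 𝒟 rbar l₀ l₁ A rA) (n : ℕ) (a : R) :
    ∃ y : A, ∀ m, m ≤ n →
      h1u4_phi h𝒟 P hA m a = Ideal.Quotient.mk (maximalIdeal A ^ (m + 1)) y := by
  obtain ⟨p, hp⟩ := Ideal.Quotient.mk_surjective (P.q (h1u4_K h𝒟 hA n) a)
  refine ⟨evP (𝒪 := 𝒪) rA p, fun m hm => ?_⟩
  apply h1u4_phi_eq
  rw [← P.q_factor (h1u4_K h𝒟 hA n) (h1u4_K h𝒟 hA m) (h1u4_K_le h𝒟 hA hm) a, ← hp,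
    Ideal.Quotient.factor_mk]

theorem h1u4_phi_r [Finite (ResidueField 𝒪)]
    (h𝒟 : GaloisRep.IsDeformationCondition 𝒪 𝒟) (P : UnivPkg 𝒟 rbar l₀ l₁ R)
    [IsNoetherianRing A] [IsAdicComplete (maximalIdeal A) A]
    {rA : Gal → M2 A} (hA : IsNDef 𝒟 rbar l₀ l₁ A rA) (n : ℕ) (σ : Gal) (i j : Fin 2) :
    h1u4_phi h𝒟 P hA n (P.r σ i j) =
      Ideal.Quotient.mk (maximalIdeal A ^ (n + 1)) (rA σ i j) := by
  rw [h1u4_phi_eq h𝒟 P hA n _ _ (P.q_r (h1u4_K h𝒟 hA n) σ i j), evP_X]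

theorem h1u4_phi_not_isUnit [Finite (ResidueField 𝒪)]
    (h𝒟 : GaloisRep.IsDeformationCondition 𝒪 𝒟) (P : UnivPkg 𝒟 rbar l₀ l₁ R)
    [IsNoetherianRing A] [IsAdicComplete (maximalIdeal A) A]
    {rA : Gal → M2 A} (hA : IsNDef 𝒟 rbar l₀ l₁ A rA) (n : ℕ) (a : R) (ha : ¬ IsUnit a) :
    IsNilpotent (h1u4_phi h𝒟 P hA n a) := by
  haveI : IsLocalRing (Pol 𝒪 ⧸ (h1u4_K h𝒟 hA n).1) := (h1u4_K h𝒟 hA n).2.1.isLocalRing
  have hloc : IsLocalHom (P.q (h1u4_K h𝒟 hA n) : R →+* Pol 𝒪 ⧸ (h1u4_K h𝒟 hA n).1) :=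
    IsLocalHom.of_surjective _ (P.q_surjective _)
  have h1 : P.q (h1u4_K h𝒟 hA n) a ∈ maximalIdeal (Pol 𝒪 ⧸ (h1u4_K h𝒟 hA n).1) :=
    fun hu => ha (hloc.map_nonunit a hu)
  obtain ⟨N, hN⟩ := (h1u4_K h𝒟 hA n).2.1.exists_pow_eq_bot
  have h2 : (P.q (h1u4_K h𝒟 hA n) a) ^ N = 0 := by
    have := Ideal.pow_mem_pow h1 N
    rwa [hN, Ideal.mem_bot] at this
  have h3 : IsNilpotent (P.q (h1u4_K h𝒟 hA n) a) := ⟨N, h2⟩
  exact h3.map (Ideal.kerLiftAlg (evP (𝒪 := 𝒪) (h1u4_t 𝒪 rA n)))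

end Main

section Final

variable {R : Type} [CommRing R] [IsLocalRing R] [Algebra 𝒪 R]

theorem UnivPkg.exists_algHom [Finite (ResidueField 𝒪)]
    (h𝒟 : GaloisRep.IsDeformationCondition 𝒪 𝒟) (P : UnivPkg 𝒟 rbar l₀ l₁ R)
    {A : Type} [CommRing A] [IsLocalRing A] [IsNoetherianRing A]
    [IsAdicComplete (maximalIdeal A) A] [Algebra 𝒪 A]
    (rA : Gal → M2 A) (hA : IsNDef 𝒟 rbar l₀ l₁ A rA) :
    ∃ φ : R →ₐ[𝒪] A, IsLocalHom (φ : R →+* A) ∧ ∀ σ i j, φ (P.r σ i j) = rA σ i j := by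
  let f : (n : ℕ) → R →ₐ[𝒪] A ⧸ maximalIdeal A ^ n := fun n =>
    (Ideal.Quotient.factorₐ 𝒪 (Ideal.pow_le_pow_right (Nat.le_succ n))).comp
      (h1u4_phi h𝒟 P hA n)
  have hfy : ∀ n (a : R), ∃ y : A, ∀ m, m ≤ n →
      f m a = Ideal.Quotient.mk (maximalIdeal A ^ m) y := by
    intro n a
    obtain ⟨y, hy⟩ := h1u4_phi_exists h𝒟 P hA n a
    refine ⟨y, fun m hm => ?_⟩
    show Ideal.Quotient.factor (Ideal.pow_le_pow_right (Nat.le_succ m))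
      (h1u4_phi h𝒟 P hA m a) = _
    rw [hy m hm, Ideal.Quotient.factor_mk]
  have hf : ∀ {m n : ℕ} (hle : m ≤ n),
      (Ideal.Quotient.factorₐ 𝒪 (Ideal.pow_le_pow_right hle)).comp (f n) = f m := by
    intro m n hle
    ext a
    obtain ⟨y, hy⟩ := hfy n a
    rw [AlgHom.comp_apply, hy n le_rfl, hy m hle]
    exact Ideal.Quotient.factor_mk (Ideal.pow_le_pow_right hle) y
  let φ : R →ₐ[𝒪] A := IsAdicComplete.liftAlgHom (maximalIdeal A) f hf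
  have hφ : ∀ n (a : R), Ideal.Quotient.mk (maximalIdeal A ^ n) (φ a) = f n a := fun n a =>
    IsAdicComplete.mk_liftAlgHom (maximalIdeal A) f hf n a
  refine ⟨φ, ⟨fun a ha => ?_⟩, fun σ i j => ?_⟩
  · by_contra hna
    have h1 : IsNilpotent (h1u4_phi h𝒟 P hA 1 a) := h1u4_phi_not_isUnit h𝒟 P hA 1 a hna
    have h2 : IsNilpotent (f 1 a) :=
      h1.map (Ideal.Quotient.factorₐ 𝒪 (Ideal.pow_le_pow_right (Nat.le_succ 1)))
    have h3 : IsUnit (f 1 a) := by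
      rw [← hφ 1 a]
      exact ha.map _
    haveI : Nontrivial (A ⧸ maximalIdeal A ^ 1) := by
      apply h1u4_nontrivial_quot
      rw [pow_one]
      exact (maximalIdeal.isMaximal A).ne_top
    exact h2.not_isUnit h3
  · have h1 : ∀ n, φ (P.r σ i j) - rA σ i j ∈ maximalIdeal A ^ n := by
      intro n
      rw [← Ideal.Quotient.eq, hφ n]
      show Ideal.Quotient.factor (Ideal.pow_le_pow_right (Nat.le_succ n))
        (h1u4_phi h𝒟 P hA n (P.r σ i j)) = _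
      rw [h1u4_phi_r, Ideal.Quotient.factor_mk]
    have h2 : φ (P.r σ i j) - rA σ i j ∈ (⨅ n, maximalIdeal A ^ n : Ideal A) :=
      (Ideal.mem_iInf).mpr h1
    rw [Ideal.iInf_pow_eq_bot_of_isLocalRing _ (maximalIdeal.isMaximal A).ne_top,
      Ideal.mem_bot, sub_eq_zero] at h2
    exact h2

end Final

end H24S53
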