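import Fermat.Agent.S53.Core6

/-!
# S53, slice U2: the universal matrix-valued function has type `𝒟`

Statement fixed in `NOTES/S53_interface.md` (ROUND 3); private helpers are prefixed `h25u_`.
-/

set_option autoImplicit false
open IsLocalRing

namespace H24S53

variable {𝒪 : Type} [CommRing 𝒪] [IsLocalRing 𝒪]
  {𝒟 : ∀ ⦃A : Type⦄ [CommRing A] [IsLocalRing A] [Algebra 𝒪 A], GaloisRepAdic A → Prop}
  {rbar : Gal → M2 (ResidueField 𝒪)} {l₀ l₁ : List (𝒪 × Gal)}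

omit [IsLocalRing 𝒪] in
/-- Naturality of `evP` under an algebra homomorphism. -/
theorem h25u_evP_mapMat {A B : Type} [CommRing A] [CommRing B] [Algebra 𝒪 A] [Algebra 𝒪 B]
    (φ : A →ₐ[𝒪] B) (r : Gal → M2 A) (p : Pol 𝒪) :
    evP (𝒪 := 𝒪) (mapMat (φ : A →+* B) r) p = φ (evP (𝒪 := 𝒪) r p) := by
  have key : evP (𝒪 := 𝒪) (mapMat (φ : A →+* B) r) = φ.comp (evP (𝒪 := 𝒪) r) := by
    apply MvPolynomial.algHom_ext
    rintro ⟨σ, i, j⟩
    rw [AlgHom.comp_apply, evP_X, evP_X]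
    rfl
  rw [key]
  rfl

/-- An Artinian local ring has nilpotent maximal ideal. -/
theorem h25u_exists_pow_eq_bot (B : Type) [CommRing B] [IsLocalRing B] [IsArtinianRing B] :
    ∃ N : ℕ, maximalIdeal B ^ N = ⊥ := by
  obtain ⟨N, hN⟩ := (isArtinianRing_iff_isNilpotent_maximalIdeal B).mp inferInstance
  exact ⟨N, hN⟩

section Pkg

variable {R : Type} [CommRing R] [IsLocalRing R] [Algebra 𝒪 R]

/-- `P.q K (evP P.r p) = mk p`. -/
theorem h25u_q_evP (P : UnivPkg 𝒟 rbar l₀ l₁ R) (K : GoodK 𝒟 rbar l₀ l₁) (p : Pol 𝒪) :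
    P.q K (evP (𝒪 := 𝒪) P.r p) = Ideal.Quotient.mk K.1 p := by
  have key : (P.q K).comp (evP (𝒪 := 𝒪) P.r) = Ideal.Quotient.mkₐ 𝒪 K.1 := by
    apply MvPolynomial.algHom_ext
    rintro ⟨σ, i, j⟩
    rw [AlgHom.comp_apply, evP_X, P.q_r]
    rfl
  exact DFunLike.congr_fun key p

/-- **U2**: the universal matrix-valued function is of type `𝒟`. -/
theorem UnivPkg.type (h𝒟 : GaloisRep.IsDeformationCondition 𝒪 𝒟)
    [IsNoetherianRing R] [IsAdicComplete (maximalIdeal R) R]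
    (P : UnivPkg 𝒟 rbar l₀ l₁ R) (hloc : IsLocalHom (algebraMap 𝒪 R))
    (hsurj : Function.Surjective (residue R ∘ algebraMap 𝒪 R))
    (hr : IsHom P.r) (hc : MatCont R P.r) : 𝒟 (ofMat P.r hr hc) := by
  refine (h𝒟.iff_forall_surjective hloc hsurj (ofMat P.r hr hc)).mpr ?_
  intro B _ _ _ hB q hq hqs
  have hBart : IsArtinianRing B := hB.isArtinian
  obtain ⟨N, hN⟩ := h25u_exists_pow_eq_bot B
  -- `m_R ^ N ≤ ker q`
  have hker : maximalIdeal R ^ N ≤ RingHom.ker (q : R →+* B) := by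
    intro a ha
    rw [RingHom.mem_ker]
    have h1 : (q : R →+* B) a ∈ (maximalIdeal R ^ N).map (q : R →+* B) :=
      Ideal.mem_map_of_mem _ ha
    have h2 := map_maximalIdeal_pow_le (q : R →+* B) N h1
    rwa [hN, Ideal.mem_bot] at h2
  obtain ⟨K, hK⟩ := P.cofinal N
  have hKq : RingHom.ker (P.q K) ≤ RingHom.ker (q : R →+* B) := hK.trans hker
  have : IsLocalRing (Pol 𝒪 ⧸ K.1) := K.2.1.isLocalRing
  have hfinK : Finite (Pol 𝒪 ⧸ K.1) := K.2.2.1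
  have hND : IsNDef 𝒟 rbar l₀ l₁ (Pol 𝒪 ⧸ K.1) (rK K.1) := K.2.2.2
  -- the induced map `Pol ⧸ K → B`
  have hzero : ∀ p : Pol 𝒪, p ∈ K.1 → evP (𝒪 := 𝒪) (mapMat (q : R →+* B) P.r) p = 0 := by
    intro p hp
    rw [h25u_evP_mapMat]
    have h1 : evP (𝒪 := 𝒪) P.r p ∈ RingHom.ker (P.q K) := by
      rw [RingHom.mem_ker, h25u_q_evP]
      exact Ideal.Quotient.eq_zero_iff_mem.mpr hp
    exact hKq h1
  let ψ : Pol 𝒪 ⧸ K.1 →ₐ[𝒪] B :=
    Ideal.Quotient.liftₐ K.1 (evP (𝒪 := 𝒪) (mapMat (q : R →+* B) P.r)) hzero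
  have hψmk : ∀ p : Pol 𝒪, ψ (Ideal.Quotient.mk K.1 p) = q (evP (𝒪 := 𝒪) P.r p) := by
    intro p
    exact h25u_evP_mapMat q P.r p
  have hψq : ∀ a : R, ψ (P.q K a) = q a := by
    intro a
    obtain ⟨p, hp⟩ := Ideal.Quotient.mk_surjective (P.q K a)
    rw [← hp, hψmk]
    have h1 : a - evP (𝒪 := 𝒪) P.r p ∈ RingHom.ker (P.q K) := by
      rw [RingHom.mem_ker, map_sub, h25u_q_evP, hp, sub_self]
    have h2 := hKq h1
    rw [RingHom.mem_ker, map_sub, sub_eq_zero] at h2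
    exact h2.symm
  have hψr : mapMat (ψ : Pol 𝒪 ⧸ K.1 →+* B) (rK K.1) = mapMat (q : R →+* B) P.r := by
    funext σ
    ext i j
    show ψ (Ideal.Quotient.mk K.1 (MvPolynomial.X (σ, i, j))) = q (P.r σ i j)
    rw [hψmk, evP_X]
  have hψloc : IsLocalHom (ψ : Pol 𝒪 ⧸ K.1 →+* B) := by
    constructor
    intro x hx
    obtain ⟨a, rfl⟩ := P.q_surjective K x
    have h1 : IsUnit ((q : R →+* B) a) := by
      have : (ψ : Pol 𝒪 ⧸ K.1 →+* B) (P.q K a) = (q : R →+* B) a := hψq a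
      rw [← this]
      exact hx
    have h2 : IsUnit a := hq.map_nonunit a h1
    exact h2.map (P.q K)
  have htK : GaloisRep.IsArtinianTestAlgebra 𝒪 (Pol 𝒪 ⧸ K.1) :=
    ⟨K.2.1.isLocalHom, K.2.1.residue_surjective, inferInstance⟩
  -- transport the type
  have h1 : 𝒟 ((ofMat (rK K.1) hND.isHom hND.matCont).baseChangeAlong
      (ψ : Pol 𝒪 ⧸ K.1 →+* B) hψloc) :=
    h𝒟.baseChangeAlong htK hB ψ hψloc hND.type
  have hr1 : IsHom (mapMat (ψ : Pol 𝒪 ⧸ K.1 →+* B) (rK K.1)) := isHom_mapMat _ hND.isHom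
  have hc1 : MatCont B (mapMat (ψ : Pol 𝒪 ⧸ K.1 →+* B) (rK K.1)) :=
    matCont_mapMat _ hND.matCont
  have e1 := isEquiv_baseChangeAlong_ofMat (ψ : Pol 𝒪 ⧸ K.1 →+* B) hψloc hND.isHom hND.matCont
    hr1 hc1
  have h2 : 𝒟 (ofMat (mapMat (ψ : Pol 𝒪 ⧸ K.1 →+* B) (rK K.1)) hr1 hc1) :=
    h𝒟.of_isEquiv hB e1 h1
  have hr2 : IsHom (mapMat (q : R →+* B) P.r) := isHom_mapMat _ hr
  have hc2 : MatCont B (mapMat (q : R →+* B) P.r) := matCont_mapMat _ hc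
  have h3 : 𝒟 (ofMat (mapMat (q : R →+* B) P.r) hr2 hc2) := by
    convert h2 using 2
    exact hψr.symm
  have e2 := isEquiv_baseChangeAlong_ofMat (q : R →+* B) hq hr hc hr2 hc2
  obtain ⟨e⟩ := e2
  exact h𝒟.of_isEquiv hB ⟨e.symm⟩ h3

end Pkg

end H24S53
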