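import Fermat.Agent.S53.Core6

/-!
# S53, slice U3: two local `𝒪`-algebra homs out of a universal package that agree on the
entries of the universal matrix-valued function are equal.
-/

set_option autoImplicit false
open IsLocalRing

namespace H24S53

variable {𝒪 : Type} [CommRing 𝒪] [IsLocalRing 𝒪]
  {𝒟 : ∀ ⦃A : Type⦄ [CommRing A] [IsLocalRing A] [Algebra 𝒪 A], GaloisRepAdic A → Prop}
  {rbar : Gal → M2 (ResidueField 𝒪)} {l₀ l₁ : List (𝒪 × Gal)}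

section Pkg
variable {R : Type} [CommRing R] [IsLocalRing R] [Algebra 𝒪 R]

/-- `q K` sends the evaluation of a polynomial at the universal entries to its class. -/
theorem UnivPkg.h28_q_evP (P : UnivPkg 𝒟 rbar l₀ l₁ R) (K : GoodK 𝒟 rbar l₀ l₁) (p : Pol 𝒪) :
    P.q K (evP (𝒪 := 𝒪) P.r p) = Ideal.Quotient.mk K.1 p := by
  have h : (P.q K).comp (evP (𝒪 := 𝒪) P.r) = Ideal.Quotient.mkₐ 𝒪 K.1 := by
    apply MvPolynomial.algHom_ext
    rintro ⟨σ, i, j⟩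
    rw [AlgHom.comp_apply, evP_X, P.q_r]
    rfl
  exact DFunLike.congr_fun h p

/-- Every element of `R` is congruent, modulo any power of the maximal ideal, to a polynomial in
the universal entries. -/
theorem UnivPkg.h28_exists_evP_sub_mem (P : UnivPkg 𝒟 rbar l₀ l₁ R) (a : R) (n : ℕ) :
    ∃ p : Pol 𝒪, a - evP (𝒪 := 𝒪) P.r p ∈ maximalIdeal R ^ n := by
  obtain ⟨K, hK⟩ := P.cofinal n
  obtain ⟨p, hp⟩ := Ideal.Quotient.mk_surjective (P.q K a)
  refine ⟨p, hK ?_⟩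
  rw [RingHom.mem_ker, map_sub, P.h28_q_evP, hp, sub_self]

/-- Two algebra homs agreeing on the universal entries agree on all polynomials in them. -/
theorem UnivPkg.h28_evP_eq (P : UnivPkg 𝒟 rbar l₀ l₁ R)
    {A : Type} [CommRing A] [Algebra 𝒪 A]
    (φ φ' : R →ₐ[𝒪] A) (h : ∀ σ i j, φ (P.r σ i j) = φ' (P.r σ i j)) (p : Pol 𝒪) :
    φ (evP (𝒪 := 𝒪) P.r p) = φ' (evP (𝒪 := 𝒪) P.r p) := by
  have h' : φ.comp (evP (𝒪 := 𝒪) P.r) = φ'.comp (evP (𝒪 := 𝒪) P.r) := by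
    apply MvPolynomial.algHom_ext
    rintro ⟨σ, i, j⟩
    rw [AlgHom.comp_apply, AlgHom.comp_apply, evP_X]
    exact h σ i j
  exact DFunLike.congr_fun h' p

/-! ### Slice U3 : `UnivUnique.lean` -/
theorem UnivPkg.algHom_ext (P : UnivPkg 𝒟 rbar l₀ l₁ R)
    {A : Type} [CommRing A] [IsLocalRing A] [IsNoetherianRing A] [Algebra 𝒪 A]
    (φ φ' : R →ₐ[𝒪] A) (hφ : IsLocalHom (φ : R →+* A)) (hφ' : IsLocalHom (φ' : R →+* A))
    (h : ∀ σ i j, φ (P.r σ i j) = φ' (P.r σ i j)) : φ = φ' := by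
  apply AlgHom.ext
  intro a
  rw [← sub_eq_zero, ← Ideal.mem_bot, ← Ideal.iInf_pow_eq_bot_of_isLocalRing (maximalIdeal A)
    (Ideal.IsPrime.ne_top inferInstance), Ideal.mem_iInf]
  intro n
  obtain ⟨p, hp⟩ := P.h28_exists_evP_sub_mem a n
  have h1 : φ (a - evP (𝒪 := 𝒪) P.r p) ∈ maximalIdeal A ^ n := by
    have := hφ
    exact map_maximalIdeal_pow_le (φ : R →+* A) n (Ideal.mem_map_of_mem _ hp)
  have h2 : φ' (a - evP (𝒪 := 𝒪) P.r p) ∈ maximalIdeal A ^ n := by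
    have := hφ'
    exact map_maximalIdeal_pow_le (φ' : R →+* A) n (Ideal.mem_map_of_mem _ hp)
  have h3 : φ a - φ' a = φ (a - evP (𝒪 := 𝒪) P.r p) - φ' (a - evP (𝒪 := 𝒪) P.r p) := by
    rw [map_sub, map_sub, P.h28_evP_eq φ φ' h p]
    ring
  rw [h3]
  exact Ideal.sub_mem _ h1 h2

end Pkg

end H24S53
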