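import Fermat.Agent.S53.Core7
import Fermat.Agent.S53.GoodNonempty
import Fermat.Agent.S53.UnivBasic
import Fermat.Agent.S53.UnivType
import Fermat.Agent.S53.UnivUnique
import Fermat.Agent.S53.UnivExists
import Fermat.Agent.S53.TypeEquiv

/-!
# S53 core, part 8: the universal property and the final assembly
-/

set_option autoImplicit false
set_option linter.unusedSectionVars false
open IsLocalRing

namespace H24S53

section Univ

variable {𝒪 : Type} [CommRing 𝒪] [IsLocalRing 𝒪]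
  {𝒟 : ∀ ⦃A : Type⦄ [CommRing A] [IsLocalRing A] [Algebra 𝒪 A], GaloisRepAdic A → Prop}
  {rbar : Gal → M2 (ResidueField 𝒪)} {l₀ l₁ : List (𝒪 × Gal)}
  {R : Type} [CommRing R] [IsLocalRing R] [Algebra 𝒪 R]

/-- `Lifts` is preserved by local algebra homomorphisms. -/
theorem h24_lifts_mapMat_of_isLocalHom {A : Type} [CommRing A] [IsLocalRing A] [Algebra 𝒪 A]
    (φ : R →ₐ[𝒪] A) (hφ : IsLocalHom (φ : R →+* A)) {r : Gal → M2 R} (hl : Lifts rbar r) :
    Lifts rbar (mapMat (φ : R →+* A) r) := by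
  intro σ i j c hc
  have h1 := hl σ i j c hc
  have h2 : mapMat (φ : R →+* A) r σ i j - algebraMap 𝒪 A c =
      φ (r σ i j - algebraMap 𝒪 R c) := by
    rw [map_sub, AlgHom.commutes]
    rfl
  rw [h2]
  refine (IsLocalRing.mem_maximalIdeal _).mpr (fun hu => ?_)
  have h3 : IsUnit ((φ : R →+* A) (r σ i j - algebraMap 𝒪 R c)) := hu
  exact h1 (isUnit_of_map_unit (φ : R →+* A) _ h3)

/-- The universal property of a pro-representing package. -/
theorem UnivPkg.h24_universal [Finite (ResidueField 𝒪)]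
    (h𝒟 : GaloisRep.IsDeformationCondition 𝒪 𝒟)
    (ρbar : ResidualGaloisRep (ResidueField 𝒪)) (hrbar : IsMatOfRes ρbar rbar)
    (h₀ : (l₀.map fun p => residue 𝒪 p.1 • rbar p.2).sum = Matrix.single 0 0 1)
    (h₁ : (l₁.map fun p => residue 𝒪 p.1 • rbar p.2).sum = Matrix.single 1 0 1)
    [IsNoetherianRing R] [IsAdicComplete (maximalIdeal R) R] [IsLocalHom (algebraMap 𝒪 R)]
    (P : UnivPkg 𝒟 rbar l₀ l₁ R) (hr : IsHom P.r) (hc : MatCont R P.r)
    (A : Type) [CommRing A] [IsLocalRing A] [IsNoetherianRing A]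
    [IsAdicComplete (maximalIdeal A) A] [Algebra 𝒪 A] [IsLocalHom (algebraMap 𝒪 A)]
    (hsurj : Function.Surjective (residue A ∘ algebraMap 𝒪 A))
    (ρA : GaloisRepAdic A) (hD : 𝒟 ρA)
    (hres : ρA.residual.IsEquiv (ρbar.baseChangeAlong (ResidueField.map (algebraMap 𝒪 A)))) :
    ∃! φ : R →ₐ[𝒪] A, ∃ hφ : IsLocalHom (φ : R →+* A),
      ((ofMat P.r hr hc).baseChangeAlong (φ : R →+* A) hφ).IsEquiv ρA := by
  obtain ⟨rA, hA, hmat⟩ :=
    exists_isNDef_of_deformation h𝒟 ρbar rbar hrbar l₀ l₁ h₀ h₁ hsurj ρA hD hres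
  obtain ⟨φ, hφ, hφr⟩ := P.exists_algHom h𝒟 rA hA
  have hmap : mapMat (φ : R →+* A) P.r = rA := by
    funext σ
    ext i j
    exact hφr σ i j
  refine ⟨φ, ⟨hφ, ?_⟩, ?_⟩
  · have h1 : IsMatOf ((ofMat P.r hr hc).baseChangeAlong (φ : R →+* A) hφ)
        (mapMat (φ : R →+* A) P.r) :=
      (isMatOf_ofMat P.r hr hc).baseChangeAlong (φ : R →+* A) hφ
    rw [hmap] at h1
    exact (isEquiv_iff_of_isMatOf h1 hmat).mpr
      ⟨1, isUnit_one, fun σ => by rw [one_mul, mul_one]⟩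
  · rintro φ' ⟨hφ', he⟩
    have h1 : IsMatOf ((ofMat P.r hr hc).baseChangeAlong (φ' : R →+* A) hφ')
        (mapMat (φ' : R →+* A) P.r) :=
      (isMatOf_ofMat P.r hr hc).baseChangeAlong (φ' : R →+* A) hφ'
    obtain ⟨g, hg, hconj⟩ := (isEquiv_iff_of_isMatOf h1 hmat).mp he
    have heq : mapMat (φ' : R →+* A) P.r = rA :=
      normalized_unique rbar l₀ l₁ h₀ h₁ _ _
        (h24_lifts_mapMat_of_isLocalHom φ' hφ' P.lifts) hA.lifts
        (isNormalized_mapMat φ' P.isNormalized) hA.norm g hg hconj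
    refine P.algHom_ext φ' φ hφ' hφ (fun σ i j => ?_)
    have e1 : φ' (P.r σ i j) = mapMat (φ' : R →+* A) P.r σ i j := rfl
    rw [e1, heq, hφr]

end Univ

/-- Existence of the universal deformation ring. -/
theorem h24_nonempty_deformationRingData
    (𝒪 : Type) [CommRing 𝒪] [IsDomain 𝒪] [IsDiscreteValuationRing 𝒪]
    [IsAdicComplete (IsLocalRing.maximalIdeal 𝒪) 𝒪] [Finite (IsLocalRing.ResidueField 𝒪)]
    (ρbar : ResidualGaloisRep (IsLocalRing.ResidueField 𝒪))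
    (𝒟 : ∀ ⦃A : Type⦄ [CommRing A] [IsLocalRing A] [Algebra 𝒪 A], GaloisRepAdic A → Prop)
    (habs : ρbar.IsAbsolutelyIrreducible)
    (h𝒟 : GaloisRep.IsDeformationCondition 𝒪 𝒟)
    (hbar : 𝒟 (GaloisRepAdic.ofResidualGaloisRep ρbar))
    (hfin : GaloisRep.TangentFinite 𝒪 ρbar 𝒟) :
    Nonempty (GaloisRep.DeformationRingData 𝒪 ρbar 𝒟) := by
  obtain ⟨rbar, l₀, l₁, hrbar, h₀, h₁⟩ := burnside_data 𝒪 ρbar habs
  obtain ⟨d, f, hf, hgen⟩ :=
    exists_coords_generate 𝒪 𝒟 h𝒟 ρbar hfin rbar hrbar l₀ l₁ h₀ h₁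
  have hne : Nonempty (GoodK 𝒟 rbar l₀ l₁) :=
    ⟨⟨Mbar rbar, kGood_Mbar h𝒟 ρbar hbar rbar hrbar l₀ l₁ h₀ h₁⟩⟩
  obtain ⟨R, i1, i2, i3, i4, i5, i6, hsurj, ⟨P⟩⟩ := exists_univPkg f hf h𝒟 hgen hne
  have hr : IsHom P.r := P.isHom
  have hc : MatCont R P.r := P.matCont
  exact ⟨{
    R := R
    residue_surjective := hsurj
    absIrr := habs
    ρ := ofMat P.r hr hc
    isOfType := P.type h𝒟 i6 hsurj hr hc
    residual_isEquiv :=
      residual_isEquiv_of_lifts ρbar rbar hrbar (ofMat P.r hr hc) P.r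
        (isMatOf_ofMat P.r hr hc) P.lifts
    universal := fun A _ _ _ _ _ _ hsA ρA hD hres =>
      P.h24_universal h𝒟 ρbar hrbar h₀ h₁ hr hc A hsA ρA hD hres }⟩

end H24S53
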