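import Mathlib

/-!
# Chevalley's lemma (finite residue field version)

Helper file for S53 (helper25).  For a complete Noetherian local ring `R` with finite residue
field and a downward directed family `F` of ideals with `sInf F = ⊥`, every power of the maximal
ideal contains a member of `F`.
-/

set_option autoImplicit false

namespace H24S53

open IsLocalRing

section Chevalley

variable {R : Type*} [CommRing R] [IsLocalRing R] [IsNoetherianRing R]

/-- Ideals of a finite ring form a finite type. -/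
theorem h25_finite_ideal (A : Type*) [CommRing A] [Finite A] : Finite (Ideal A) :=
  Finite.of_injective (fun I : Ideal A => (I : Set A)) SetLike.coe_injective

/-- Ideals are closed in the `𝔪`-adic topology (Krull). -/
theorem h25_mem_of_forall_mem_sup_pow (I : Ideal R) (x : R)
    (h : ∀ j : ℕ, x ∈ I ⊔ maximalIdeal R ^ j) : x ∈ I := by
  have hK := Ideal.iInf_pow_smul_eq_bot_of_isLocalRing (R := R) (M := R ⧸ I)
    (maximalIdeal R) (IsLocalRing.maximalIdeal.isMaximal R).ne_top
  have hx : (Ideal.Quotient.mk I x) ∈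
      (⨅ i : ℕ, maximalIdeal R ^ i • ⊤ : Submodule R (R ⧸ I)) := by
    rw [Submodule.mem_iInf]
    intro j
    obtain ⟨a, ha, b, hb, rfl⟩ := Submodule.mem_sup.mp (h j)
    have h1 : Ideal.Quotient.mk I (a + b) = b • (1 : R ⧸ I) := by
      rw [map_add, Ideal.Quotient.eq_zero_iff_mem.mpr ha, zero_add, Algebra.smul_def, mul_one]
      rfl
    rw [h1]
    exact Submodule.smul_mem_smul hb Submodule.mem_top
  rw [hK, Submodule.mem_bot] at hx
  exact Ideal.Quotient.eq_zero_iff_mem.mp hx

variable [Finite (ResidueField R)]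

/-- For each `j`, the family `{I ⊔ 𝔪^j : I ∈ F}` has a least element. -/
theorem h25_exists_min_sup_pow (F : Set (Ideal R)) (hne : F.Nonempty)
    (hdir : ∀ I ∈ F, ∀ J ∈ F, ∃ K ∈ F, K ≤ I ⊓ J) (j : ℕ) :
    ∃ I ∈ F, ∀ J ∈ F, I ⊔ maximalIdeal R ^ j ≤ J ⊔ maximalIdeal R ^ j := by
  classical
  have : Finite (R ⧸ maximalIdeal R ^ j) :=
    IsLocalRing.finite_quotient_iff.mpr ⟨j, le_rfl⟩
  have : Finite (Ideal (R ⧸ maximalIdeal R ^ j)) := h25_finite_ideal _
  -- the image family in the finite lattice of ideals of `R ⧸ 𝔪^j`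
  let g : Ideal R → Ideal (R ⧸ maximalIdeal R ^ j) :=
    fun I => I.map (Ideal.Quotient.mk (maximalIdeal R ^ j))
  have hg : ∀ I J : Ideal R, g I ≤ g J →
      I ⊔ maximalIdeal R ^ j ≤ J ⊔ maximalIdeal R ^ j := by
    intro I J hIJ
    have h1 := Ideal.comap_mono (f := Ideal.Quotient.mk (maximalIdeal R ^ j)) hIJ
    simp only [g, Ideal.comap_map_of_surjective _ Ideal.Quotient.mk_surjective,
      ← RingHom.ker_eq_comap_bot, Ideal.mk_ker] at h1
    exact h1
  have hfin : (g '' F).Finite := Set.toFinite _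
  obtain ⟨M, hM, hmin⟩ := hfin.exists_minimal (hne.image g)
  obtain ⟨I, hI, rfl⟩ := hM
  refine ⟨I, hI, fun J hJ => ?_⟩
  obtain ⟨K, hK, hKle⟩ := hdir I hI J hJ
  have hKI : g K ≤ g I := Ideal.map_mono (le_trans hKle inf_le_left)
  have hKJ : g K ≤ g J := Ideal.map_mono (le_trans hKle inf_le_right)
  have hIK : g I ≤ g K := hmin ⟨K, hK, rfl⟩ hKI
  exact hg I J (le_trans hIK hKJ)

/-- **Chevalley's lemma** (general form). In a complete Noetherian local ring with finite residue
field, for a downward directed family `F` of ideals, every `sInf F ⊔ 𝔪^n` contains a member of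
`F`. -/
theorem chevalley_exists_le_sInf_sup_pow [IsAdicComplete (maximalIdeal R) R]
    (F : Set (Ideal R)) (hne : F.Nonempty)
    (hdir : ∀ I ∈ F, ∀ J ∈ F, ∃ K ∈ F, K ≤ I ⊓ J) (n : ℕ) :
    ∃ I ∈ F, I ≤ sInf F ⊔ maximalIdeal R ^ n := by
  classical
  by_contra hcon
  push Not at hcon
  choose Imin hIminF hImin using fun j => h25_exists_min_sup_pow F hne hdir j
  obtain ⟨x0, hx0I, hx0⟩ : ∃ x ∈ Imin n, x ∉ sInf F ⊔ maximalIdeal R ^ n :=
    SetLike.not_le_iff_exists.mp (hcon (Imin n) (hIminF n))
  have step : ∀ (j : ℕ) (x : R), x ∈ Imin (n + j) →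
      ∃ x' ∈ Imin (n + j + 1), x' - x ∈ maximalIdeal R ^ (n + j) := by
    intro j x hx
    have h1 : x ∈ Imin (n + j + 1) ⊔ maximalIdeal R ^ (n + j) :=
      hImin (n + j) (Imin (n + j + 1)) (hIminF _) (Ideal.mem_sup_left hx)
    obtain ⟨a, ha, b, hb, rfl⟩ := Submodule.mem_sup.mp h1
    refine ⟨a, ha, ?_⟩
    have : a - (a + b) = -b := by ring
    rw [this]
    exact neg_mem hb
  let g : ℕ → R := fun j =>
    Nat.rec (motive := fun _ => R) x0
      (fun j x => if h : x ∈ Imin (n + j) then (step j x h).choose else 0) j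
  have hg0 : g 0 = x0 := rfl
  have hgs : ∀ j, g (j + 1) =
      if h : g j ∈ Imin (n + j) then (step j (g j) h).choose else 0 := fun j => rfl
  have hgmem : ∀ j, g j ∈ Imin (n + j) := by
    intro j
    induction j with
    | zero => exact hx0I
    | succ j ih =>
      rw [hgs j, dif_pos ih]
      exact (step j (g j) ih).choose_spec.1
  have hf : ∀ j, g (j + 1) - g j ∈ maximalIdeal R ^ (n + j) := by
    intro j
    rw [hgs j, dif_pos (hgmem j)]
    exact (step j (g j) (hgmem j)).choose_spec.2
  have hfd : ∀ a d, g (a + d) - g a ∈ maximalIdeal R ^ (n + a) := by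
    intro a d
    induction d with
    | zero => simp
    | succ d ih =>
      have h2 : g (a + (d + 1)) - g a =
          (g (a + d + 1) - g (a + d)) + (g (a + d) - g a) := by
        rw [← add_assoc]; ring
      rw [h2]
      refine add_mem ?_ ih
      exact Ideal.pow_le_pow_right (by omega) (hf (a + d))
  obtain ⟨L, hL⟩ := IsPrecomplete.prec (I := maximalIdeal R) (M := R)
    (IsAdicComplete.toIsPrecomplete) (f := g) (by
      intro a b hab
      obtain ⟨d, rfl⟩ := Nat.exists_eq_add_of_le hab
      rw [SModEq.sub_mem, smul_eq_mul, Ideal.mul_top]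
      have := hfd a d
      have h3 : g a - g (a + d) = -(g (a + d) - g a) := by ring
      rw [h3]
      exact neg_mem (Ideal.pow_le_pow_right (by omega) this))
  have hL' : ∀ j, g j - L ∈ maximalIdeal R ^ j := by
    intro j
    have := hL j
    rwa [SModEq.sub_mem, smul_eq_mul, Ideal.mul_top] at this
  -- `L ∈ I` for all `I ∈ F`
  have hLI : ∀ I ∈ F, L ∈ I := by
    intro I hI
    apply h25_mem_of_forall_mem_sup_pow
    intro j
    have h1 : g j ∈ I ⊔ maximalIdeal R ^ (n + j) :=
      hImin (n + j) I hI (Ideal.mem_sup_left (hgmem j))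
    have h2 : g j ∈ I ⊔ maximalIdeal R ^ j :=
      (sup_le_sup_left (Ideal.pow_le_pow_right (by omega)) I) h1
    have h3 : g j - L ∈ I ⊔ maximalIdeal R ^ j := Ideal.mem_sup_right (hL' j)
    have := sub_mem h2 h3
    simpa using this
  have hL0 : L ∈ sInf F := by
    rw [Submodule.mem_sInf]
    exact hLI
  -- `x0 = L + (g n - L) - (g n - g 0)`
  apply hx0
  have h2 := hfd 0 n
  simp only [zero_add, add_zero, hg0] at h2
  have h3 : x0 = L + ((g n - L) - (g n - x0)) := by ring
  rw [h3]
  exact add_mem (Ideal.mem_sup_left hL0) (Ideal.mem_sup_right (sub_mem (hL' n) h2))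

/-- **Chevalley's lemma.** In a complete Noetherian local ring with finite residue field, a
downward directed family of ideals with zero intersection is cofinal with the powers of the
maximal ideal. -/
theorem chevalley_exists_le_pow [IsAdicComplete (maximalIdeal R) R]
    (F : Set (Ideal R)) (hne : F.Nonempty)
    (hdir : ∀ I ∈ F, ∀ J ∈ F, ∃ K ∈ F, K ≤ I ⊓ J)
    (hbot : sInf F = ⊥) (n : ℕ) : ∃ I ∈ F, I ≤ maximalIdeal R ^ n := by
  obtain ⟨I, hI, hle⟩ := chevalley_exists_le_sInf_sup_pow F hne hdir n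
  exact ⟨I, hI, by simpa [hbot] using hle⟩

end Chevalley

end H24S53
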