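import Fermat.Agent.S53.Defs

/-!
# S53, Component S: the power series ring `𝒪⟦y₁,…,y_d⟧`

* `mvPowerSeries_maximalIdeal_eq`
* `mvPowerSeries_isAdicComplete`
* `mvPowerSeries_exists_algHom`
* `mvPowerSeries_algHom_ext`
-/

set_option autoImplicit false
set_option linter.unusedSectionVars false

namespace H24S53

open MvPowerSeries Finsupp

section General

variable {σ R : Type*} [CommRing R] [Finite σ]

/-- Membership in the `n`-th power of the ideal of variables of a power series ring. -/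
theorem h28_mem_pow_span_X_iff (n : ℕ) (f : MvPowerSeries σ R) :
    f ∈ (Ideal.span (Set.range (X : σ → MvPowerSeries σ R))) ^ n ↔
      ∀ x : σ →₀ ℕ, degree x < n → coeff x f = 0 := by
  have hmap : Ideal.map (toAdicCompletionAlgEquiv σ R).toRingEquiv
      (Ideal.span (Set.range (X : σ → MvPowerSeries σ R))) =
      (MvPolynomial.idealOfVars σ R).map
        (algebraMap (MvPolynomial σ R)
          (AdicCompletion (MvPolynomial.idealOfVars σ R) (MvPolynomial σ R))) := by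
    simp_rw [Ideal.map_span, ← Set.range_comp]
    congr 2; ext1
    simp [AdicCompletion.algebraMap_apply, ← MvPolynomial.coe_X, toAdicCompletion_coe]
  have h1 : f ∈ (Ideal.span (Set.range (X : σ → MvPowerSeries σ R))) ^ n ↔
      (toAdicCompletionAlgEquiv σ R).toRingEquiv f ∈
        Ideal.map (toAdicCompletionAlgEquiv σ R).toRingEquiv
          ((Ideal.span (Set.range (X : σ → MvPowerSeries σ R))) ^ n) := by
    rw [Ideal.mem_map_of_equiv]
    constructor
    · intro h; exact ⟨f, h, rfl⟩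
    · rintro ⟨g, hg, hgf⟩
      rwa [← (toAdicCompletionAlgEquiv σ R).toRingEquiv.injective hgf]
  rw [h1, Ideal.map_pow, hmap, ← Ideal.map_pow]
  have h2 : ∀ y : AdicCompletion (MvPolynomial.idealOfVars σ R) (MvPolynomial σ R),
      y ∈ Ideal.map (algebraMap (MvPolynomial σ R)
          (AdicCompletion (MvPolynomial.idealOfVars σ R) (MvPolynomial σ R)))
        (MvPolynomial.idealOfVars σ R ^ n) ↔
      y ∈ (MvPolynomial.idealOfVars σ R ^ n) •
        (⊤ : Submodule (MvPolynomial σ R)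
          (AdicCompletion (MvPolynomial.idealOfVars σ R) (MvPolynomial σ R))) := by
    intro y
    rw [Ideal.smul_top_eq_map, Submodule.restrictScalars_mem]
  rw [h2, AdicCompletion.pow_smul_top_eq_ker_eval (MvPolynomial.idealOfVars_fg σ R),
    LinearMap.mem_ker, AdicCompletion.eval_apply]
  have h3 : ((toAdicCompletionAlgEquiv σ R).toRingEquiv f).val n =
      Ideal.Quotient.mk (MvPolynomial.idealOfVars σ R ^ n • ⊤) (truncTotal n f) := rfl
  rw [h3, Ideal.Quotient.eq_zero_iff_mem, smul_eq_mul, Ideal.mul_top,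
    MvPolynomial.mem_pow_idealOfVars_iff']
  refine forall_congr' fun x => ?_
  refine imp_congr_right fun hx => ?_
  rw [coeff_truncTotal _ hx]

theorem h28_mem_span_X_iff (f : MvPowerSeries σ R) :
    f ∈ Ideal.span (Set.range (X : σ → MvPowerSeries σ R)) ↔ constantCoeff f = 0 := by
  have h := h28_mem_pow_span_X_iff 1 f
  rw [pow_one] at h
  rw [h]
  constructor
  · intro hf
    have := hf 0 (by simp)
    simpa using this
  · intro hf x hx
    have hx0 : x = 0 := by
      have : degree x = 0 := by omega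
      exact (Finsupp.degree_eq_zero_iff x).mp this
    subst hx0
    simpa using hf

end General

section Local

variable (𝒪 : Type) [CommRing 𝒪] [IsLocalRing 𝒪] (d : ℕ)

theorem h28_mem_maximalIdeal_iff (f : MvPowerSeries (Fin d) 𝒪) :
    f ∈ IsLocalRing.maximalIdeal (MvPowerSeries (Fin d) 𝒪) ↔
      constantCoeff f ∈ IsLocalRing.maximalIdeal 𝒪 := by
  rw [IsLocalRing.mem_maximalIdeal, IsLocalRing.mem_maximalIdeal, mem_nonunits_iff,
    mem_nonunits_iff, MvPowerSeries.isUnit_iff_constantCoeff]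

theorem mvPowerSeries_maximalIdeal_eq :
    IsLocalRing.maximalIdeal (MvPowerSeries (Fin d) 𝒪) =
      Ideal.map (algebraMap 𝒪 _) (IsLocalRing.maximalIdeal 𝒪) ⊔
        Ideal.span (Set.range MvPowerSeries.X) := by
  apply le_antisymm
  · intro f hf
    rw [h28_mem_maximalIdeal_iff] at hf
    have hdecomp : f = algebraMap 𝒪 (MvPowerSeries (Fin d) 𝒪) (constantCoeff f) +
        (f - algebraMap 𝒪 (MvPowerSeries (Fin d) 𝒪) (constantCoeff f)) := by ring
    rw [hdecomp]
    refine Ideal.add_mem _ (Ideal.mem_sup_left (Ideal.mem_map_of_mem _ hf))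
      (Ideal.mem_sup_right ?_)
    rw [h28_mem_span_X_iff]
    simp [MvPowerSeries.algebraMap_apply]
  · rw [sup_le_iff]
    constructor
    · rw [Ideal.map_le_iff_le_comap]
      intro a ha
      rw [Ideal.mem_comap, h28_mem_maximalIdeal_iff]
      simpa [MvPowerSeries.algebraMap_apply] using ha
    · rw [Ideal.span_le]
      rintro _ ⟨i, rfl⟩
      rw [SetLike.mem_coe, h28_mem_maximalIdeal_iff]
      simp

end Local

end H24S53

namespace H24S53

open MvPowerSeries Finsupp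

section Complete

variable (𝒪 : Type) [CommRing 𝒪] [IsLocalRing 𝒪] (d : ℕ)

/-- The ideal of power series whose coefficient at `x` lies in `𝔪 ^ (k - deg x)`. -/
def h28_coeffIdeal (k : ℕ) : Ideal (MvPowerSeries (Fin d) 𝒪) where
  carrier := {g | ∀ x : Fin d →₀ ℕ, coeff x g ∈ IsLocalRing.maximalIdeal 𝒪 ^ (k - degree x)}
  add_mem' := fun {a b} ha hb x => by
    rw [map_add]; exact Ideal.add_mem _ (ha x) (hb x)
  zero_mem' := fun x => by rw [map_zero]; exact Ideal.zero_mem _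
  smul_mem' := fun h g hg x => by
    classical
    rw [smul_eq_mul, coeff_mul]
    refine Ideal.sum_mem _ ?_
    rintro ⟨a, b⟩ hab
    rw [Finset.HasAntidiagonal.mem_antidiagonal] at hab
    have hdeg : degree b ≤ degree x := by
      rw [← hab, map_add]; exact Nat.le_add_left _ _
    exact Ideal.mul_mem_left _ _ (Ideal.pow_le_pow_right (by omega) (hg b))

theorem h28_mem_coeffIdeal_iff (k : ℕ) (g : MvPowerSeries (Fin d) 𝒪) :
    g ∈ h28_coeffIdeal 𝒪 d k ↔
      ∀ x : Fin d →₀ ℕ, coeff x g ∈ IsLocalRing.maximalIdeal 𝒪 ^ (k - degree x) := Iff.rfl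

theorem h28_maximalIdeal_pow_le_coeffIdeal (k : ℕ) :
    IsLocalRing.maximalIdeal (MvPowerSeries (Fin d) 𝒪) ^ k ≤ h28_coeffIdeal 𝒪 d k := by
  classical
  induction k with
  | zero =>
    intro g _ x
    simp
  | succ k ih =>
    rw [pow_succ, Ideal.mul_le]
    intro u hu v hv x
    have hu' := ih hu
    rw [h28_mem_maximalIdeal_iff] at hv
    rw [coeff_mul]
    refine Ideal.sum_mem _ ?_
    rintro ⟨a, b⟩ hab
    rw [Finset.HasAntidiagonal.mem_antidiagonal] at hab
    have hdeg : degree a + degree b = degree x := by rw [← hab, map_add]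
    by_cases hb : b = 0
    · subst hb
      have hax : a = x := by simpa using hab
      subst hax
      have h1 : coeff a u * coeff (0 : Fin d →₀ ℕ) v ∈
          IsLocalRing.maximalIdeal 𝒪 ^ (k - degree a) * IsLocalRing.maximalIdeal 𝒪 :=
        Ideal.mul_mem_mul (hu' a) (by simpa using hv)
      rw [← pow_succ] at h1
      exact Ideal.pow_le_pow_right (by omega) h1
    · have hb1 : 1 ≤ degree b := by
        rcases Nat.eq_zero_or_pos (degree b) with h0 | h0
        · exact absurd ((Finsupp.degree_eq_zero_iff b).mp h0) hb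
        · exact h0
      exact Ideal.mul_mem_right _ _ (Ideal.pow_le_pow_right (by omega) (hu' a))

theorem h28_span_X_le_maximalIdeal :
    Ideal.span (Set.range (X : Fin d → MvPowerSeries (Fin d) 𝒪)) ≤
      IsLocalRing.maximalIdeal (MvPowerSeries (Fin d) 𝒪) := by
  rw [mvPowerSeries_maximalIdeal_eq]; exact le_sup_right

theorem h28_map_le_maximalIdeal :
    Ideal.map (algebraMap 𝒪 (MvPowerSeries (Fin d) 𝒪)) (IsLocalRing.maximalIdeal 𝒪) ≤
      IsLocalRing.maximalIdeal (MvPowerSeries (Fin d) 𝒪) := by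
  rw [mvPowerSeries_maximalIdeal_eq]; exact le_sup_left

theorem h28_monomial_mem (n : ℕ) (x : Fin d →₀ ℕ) (c : 𝒪) (hx : degree x ≤ n)
    (hc : c ∈ IsLocalRing.maximalIdeal 𝒪 ^ (n - degree x)) :
    MvPowerSeries.monomial x c ∈ IsLocalRing.maximalIdeal (MvPowerSeries (Fin d) 𝒪) ^ n := by
  classical
  have h1 : MvPowerSeries.monomial x c =
      algebraMap 𝒪 (MvPowerSeries (Fin d) 𝒪) c * MvPowerSeries.monomial x (1 : 𝒪) := by
    rw [MvPowerSeries.algebraMap_apply, Algebra.algebraMap_self, RingHom.id_apply,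
      ← MvPowerSeries.monomial_zero_eq_C_apply, MvPowerSeries.monomial_mul_monomial, zero_add,
      mul_one]
  have h2 : algebraMap 𝒪 (MvPowerSeries (Fin d) 𝒪) c ∈
      IsLocalRing.maximalIdeal (MvPowerSeries (Fin d) 𝒪) ^ (n - degree x) := by
    refine Ideal.pow_right_mono (h28_map_le_maximalIdeal 𝒪 d) _ ?_
    rw [← Ideal.map_pow]
    exact Ideal.mem_map_of_mem _ hc
  have h3 : MvPowerSeries.monomial x (1 : 𝒪) ∈
      IsLocalRing.maximalIdeal (MvPowerSeries (Fin d) 𝒪) ^ (degree x) := by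
    refine Ideal.pow_right_mono (h28_span_X_le_maximalIdeal 𝒪 d) _ ?_
    rw [h28_mem_pow_span_X_iff]
    intro y hy
    rw [MvPowerSeries.coeff_monomial, if_neg]
    rintro rfl
    exact lt_irrefl _ hy
  rw [h1]
  have h4 := Ideal.mul_mem_mul h2 h3
  rwa [← pow_add, Nat.sub_add_cancel hx] at h4

theorem h28_mem_maximalIdeal_pow_of_coeff (n : ℕ) (g : MvPowerSeries (Fin d) 𝒪)
    (hg : ∀ x : Fin d →₀ ℕ, degree x < n →
      coeff x g ∈ IsLocalRing.maximalIdeal 𝒪 ^ (n - degree x)) :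
    g ∈ IsLocalRing.maximalIdeal (MvPowerSeries (Fin d) 𝒪) ^ n := by
  classical
  have hdecomp : g = (g - ((truncTotal n g : MvPolynomial (Fin d) 𝒪) : MvPowerSeries (Fin d) 𝒪))
      + ((truncTotal n g : MvPolynomial (Fin d) 𝒪) : MvPowerSeries (Fin d) 𝒪) := by ring
  rw [hdecomp]
  refine Ideal.add_mem _ ?_ ?_
  · refine Ideal.pow_right_mono (h28_span_X_le_maximalIdeal 𝒪 d) _ ?_
    rw [h28_mem_pow_span_X_iff]
    intro x hx
    rw [map_sub, MvPolynomial.coeff_coe, coeff_truncTotal _ hx, sub_self]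
  · rw [(truncTotal n g).as_sum, ← MvPolynomial.coeToMvPowerSeries.ringHom_apply, map_sum]
    refine Ideal.sum_mem _ ?_
    intro x hx
    rw [MvPolynomial.coeToMvPowerSeries.ringHom_apply, MvPolynomial.coe_monomial]
    have hxn : degree x < n := by
      by_contra hcon
      rw [MvPolynomial.mem_support_iff, coeff_truncTotal_eq_zero _ (not_lt.mp hcon)] at hx
      exact hx rfl
    rw [coeff_truncTotal _ hxn]
    exact h28_monomial_mem 𝒪 d n x _ hxn.le (hg x hxn)

end Complete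

end H24S53

namespace H24S53

open MvPowerSeries Finsupp

section Complete2

variable (𝒪 : Type) [CommRing 𝒪] [IsLocalRing 𝒪] (d : ℕ)

theorem h28_isHausdorff [IsHausdorff (IsLocalRing.maximalIdeal 𝒪) 𝒪] :
    IsHausdorff (IsLocalRing.maximalIdeal (MvPowerSeries (Fin d) 𝒪))
      (MvPowerSeries (Fin d) 𝒪) := by
  refine ⟨fun g hg => ?_⟩
  ext x
  rw [map_zero]
  refine IsHausdorff.haus (inferInstance : IsHausdorff (IsLocalRing.maximalIdeal 𝒪) 𝒪) _ ?_
  intro n
  rw [SModEq.zero, smul_eq_mul, Ideal.mul_top]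
  have h1 := hg (n + degree x)
  rw [SModEq.zero, smul_eq_mul, Ideal.mul_top] at h1
  have h2 := h28_maximalIdeal_pow_le_coeffIdeal 𝒪 d _ h1 x
  rwa [Nat.add_sub_cancel] at h2

theorem h28_isPrecomplete [IsPrecomplete (IsLocalRing.maximalIdeal 𝒪) 𝒪] :
    IsPrecomplete (IsLocalRing.maximalIdeal (MvPowerSeries (Fin d) 𝒪))
      (MvPowerSeries (Fin d) 𝒪) := by
  refine ⟨fun f hf => ?_⟩
  -- coefficientwise limits
  have hcoeff : ∀ x : Fin d →₀ ℕ, ∃ c : 𝒪, ∀ n : ℕ,
      coeff x (f (n + degree x)) ≡ c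
        [SMOD (IsLocalRing.maximalIdeal 𝒪 ^ n • ⊤ : Submodule 𝒪 𝒪)] := by
    intro x
    refine IsPrecomplete.prec (inferInstance : IsPrecomplete (IsLocalRing.maximalIdeal 𝒪) 𝒪) ?_
    intro m n hmn
    rw [SModEq.sub_mem, smul_eq_mul, Ideal.mul_top, ← map_sub]
    have h1 := hf (show m + degree x ≤ n + degree x by omega)
    rw [SModEq.sub_mem, smul_eq_mul, Ideal.mul_top] at h1
    have h2 := h28_maximalIdeal_pow_le_coeffIdeal 𝒪 d _ h1 x
    rwa [Nat.add_sub_cancel] at h2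
  choose c hc using hcoeff
  obtain ⟨L, hL⟩ : ∃ L : MvPowerSeries (Fin d) 𝒪, ∀ x, coeff x L = c x := ⟨c, fun x => rfl⟩
  refine ⟨L, fun n => ?_⟩
  rw [SModEq.sub_mem, smul_eq_mul, Ideal.mul_top]
  apply h28_mem_maximalIdeal_pow_of_coeff
  intro x hx
  have h1 := hc x (n - degree x)
  rw [SModEq.sub_mem, smul_eq_mul, Ideal.mul_top, Nat.sub_add_cancel hx.le] at h1
  rw [map_sub, hL]
  exact h1

/-- `𝒪⟦y₁,…,y_d⟧` is complete with respect to its maximal ideal. -/
theorem mvPowerSeries_isAdicComplete [IsNoetherianRing 𝒪]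
    [IsAdicComplete (IsLocalRing.maximalIdeal 𝒪) 𝒪] :
    IsAdicComplete (IsLocalRing.maximalIdeal (MvPowerSeries (Fin d) 𝒪))
      (MvPowerSeries (Fin d) 𝒪) :=
  { toIsHausdorff := h28_isHausdorff 𝒪 d
    toIsPrecomplete := h28_isPrecomplete 𝒪 d }

end Complete2

end H24S53

namespace H24S53

open MvPowerSeries Finsupp

section Eval

variable (𝒪 : Type) [CommRing 𝒪] [IsLocalRing 𝒪] (d : ℕ)
  (B : Type) [CommRing B] [IsLocalRing B] [Algebra 𝒪 B]

omit [IsLocalRing 𝒪] in
theorem h28_coe_eq_algebraMap (p : MvPolynomial (Fin d) 𝒪) :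
    (p : MvPowerSeries (Fin d) 𝒪) =
      algebraMap (MvPolynomial (Fin d) 𝒪) (MvPowerSeries (Fin d) 𝒪) p := by
  rw [MvPowerSeries.algebraMap_apply', Algebra.algebraMap_self, MvPowerSeries.map_id]
  rfl

omit [IsLocalRing 𝒪] in
theorem h28_aeval_mem_pow (n : ℕ) (b : Fin d → B)
    (hb : ∀ i, b i ∈ IsLocalRing.maximalIdeal B) (p : MvPolynomial (Fin d) 𝒪)
    (hp : p ∈ MvPolynomial.idealOfVars (Fin d) 𝒪 ^ n) :
    MvPolynomial.aeval b p ∈ IsLocalRing.maximalIdeal B ^ n := by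
  have h1 : Ideal.map (MvPolynomial.aeval b : MvPolynomial (Fin d) 𝒪 →ₐ[𝒪] B)
      (MvPolynomial.idealOfVars (Fin d) 𝒪) ≤ IsLocalRing.maximalIdeal B := by
    rw [Ideal.map_span, Ideal.span_le]
    rintro _ ⟨_, ⟨i, rfl⟩, rfl⟩
    simpa using hb i
  have h2 : Ideal.map (MvPolynomial.aeval b : MvPolynomial (Fin d) 𝒪 →ₐ[𝒪] B)
      (MvPolynomial.idealOfVars (Fin d) 𝒪 ^ n) ≤ IsLocalRing.maximalIdeal B ^ n := by
    rw [Ideal.map_pow]
    exact Ideal.pow_right_mono h1 n
  exact h2 (Ideal.mem_map_of_mem _ hp)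

/-- Evaluation of power series at elements of a nilpotent maximal ideal. -/
theorem mvPowerSeries_exists_algHom [IsLocalHom (algebraMap 𝒪 B)]
    (hB : ∃ n, IsLocalRing.maximalIdeal B ^ n = ⊥) (b : Fin d → B)
    (hb : ∀ i, b i ∈ IsLocalRing.maximalIdeal B) :
    ∃ e : MvPowerSeries (Fin d) 𝒪 →ₐ[𝒪] B, ∀ i, e (MvPowerSeries.X i) = b i := by
  obtain ⟨n, hn⟩ := hB
  have hker : ∀ p : MvPolynomial (Fin d) 𝒪, p ∈ MvPolynomial.idealOfVars (Fin d) 𝒪 ^ n →
      (MvPolynomial.aeval b : MvPolynomial (Fin d) 𝒪 →ₐ[𝒪] B) p = 0 := by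
    intro p hp
    have := h28_aeval_mem_pow 𝒪 d B n b hb p hp
    rwa [hn, Ideal.mem_bot] at this
  let ψ : (MvPolynomial (Fin d) 𝒪 ⧸ MvPolynomial.idealOfVars (Fin d) 𝒪 ^ n) →ₐ[𝒪] B :=
    Ideal.Quotient.liftₐ (MvPolynomial.idealOfVars (Fin d) 𝒪 ^ n)
      (MvPolynomial.aeval b : MvPolynomial (Fin d) 𝒪 →ₐ[𝒪] B) hker
  have hψ : ∀ p : MvPolynomial (Fin d) 𝒪,
      ψ (Ideal.Quotient.mk (MvPolynomial.idealOfVars (Fin d) 𝒪 ^ n) p) =
        MvPolynomial.aeval b p := fun p => rfl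
  let t := truncTotalAlgHom (Fin d) 𝒪 n
  have ht : ∀ p : MvPolynomial (Fin d) 𝒪,
      t (p : MvPowerSeries (Fin d) 𝒪) =
        Ideal.Quotient.mk (MvPolynomial.idealOfVars (Fin d) 𝒪 ^ n) p := by
    intro p
    rw [h28_coe_eq_algebraMap, AlgHom.commutes]
    rfl
  let e : MvPowerSeries (Fin d) 𝒪 →ₐ[𝒪] B :=
    { toRingHom := ψ.toRingHom.comp t.toRingHom
      commutes' := fun a => by
        have h1 : algebraMap 𝒪 (MvPowerSeries (Fin d) 𝒪) a =
            ((MvPolynomial.C a : MvPolynomial (Fin d) 𝒪) : MvPowerSeries (Fin d) 𝒪) := by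
          rw [MvPolynomial.coe_C, MvPowerSeries.algebraMap_apply, Algebra.algebraMap_self,
            RingHom.id_apply]
        show ψ (t (algebraMap 𝒪 (MvPowerSeries (Fin d) 𝒪) a)) = algebraMap 𝒪 B a
        rw [h1, ht, hψ]
        simp }
  refine ⟨e, fun i => ?_⟩
  show ψ (t (MvPowerSeries.X i)) = b i
  rw [← MvPolynomial.coe_X, ht, hψ]
  simp

end Eval

end H24S53

namespace H24S53

open MvPowerSeries Finsupp

section Ext

variable (𝒪 : Type) [CommRing 𝒪] [IsLocalRing 𝒪] (d : ℕ)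
  (B : Type) [CommRing B] [IsLocalRing B] [Algebra 𝒪 B]

omit [IsLocalRing 𝒪] in
theorem h28_algHom_eq_aeval_truncTotal (n : ℕ) (hn : IsLocalRing.maximalIdeal B ^ n = ⊥)
    (e : MvPowerSeries (Fin d) 𝒪 →ₐ[𝒪] B)
    (hm : ∀ i, e (MvPowerSeries.X i) ∈ IsLocalRing.maximalIdeal B)
    (f : MvPowerSeries (Fin d) 𝒪) :
    e f = MvPolynomial.aeval (fun i => e (MvPowerSeries.X i)) (truncTotal n f) := by
  have h1 : Ideal.map e (Ideal.span (Set.range (X : Fin d → MvPowerSeries (Fin d) 𝒪))) ≤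
      IsLocalRing.maximalIdeal B := by
    rw [Ideal.map_span, Ideal.span_le]
    rintro _ ⟨_, ⟨i, rfl⟩, rfl⟩
    exact hm i
  have h2 : ∀ g ∈ (Ideal.span (Set.range (X : Fin d → MvPowerSeries (Fin d) 𝒪))) ^ n,
      e g = 0 := by
    intro g hg
    have h3 : e g ∈ Ideal.map e
        ((Ideal.span (Set.range (X : Fin d → MvPowerSeries (Fin d) 𝒪))) ^ n) :=
      Ideal.mem_map_of_mem _ hg
    rw [Ideal.map_pow] at h3
    have h4 := Ideal.pow_right_mono h1 n h3
    rwa [hn, Ideal.mem_bot] at h4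
  have h5 : f - ((truncTotal n f : MvPolynomial (Fin d) 𝒪) : MvPowerSeries (Fin d) 𝒪) ∈
      (Ideal.span (Set.range (X : Fin d → MvPowerSeries (Fin d) 𝒪))) ^ n := by
    rw [h28_mem_pow_span_X_iff]
    intro x hx
    rw [map_sub, MvPolynomial.coeff_coe, coeff_truncTotal _ hx, sub_self]
  have h6 := h2 _ h5
  rw [map_sub, sub_eq_zero] at h6
  rw [h6]
  have h7 : e.comp (MvPolynomial.coeToMvPowerSeries.algHom (R := 𝒪) (σ := Fin d) 𝒪) =
      MvPolynomial.aeval (fun i => e (MvPowerSeries.X i)) := by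
    apply MvPolynomial.algHom_ext
    intro i
    simp
  have h8 := congrArg (fun φ : MvPolynomial (Fin d) 𝒪 →ₐ[𝒪] B => φ (truncTotal n f)) h7
  simpa using h8

/-- An algebra map out of the power series ring to a local ring with nilpotent maximal
ideal is determined by the images of the variables. -/
theorem mvPowerSeries_algHom_ext [IsLocalHom (algebraMap 𝒪 B)]
    (hB : ∃ n, IsLocalRing.maximalIdeal B ^ n = ⊥) (e e' : MvPowerSeries (Fin d) 𝒪 →ₐ[𝒪] B)
    (h : ∀ i, e (MvPowerSeries.X i) = e' (MvPowerSeries.X i))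
    (hm : ∀ i, e (MvPowerSeries.X i) ∈ IsLocalRing.maximalIdeal B) : e = e' := by
  obtain ⟨n, hn⟩ := hB
  apply AlgHom.ext
  intro f
  rw [h28_algHom_eq_aeval_truncTotal 𝒪 d B n hn e hm f,
    h28_algHom_eq_aeval_truncTotal 𝒪 d B n hn e' (fun i => h i ▸ hm i) f]
  congr 2
  funext i
  exact h i

end Ext

end H24S53
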