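import Fermat.Agent.S53.Core2
import Fermat.Agent.S53.MatrixRep
import Fermat.Agent.S53.Normalize
import Fermat.Agent.S53.ResidualLift

/-!
# S53, Component T: separating coordinates from `TangentFinite`

Main result: `H24S53.exists_separating_coords`: finitely many matrix entries separate the
normalised `𝒟`-deformations of `rbar` to the dual numbers.
-/

set_option autoImplicit false

namespace H24S53
open IsLocalRing

/-- A finite family of "functions" is separated by finitely many points. -/
theorem h13_exists_separating_points {T X Y : Type} (P : T → Prop) (c : T → X → Y)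
    (hc : Function.Injective c) (hfin : Finite {t : T // P t}) :
    ∃ (d : ℕ) (x : Fin d → X), ∀ t t' : T, P t → P t' →
      (∀ s, c t (x s) = c t' (x s)) → t = t' := by
  classical
  let Q : Type := {p : {t : T // P t} × {t : T // P t} // p.1.1 ≠ p.2.1}
  have : Finite Q := inferInstance
  have hex : ∀ q : Q, ∃ x : X, c q.1.1.1 x ≠ c q.1.2.1 x := by
    intro q
    by_contra h
    apply q.2
    apply hc
    funext x
    by_contra hx
    exact h ⟨x, hx⟩
  choose pt hpt using hex
  let e := Finite.equivFin Q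
  refine ⟨Nat.card Q, fun s => pt (e.symm s), fun f g hf hg h => ?_⟩
  by_contra hne
  let q : Q := ⟨(⟨f, hf⟩, ⟨g, hg⟩), hne⟩
  have := h (e q)
  simp only [Equiv.symm_apply_apply] at this
  exact hpt q this

theorem h13_finite_of_quotient {α : Type*} {β : Type*} {S : Setoid α} (hS : Finite (Quotient S))
    (G : β → α) (hG : ∀ b b', S.r (G b) (G b') → b = b') : Finite β :=
  Finite.of_injective (fun b => Quotient.mk S (G b))
    (fun b b' h => hG b b' (Quotient.exact h))

/-- The two natural maps from the residue field of `𝒪` to the residue field of `k[ε]` agree. -/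
theorem h13_residueField_map_dualNumber (𝒪 : Type) [CommRing 𝒪] [IsLocalRing 𝒪] :
    letI : Algebra 𝒪 (DualNumber (ResidueField 𝒪)) :=
      ((algebraMap (ResidueField 𝒪) (DualNumber (ResidueField 𝒪))).comp
        (algebraMap 𝒪 (ResidueField 𝒪))).toAlgebra
    ∀ [IsLocalHom (algebraMap 𝒪 (DualNumber (ResidueField 𝒪)))],
      ResidueField.map (algebraMap 𝒪 (DualNumber (ResidueField 𝒪))) =
        (residue (DualNumber (ResidueField 𝒪))).comp
          (algebraMap (ResidueField 𝒪) (DualNumber (ResidueField 𝒪))) := by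
  intro _
  ext x
  obtain ⟨c, rfl⟩ := residue_surjective x
  rw [ResidueField.map_residue]
  rfl

theorem exists_separating_coords (𝒪 : Type) [CommRing 𝒪] [IsLocalRing 𝒪]
    (𝒟 : ∀ ⦃A : Type⦄ [CommRing A] [IsLocalRing A] [Algebra 𝒪 A], GaloisRepAdic A → Prop)
    (ρbar : ResidualGaloisRep (IsLocalRing.ResidueField 𝒪))
    (hfin : GaloisRep.TangentFinite 𝒪 ρbar 𝒟)
    (rbar : Gal → M2 (IsLocalRing.ResidueField 𝒪)) (hrbar : IsMatOfRes ρbar rbar)
    (l₀ l₁ : List (𝒪 × Gal))
    (h₀ : (l₀.map fun p => IsLocalRing.residue 𝒪 p.1 • rbar p.2).sum = Matrix.single 0 0 1)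
    (h₁ : (l₁.map fun p => IsLocalRing.residue 𝒪 p.1 • rbar p.2).sum = Matrix.single 1 0 1) :
    letI : Algebra 𝒪 (DualNumber (IsLocalRing.ResidueField 𝒪)) :=
      ((algebraMap (IsLocalRing.ResidueField 𝒪) (DualNumber (IsLocalRing.ResidueField 𝒪))).comp
        (algebraMap 𝒪 (IsLocalRing.ResidueField 𝒪))).toAlgebra
    ∃ (d : ℕ) (x : Fin d → Var), ∀ t t' : Gal → M2 (DualNumber (IsLocalRing.ResidueField 𝒪)),
      IsNDef 𝒟 rbar l₀ l₁ (DualNumber (IsLocalRing.ResidueField 𝒪)) t →
      IsNDef 𝒟 rbar l₀ l₁ (DualNumber (IsLocalRing.ResidueField 𝒪)) t' →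
      (∀ s, t (x s).1 (x s).2.1 (x s).2.2 = t' (x s).1 (x s).2.1 (x s).2.2) → t = t' := by
  letI alg : Algebra 𝒪 (DualNumber (ResidueField 𝒪)) :=
    ((algebraMap (ResidueField 𝒪) (DualNumber (ResidueField 𝒪))).comp
      (algebraMap 𝒪 (ResidueField 𝒪))).toAlgebra
  letI algk : Algebra (ResidueField 𝒪) (ResidueField (DualNumber (ResidueField 𝒪))) :=
    ((IsLocalRing.residue (DualNumber (ResidueField 𝒪))).comp
      (algebraMap (ResidueField 𝒪) (DualNumber (ResidueField 𝒪)))).toAlgebra
  unfold GaloisRep.TangentFinite at hfin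
  -- the residual condition for normalised deformations
  have hres : ∀ t : Gal → M2 (DualNumber (ResidueField 𝒪)),
      ∀ ht : IsNDef 𝒟 rbar l₀ l₁ (DualNumber (ResidueField 𝒪)) t,
      (ofMat t ht.isHom ht.matCont).residual.IsEquiv
        (ρbar.baseChange (ResidueField (DualNumber (ResidueField 𝒪)))) := by
    intro t ht
    haveI := ht.isLocalHom
    have h1 := residual_isEquiv_of_lifts ρbar rbar hrbar (ofMat t ht.isHom ht.matCont) t
      (isMatOf_ofMat t ht.isHom ht.matCont) ht.lifts
    rw [h13_residueField_map_dualNumber 𝒪] at h1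
    exact h1
  -- the family of normalised deformations is finite
  have hfinT : Finite {t : Gal → M2 (DualNumber (ResidueField 𝒪)) //
        IsNDef 𝒟 rbar l₀ l₁ (DualNumber (ResidueField 𝒪)) t} := by
    refine h13_finite_of_quotient hfin
      (fun t => ⟨ofMat t.1 t.2.isHom t.2.matCont, t.2.type, hres t.1 t.2⟩) ?_
    rintro ⟨t, ht⟩ ⟨t', ht'⟩ h
    haveI := ht.isLocalHom
    obtain ⟨g, hg, hconj⟩ := (isEquiv_iff_of_isMatOf (isMatOf_ofMat t ht.isHom ht.matCont)
      (isMatOf_ofMat t' ht'.isHom ht'.matCont)).1 h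
    exact Subtype.ext
      (normalized_unique rbar l₀ l₁ h₀ h₁ t t' ht.lifts ht'.lifts ht.norm ht'.norm g hg hconj)
  exact h13_exists_separating_points (X := Var)
    (fun t : Gal → M2 (DualNumber (ResidueField 𝒪)) =>
      IsNDef 𝒟 rbar l₀ l₁ (DualNumber (ResidueField 𝒪)) t)
    (fun t v => t v.1 v.2.1 v.2.2)
    (fun t t' h => by
      funext σ
      refine Matrix.ext fun i j => ?_
      exact congrFun h (σ, i, j))
    hfinT

end H24S53
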