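import Fermat.Agent.S53.Defs

/-!
# S53 Component C: a nonzero tangent homomorphism `A → k[ε]` killing a given ideal
-/

set_option autoImplicit false

namespace H24S53

theorem exists_tangent_hom (𝒪 A : Type) [CommRing 𝒪] [IsLocalRing 𝒪] [CommRing A] [IsLocalRing A]
    [Algebra 𝒪 A] [IsLocalHom (algebraMap 𝒪 A)]
    (hsurj : Function.Surjective (IsLocalRing.residue A ∘ algebraMap 𝒪 A))
    (𝔫 : Ideal A) (h2 : IsLocalRing.maximalIdeal A ^ 2 ≤ 𝔫)
    (hϖ : Ideal.map (algebraMap 𝒪 A) (IsLocalRing.maximalIdeal 𝒪) ≤ 𝔫)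
    (hlt : 𝔫 < IsLocalRing.maximalIdeal A) :
    ∃ φ : A →+* DualNumber (IsLocalRing.ResidueField 𝒪),
      (∀ c : 𝒪, φ (algebraMap 𝒪 A c) = TrivSqZeroExt.inl (IsLocalRing.residue 𝒪 c)) ∧
      (∀ a ∈ 𝔫, φ a = 0) ∧ (∃ a ∈ IsLocalRing.maximalIdeal A, φ a ≠ 0) := by
  classical
  -- the residue map `κ : A → k`
  have hbij : Function.Bijective (IsLocalRing.ResidueField.map (algebraMap 𝒪 A)) := by
    refine ⟨RingHom.injective _, fun y => ?_⟩
    obtain ⟨a, rfl⟩ := IsLocalRing.residue_surjective y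
    obtain ⟨c, hc⟩ := hsurj (IsLocalRing.residue A a)
    exact ⟨IsLocalRing.residue 𝒪 c, by rw [IsLocalRing.ResidueField.map_residue]; exact hc⟩
  let e : IsLocalRing.ResidueField 𝒪 ≃+* IsLocalRing.ResidueField A :=
    RingEquiv.ofBijective _ hbij
  let κ : A →+* IsLocalRing.ResidueField 𝒪 :=
    (e.symm : IsLocalRing.ResidueField A →+* IsLocalRing.ResidueField 𝒪).comp
      (IsLocalRing.residue A)
  have hκ : ∀ c : 𝒪, κ (algebraMap 𝒪 A c) = IsLocalRing.residue 𝒪 c := by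
    intro c
    show e.symm (IsLocalRing.residue A (algebraMap 𝒪 A c)) = _
    rw [RingEquiv.symm_apply_eq]
    exact (IsLocalRing.ResidueField.map_residue _ _).symm
  have hκm : ∀ a : A, κ a = 0 ↔ a ∈ IsLocalRing.maximalIdeal A := by
    intro a
    show e.symm (IsLocalRing.residue A a) = 0 ↔ _
    rw [map_eq_zero_iff _ e.symm.injective, IsLocalRing.residue_eq_zero_iff]
  have hlift : ∀ a : A, ∃ c : 𝒪, a - algebraMap 𝒪 A c ∈ IsLocalRing.maximalIdeal A := by
    intro a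
    obtain ⟨c, hc⟩ := hsurj (IsLocalRing.residue A a)
    refine ⟨c, ?_⟩
    rw [← IsLocalRing.residue_eq_zero_iff, map_sub, sub_eq_zero]
    exact hc.symm
  -- `B = A ⧸ 𝔫` as a `k`-algebra
  let ι : IsLocalRing.ResidueField 𝒪 →+* A ⧸ 𝔫 :=
    Ideal.Quotient.lift (IsLocalRing.maximalIdeal 𝒪)
      ((Ideal.Quotient.mk 𝔫).comp (algebraMap 𝒪 A)) (fun c hc => by
        rw [RingHom.comp_apply, Ideal.Quotient.eq_zero_iff_mem]
        exact hϖ (Ideal.mem_map_of_mem _ hc))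
  let _ : Algebra (IsLocalRing.ResidueField 𝒪) (A ⧸ 𝔫) := ι.toAlgebra
  have hι : ∀ c : 𝒪, algebraMap (IsLocalRing.ResidueField 𝒪) (A ⧸ 𝔫) (IsLocalRing.residue 𝒪 c) =
      Ideal.Quotient.mk 𝔫 (algebraMap 𝒪 A c) := fun c => rfl
  have hmk : ∀ a : A, ∃ x ∈ IsLocalRing.maximalIdeal A,
      Ideal.Quotient.mk 𝔫 a = algebraMap (IsLocalRing.ResidueField 𝒪) (A ⧸ 𝔫) (κ a) +
        Ideal.Quotient.mk 𝔫 x := by
    intro a
    obtain ⟨c, hc⟩ := hlift a
    refine ⟨a - algebraMap 𝒪 A c, hc, ?_⟩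
    have : κ a = IsLocalRing.residue 𝒪 c := by
      rw [← hκ c, ← sub_eq_zero, ← map_sub, hκm]
      exact hc
    rw [this, hι, ← map_add]
    congr 1
    ring
  have hmm : ∀ x ∈ IsLocalRing.maximalIdeal A, ∀ y ∈ IsLocalRing.maximalIdeal A,
      Ideal.Quotient.mk 𝔫 x * Ideal.Quotient.mk 𝔫 y = 0 := by
    intro x hx y hy
    rw [← map_mul, Ideal.Quotient.eq_zero_iff_mem]
    exact h2 (by rw [pow_two]; exact Ideal.mul_mem_mul hx hy)
  -- a nonzero functional killing `1`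
  obtain ⟨x₀, hx₀m, hx₀n⟩ := SetLike.exists_of_lt hlt
  have hp : Submodule.span (IsLocalRing.ResidueField 𝒪) {(1 : A ⧸ 𝔫)} < ⊤ := by
    rw [lt_top_iff_ne_top]
    intro htop
    have hmem : Ideal.Quotient.mk 𝔫 x₀ ∈
        Submodule.span (IsLocalRing.ResidueField 𝒪) {(1 : A ⧸ 𝔫)} := by
      rw [htop]; exact Submodule.mem_top
    obtain ⟨t, ht⟩ := Submodule.mem_span_singleton.mp hmem
    obtain ⟨c, rfl⟩ := IsLocalRing.residue_surjective t
    rw [Algebra.smul_def, mul_one, hι, eq_comm, Ideal.Quotient.eq] at ht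
    have hcm : algebraMap 𝒪 A c ∈ IsLocalRing.maximalIdeal A := by
      have := Ideal.sub_mem _ hx₀m (hlt.le ht)
      simpa using this
    have hc : c ∈ IsLocalRing.maximalIdeal 𝒪 := by
      by_contra hc
      rw [IsLocalRing.mem_maximalIdeal, mem_nonunits_iff, not_not] at hc
      exact (IsLocalRing.mem_maximalIdeal _).mp hcm (hc.map _)
    apply hx₀n
    have := Ideal.sub_mem _ (hϖ (Ideal.mem_map_of_mem _ hc)) ht
    simpa using Ideal.add_mem _ ht (hϖ (Ideal.mem_map_of_mem _ hc))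
  obtain ⟨f, hf0, hf1⟩ := Submodule.exists_le_ker_of_lt_top _ hp
  have hf_one : f 1 = 0 := hf1 (Submodule.subset_span rfl)
  have hf_alg : ∀ t : IsLocalRing.ResidueField 𝒪, f (algebraMap _ (A ⧸ 𝔫) t) = 0 := by
    intro t
    rw [Algebra.algebraMap_eq_smul_one, map_smul, hf_one, smul_zero]
  -- the derivation identity
  have hD : ∀ a b : A, f (Ideal.Quotient.mk 𝔫 (a * b)) =
      κ a * f (Ideal.Quotient.mk 𝔫 b) + κ b * f (Ideal.Quotient.mk 𝔫 a) := by
    intro a b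
    obtain ⟨x, hx, hax⟩ := hmk a
    obtain ⟨y, hy, hby⟩ := hmk b
    have key : Ideal.Quotient.mk 𝔫 (a * b) =
        algebraMap (IsLocalRing.ResidueField 𝒪) (A ⧸ 𝔫) (κ a * κ b) +
          κ a • Ideal.Quotient.mk 𝔫 y + κ b • Ideal.Quotient.mk 𝔫 x := by
      rw [map_mul, hax, hby, Algebra.smul_def, Algebra.smul_def, map_mul]
      have := hmm x hx y hy
      linear_combination this
    have fa : f (Ideal.Quotient.mk 𝔫 a) = f (Ideal.Quotient.mk 𝔫 x) := by
      rw [hax, map_add, hf_alg, zero_add]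
    have fb : f (Ideal.Quotient.mk 𝔫 b) = f (Ideal.Quotient.mk 𝔫 y) := by
      rw [hby, map_add, hf_alg, zero_add]
    rw [key, map_add, map_add, hf_alg, zero_add, map_smul, map_smul, fa, fb, smul_eq_mul,
      smul_eq_mul]
  let φ : A →+* DualNumber (IsLocalRing.ResidueField 𝒪) :=
    { toFun := fun a => TrivSqZeroExt.inl (κ a) + TrivSqZeroExt.inr (f (Ideal.Quotient.mk 𝔫 a))
      map_one' := by
        rw [map_one, map_one, hf_one, TrivSqZeroExt.inr_zero, add_zero, TrivSqZeroExt.inl_one]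
      map_mul' := fun a b => by
        apply TrivSqZeroExt.ext
        · simp
        · simp only [TrivSqZeroExt.snd_add, TrivSqZeroExt.snd_inl, TrivSqZeroExt.snd_inr,
            TrivSqZeroExt.snd_mul, TrivSqZeroExt.fst_add, TrivSqZeroExt.fst_inl,
            TrivSqZeroExt.fst_inr, zero_add, add_zero, smul_eq_mul, MulOpposite.smul_eq_mul_unop,
            MulOpposite.unop_op]
          rw [hD a b]
          ring
      map_zero' := by simp
      map_add' := fun a b => by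
        apply TrivSqZeroExt.ext
        · simp
        · simp }
  have hφ : ∀ a, φ a = TrivSqZeroExt.inl (κ a) + TrivSqZeroExt.inr (f (Ideal.Quotient.mk 𝔫 a)) :=
    fun a => rfl
  refine ⟨φ, fun c => ?_, fun a ha => ?_, ?_⟩
  · rw [hφ, hκ, ← hι, hf_alg, TrivSqZeroExt.inr_zero, add_zero]
  · rw [hφ, (hκm a).mpr (hlt.le ha), Ideal.Quotient.eq_zero_iff_mem.mpr ha, map_zero,
      TrivSqZeroExt.inl_zero, TrivSqZeroExt.inr_zero, add_zero]
  · have : ∃ b : A ⧸ 𝔫, f b ≠ 0 := by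
      by_contra hcon
      push Not at hcon
      exact hf0 (LinearMap.ext hcon)
    obtain ⟨b, hb⟩ := this
    obtain ⟨a, rfl⟩ := Ideal.Quotient.mk_surjective b
    obtain ⟨x, hx, hax⟩ := hmk a
    refine ⟨x, hx, fun h0 => hb ?_⟩
    rw [hax, map_add, hf_alg, zero_add]
    have := congrArg TrivSqZeroExt.snd h0
    rw [hφ] at this
    simpa using this

end H24S53
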