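import Fermat.Agent.S53.Core5
import Fermat.Agent.S53.Tangent
import Fermat.Agent.S53.TangentHom
import Fermat.Agent.S53.PowerSeries

/-!
# S53, Component K3: finitely many coordinates generate every good quotient of `Pol`

Main result: `H24S53.exists_coords_generate`.  Private helpers are prefixed `h1k3_`.
-/

set_option autoImplicit false
set_option linter.style.haveILetI false

namespace H24S53

open IsLocalRing

section Dual

variable (𝒪 : Type) [CommRing 𝒪] [IsLocalRing 𝒪]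

/-- The `𝒪`-algebra structure on `k[ε]` used in `TangentFinite`. -/
@[reducible] noncomputable def h1k3_dualAlgebra : Algebra 𝒪 (DualNumber (ResidueField 𝒪)) :=
  ((algebraMap (ResidueField 𝒪) (DualNumber (ResidueField 𝒪))).comp
    (algebraMap 𝒪 (ResidueField 𝒪))).toAlgebra

theorem h1k3_algebraMap_dual (c : 𝒪) :
    letI := h1k3_dualAlgebra 𝒪
    algebraMap 𝒪 (DualNumber (ResidueField 𝒪)) c = TrivSqZeroExt.inl (residue 𝒪 c) := rfl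

theorem h1k3_isLocalHom_dual :
    letI := h1k3_dualAlgebra 𝒪
    IsLocalHom (algebraMap 𝒪 (DualNumber (ResidueField 𝒪))) := by
  letI := h1k3_dualAlgebra 𝒪
  constructor
  intro c hc
  rw [h1k3_algebraMap_dual, TrivSqZeroExt.isUnit_inl_iff] at hc
  by_contra hcu
  have : residue 𝒪 c = 0 := (residue_eq_zero_iff c).mpr hcu
  rw [this] at hc
  exact not_isUnit_zero hc

theorem h1k3_residue_surjective_dual :
    letI := h1k3_dualAlgebra 𝒪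
    Function.Surjective (residue (DualNumber (ResidueField 𝒪)) ∘
      algebraMap 𝒪 (DualNumber (ResidueField 𝒪))) := by
  letI := h1k3_dualAlgebra 𝒪
  intro y
  obtain ⟨z, rfl⟩ := residue_surjective y
  obtain ⟨c, hc⟩ := residue_surjective (TrivSqZeroExt.fst z)
  refine ⟨c, ?_⟩
  show residue _ (algebraMap 𝒪 (DualNumber (ResidueField 𝒪)) c) = residue _ z
  rw [← sub_eq_zero, ← map_sub, residue_eq_zero_iff, mem_maximalIdeal, mem_nonunits_iff,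
    TrivSqZeroExt.isUnit_iff_isUnit_fst, h1k3_algebraMap_dual]
  simp [hc]

theorem h1k3_isArtinianRing_dual : IsArtinianRing (DualNumber (ResidueField 𝒪)) := by
  haveI : Module.Finite (ResidueField 𝒪) (DualNumber (ResidueField 𝒪)) :=
    inferInstanceAs (Module.Finite (ResidueField 𝒪) (ResidueField 𝒪 × ResidueField 𝒪))
  exact IsArtinianRing.of_finite (ResidueField 𝒪) (DualNumber (ResidueField 𝒪))

theorem h1k3_isArtinianTestAlgebra_dual :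
    letI := h1k3_dualAlgebra 𝒪
    GaloisRep.IsArtinianTestAlgebra 𝒪 (DualNumber (ResidueField 𝒪)) := by
  letI := h1k3_dualAlgebra 𝒪
  exact ⟨h1k3_isLocalHom_dual 𝒪, h1k3_residue_surjective_dual 𝒪, h1k3_isArtinianRing_dual 𝒪⟩

end Dual

section Transport

variable {𝒪 : Type} [CommRing 𝒪] [IsLocalRing 𝒪]
  {𝒟 : ∀ ⦃A : Type⦄ [CommRing A] [IsLocalRing A] [Algebra 𝒪 A], GaloisRepAdic A → Prop}
  {rbar : Gal → M2 (ResidueField 𝒪)} {l₀ l₁ : List (𝒪 × Gal)}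

theorem h1k3_isLocalHom_of_pow_eq_bot {A B : Type} [CommRing A] [IsLocalRing A] [CommRing B]
    [Nontrivial B] (φ : A →+* B) {N : ℕ} (hN : maximalIdeal A ^ N = ⊥) : IsLocalHom φ := by
  constructor
  intro a ha
  by_contra hna
  have h1 : a ∈ maximalIdeal A := hna
  have h2 : a ^ N = 0 := by
    have := Ideal.pow_mem_pow h1 N
    rwa [hN, Ideal.mem_bot] at this
  have h3 : IsNilpotent (φ a) := ⟨N, by rw [← map_pow, h2, map_zero]⟩
  exact h3.not_isUnit ha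

/-- Transport of a normalised deformation along a local `𝒪`-algebra hom of test algebras. -/
theorem h1k3_isNDef_mapMat (h𝒟 : GaloisRep.IsDeformationCondition 𝒪 𝒟)
    {A B : Type} [CommRing A] [IsLocalRing A] [Algebra 𝒪 A] [CommRing B] [IsLocalRing B]
    [Algebra 𝒪 B] (hA : GaloisRep.IsArtinianTestAlgebra 𝒪 A)
    (hB : GaloisRep.IsArtinianTestAlgebra 𝒪 B) (φ : A →ₐ[𝒪] B)
    (hφ : IsLocalHom (φ : A →+* B)) {r : Gal → M2 A} (h : IsNDef 𝒟 rbar l₀ l₁ A r) :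
    IsNDef 𝒟 rbar l₀ l₁ B (mapMat (φ : A →+* B) r) := by
  haveI := hφ
  have hhom : IsHom (mapMat (φ : A →+* B) r) := isHom_mapMat _ h.isHom
  have hcont : MatCont B (mapMat (φ : A →+* B) r) := matCont_mapMat _ h.matCont
  refine ⟨hB.isLocalHom, hB.residue_surjective, hhom, hcont, ?_, isNormalized_mapMat φ h.norm, ?_⟩
  · intro σ i j c hc
    have h1 := h.lifts σ i j c hc
    have h2 : mapMat (φ : A →+* B) r σ i j - algebraMap 𝒪 B c =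
        (φ : A →+* B) (r σ i j - algebraMap 𝒪 A c) := by
      rw [map_sub, mapMat_apply]
      congr 1
      exact (φ.commutes c).symm
    rw [h2]
    exact map_nonunit (φ : A →+* B) _ h1
  · exact h𝒟.of_isEquiv hB (isEquiv_baseChangeAlong_ofMat (φ : A →+* B) hφ h.isHom h.matCont
      hhom hcont) (h𝒟.baseChangeAlong hA hB φ hφ h.type)

end Transport


section Main

variable {𝒪 : Type} [CommRing 𝒪] [IsLocalRing 𝒪]
  {𝒟 : ∀ ⦃A : Type⦄ [CommRing A] [IsLocalRing A] [Algebra 𝒪 A], GaloisRepAdic A → Prop}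
  {rbar : Gal → M2 (ResidueField 𝒪)} {l₀ l₁ : List (𝒪 × Gal)}

/-- The ideal of `Pol 𝒪 ⧸ K` generated by the chosen coordinates and the maximal ideal of `𝒪`. -/
noncomputable def h1k3_gen {d : ℕ} (K : Ideal (Pol 𝒪)) (f : Fin d → Pol 𝒪) : Ideal (Pol 𝒪 ⧸ K) :=
  Ideal.span (Set.range fun s => Ideal.Quotient.mk K (f s)) ⊔
    Ideal.map (algebraMap 𝒪 (Pol 𝒪 ⧸ K)) (maximalIdeal 𝒪)

theorem h1k3_gen_le {d : ℕ} {K : Ideal (Pol 𝒪)} (hK : IsOpenIdeal rbar K)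
    [IsLocalRing (Pol 𝒪 ⧸ K)] (f : Fin d → Pol 𝒪) (hf : ∀ s, f s ∈ Mbar rbar) :
    h1k3_gen K f ≤ maximalIdeal (Pol 𝒪 ⧸ K) := by
  haveI := hK.isLocalHom
  refine sup_le ?_ ?_
  · rw [Ideal.span_le]
    rintro _ ⟨s, rfl⟩
    exact (hK.mk_mem_maximalIdeal_iff _).mpr (hf s)
  · rw [Ideal.map_le_iff_le_comap]
    intro c hc
    exact map_nonunit (algebraMap 𝒪 (Pol 𝒪 ⧸ K)) c hc

theorem h1k3_maximalIdeal_le_gen_sup_sq (h𝒟 : GaloisRep.IsDeformationCondition 𝒪 𝒟)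
    {d : ℕ} (x : Fin d → Var) (c : Fin d → 𝒪)
    (hc : ∀ s, residue 𝒪 (c s) = rbar (x s).1 (x s).2.1 (x s).2.2)
    (hsep : letI := h1k3_dualAlgebra 𝒪
      ∀ t t' : Gal → M2 (DualNumber (ResidueField 𝒪)),
        IsNDef 𝒟 rbar l₀ l₁ (DualNumber (ResidueField 𝒪)) t →
        IsNDef 𝒟 rbar l₀ l₁ (DualNumber (ResidueField 𝒪)) t' →
        (∀ s, t (x s).1 (x s).2.1 (x s).2.2 = t' (x s).1 (x s).2.1 (x s).2.2) → t = t')
    {K : Ideal (Pol 𝒪)} (hK : KGood 𝒟 rbar l₀ l₁ K) [IsLocalRing (Pol 𝒪 ⧸ K)] :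
    maximalIdeal (Pol 𝒪 ⧸ K) ≤
      h1k3_gen K (fun s => MvPolynomial.X (x s) - MvPolynomial.C (c s)) ⊔
        maximalIdeal (Pol 𝒪 ⧸ K) ^ 2 := by
  classical
  obtain ⟨hopen, hfin, hnd⟩ := hK
  haveI := hfin
  have hnd' : IsNDef 𝒟 rbar l₀ l₁ (Pol 𝒪 ⧸ K) (rK K) := hnd
  haveI := hopen.isLocalHom
  have hf : ∀ s, (MvPolynomial.X (x s) - MvPolynomial.C (c s) : Pol 𝒪) ∈ Mbar rbar :=
    fun s => X_sub_C_mem_Mbar rbar _ _ _ _ (hc s)
  by_contra hnot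
  have hle : h1k3_gen K (fun s => MvPolynomial.X (x s) - MvPolynomial.C (c s)) ⊔
      maximalIdeal (Pol 𝒪 ⧸ K) ^ 2 ≤ maximalIdeal (Pol 𝒪 ⧸ K) :=
    sup_le (h1k3_gen_le hopen _ hf) (Ideal.pow_le_self two_ne_zero)
  have hlt := lt_of_le_not_ge hle hnot
  obtain ⟨φ, hφalg, hφ𝔫, a, ha, hφa⟩ := exists_tangent_hom 𝒪 (Pol 𝒪 ⧸ K)
    hopen.residue_surjective _ le_sup_right
    (le_sup_of_le_left (le_sup_right : _ ≤ h1k3_gen K _)) hlt
  letI := h1k3_dualAlgebra 𝒪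
  let φ' : Pol 𝒪 ⧸ K →ₐ[𝒪] DualNumber (ResidueField 𝒪) :=
    { φ with commutes' := fun c => hφalg c }
  let ψ : DualNumber (ResidueField 𝒪) →+* DualNumber (ResidueField 𝒪) :=
    (TrivSqZeroExt.inlHom (ResidueField 𝒪) (ResidueField 𝒪)).comp
      (TrivSqZeroExt.fstHom (ResidueField 𝒪) (ResidueField 𝒪) (ResidueField 𝒪) :
        DualNumber (ResidueField 𝒪) →+* ResidueField 𝒪)
  have hψ : ∀ z, ψ z = TrivSqZeroExt.inl (TrivSqZeroExt.fst z) := fun z => rfl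
  let φ₀ : Pol 𝒪 ⧸ K →ₐ[𝒪] DualNumber (ResidueField 𝒪) :=
    { ψ.comp φ with
      commutes' := fun c => by
        show ψ (φ (algebraMap 𝒪 _ c)) = _
        rw [hφalg, hψ, TrivSqZeroExt.fst_inl]
        rfl }
  have hφ' : ∀ y, φ' y = φ y := fun y => rfl
  have hφ₀ : ∀ y, φ₀ y = ψ (φ y) := fun y => rfl
  obtain ⟨N, hN⟩ := hopen.exists_pow_eq_bot
  have hloc : IsLocalHom (φ' : Pol 𝒪 ⧸ K →+* DualNumber (ResidueField 𝒪)) :=
    h1k3_isLocalHom_of_pow_eq_bot _ hN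
  have hloc₀ : IsLocalHom (φ₀ : Pol 𝒪 ⧸ K →+* DualNumber (ResidueField 𝒪)) :=
    h1k3_isLocalHom_of_pow_eq_bot _ hN
  have hA : GaloisRep.IsArtinianTestAlgebra 𝒪 (Pol 𝒪 ⧸ K) :=
    ⟨hopen.isLocalHom, hopen.residue_surjective, inferInstance⟩
  have ht := h1k3_isNDef_mapMat h𝒟 hA (h1k3_isArtinianTestAlgebra_dual 𝒪) φ' hloc hnd'
  have ht₀ := h1k3_isNDef_mapMat h𝒟 hA (h1k3_isArtinianTestAlgebra_dual 𝒪) φ₀ hloc₀ hnd'
  have hkill : ∀ s, φ (Ideal.Quotient.mk K (MvPolynomial.X (x s))) =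
      TrivSqZeroExt.inl (residue 𝒪 (c s)) := by
    intro s
    have h1 : Ideal.Quotient.mk K (MvPolynomial.X (x s) - MvPolynomial.C (c s)) ∈
        h1k3_gen K (fun s => MvPolynomial.X (x s) - MvPolynomial.C (c s)) ⊔
          maximalIdeal (Pol 𝒪 ⧸ K) ^ 2 :=
      Ideal.mem_sup_left (Ideal.mem_sup_left (Ideal.subset_span ⟨s, rfl⟩))
    have h2 := hφ𝔫 _ h1
    rw [map_sub, map_sub, sub_eq_zero] at h2
    rw [h2]
    exact hφalg (c s)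
  have hagree : ∀ s, mapMat (φ' : Pol 𝒪 ⧸ K →+* DualNumber (ResidueField 𝒪)) (rK K)
      (x s).1 (x s).2.1 (x s).2.2 =
      mapMat (φ₀ : Pol 𝒪 ⧸ K →+* DualNumber (ResidueField 𝒪)) (rK K)
        (x s).1 (x s).2.1 (x s).2.2 := by
    intro s
    rw [mapMat_apply, mapMat_apply, rK_apply]
    show φ _ = ψ (φ _)
    rw [hkill s, hψ, TrivSqZeroExt.fst_inl]
  have heq := hsep _ _ ht ht₀ hagree
  have hcomp : φ'.comp (Ideal.Quotient.mkₐ 𝒪 K) = φ₀.comp (Ideal.Quotient.mkₐ 𝒪 K) := by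
    apply MvPolynomial.algHom_ext
    rintro ⟨σ, i, j⟩
    exact congrFun (congrFun (congrFun heq σ) i) j
  have hφeq : ∀ y, φ y = ψ (φ y) := by
    intro y
    obtain ⟨p, rfl⟩ := Ideal.Quotient.mk_surjective y
    exact DFunLike.congr_fun hcomp p
  have hfst : TrivSqZeroExt.fst (φ a) = 0 := by
    have h1 : ¬ IsUnit (φ a) := fun hu => ha (hloc.map_nonunit a hu)
    rw [TrivSqZeroExt.isUnit_iff_isUnit_fst] at h1
    simpa using h1
  apply hφa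
  rw [hφeq a, hψ, hfst, TrivSqZeroExt.inl_zero]

theorem h1k3_maximalIdeal_le_gen (h𝒟 : GaloisRep.IsDeformationCondition 𝒪 𝒟)
    {d : ℕ} (x : Fin d → Var) (c : Fin d → 𝒪)
    (hc : ∀ s, residue 𝒪 (c s) = rbar (x s).1 (x s).2.1 (x s).2.2)
    (hsep : letI := h1k3_dualAlgebra 𝒪
      ∀ t t' : Gal → M2 (DualNumber (ResidueField 𝒪)),
        IsNDef 𝒟 rbar l₀ l₁ (DualNumber (ResidueField 𝒪)) t →
        IsNDef 𝒟 rbar l₀ l₁ (DualNumber (ResidueField 𝒪)) t' →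
        (∀ s, t (x s).1 (x s).2.1 (x s).2.2 = t' (x s).1 (x s).2.1 (x s).2.2) → t = t')
    {K : Ideal (Pol 𝒪)} (hK : KGood 𝒟 rbar l₀ l₁ K) [IsLocalRing (Pol 𝒪 ⧸ K)] :
    maximalIdeal (Pol 𝒪 ⧸ K) ≤
      h1k3_gen K (fun s => MvPolynomial.X (x s) - MvPolynomial.C (c s)) := by
  have h1 := h1k3_maximalIdeal_le_gen_sup_sq h𝒟 x c hc hsep hK
  haveI : Finite (Pol 𝒪 ⧸ K) := hK.2.1
  have hfg : (maximalIdeal (Pol 𝒪 ⧸ K)).FG := IsNoetherian.noetherian _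
  refine Submodule.le_of_le_smul_of_le_jacobson_bot (I := maximalIdeal (Pol 𝒪 ⧸ K)) hfg
    (maximalIdeal_le_jacobson ⊥) ?_
  rw [Ideal.smul_eq_mul, ← pow_two]
  exact h1

theorem h1k3_surjective (h𝒟 : GaloisRep.IsDeformationCondition 𝒪 𝒟)
    {d : ℕ} (x : Fin d → Var) (c : Fin d → 𝒪)
    (hc : ∀ s, residue 𝒪 (c s) = rbar (x s).1 (x s).2.1 (x s).2.2)
    (hsep : letI := h1k3_dualAlgebra 𝒪
      ∀ t t' : Gal → M2 (DualNumber (ResidueField 𝒪)),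
        IsNDef 𝒟 rbar l₀ l₁ (DualNumber (ResidueField 𝒪)) t →
        IsNDef 𝒟 rbar l₀ l₁ (DualNumber (ResidueField 𝒪)) t' →
        (∀ s, t (x s).1 (x s).2.1 (x s).2.2 = t' (x s).1 (x s).2.1 (x s).2.2) → t = t')
    {K : Ideal (Pol 𝒪)} (hK : KGood 𝒟 rbar l₀ l₁ K)
    (e : MvPowerSeries (Fin d) 𝒪 →ₐ[𝒪] Pol 𝒪 ⧸ K)
    (he : ∀ s, e (MvPowerSeries.X s) =
      Ideal.Quotient.mk K (MvPolynomial.X (x s) - MvPolynomial.C (c s))) :
    Function.Surjective e := by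
  haveI : IsLocalRing (Pol 𝒪 ⧸ K) := hK.1.isLocalRing
  haveI : Finite (Pol 𝒪 ⧸ K) := hK.2.1
  have hm := h1k3_maximalIdeal_le_gen h𝒟 x c hc hsep hK
  letI : Algebra (MvPowerSeries (Fin d) 𝒪) (Pol 𝒪 ⧸ K) := (e : _ →+* _).toAlgebra
  have halg : ∀ z, algebraMap (MvPowerSeries (Fin d) 𝒪) (Pol 𝒪 ⧸ K) z = e z := fun z => rfl
  have hgen : h1k3_gen K (fun s => MvPolynomial.X (x s) - MvPolynomial.C (c s)) ≤
      Ideal.map (algebraMap (MvPowerSeries (Fin d) 𝒪) (Pol 𝒪 ⧸ K))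
        (maximalIdeal (MvPowerSeries (Fin d) 𝒪)) := by
    refine sup_le ?_ ?_
    · rw [Ideal.span_le]
      rintro _ ⟨s, rfl⟩
      show Ideal.Quotient.mk K _ ∈ _
      rw [← he s, ← halg]
      exact Ideal.mem_map_of_mem _ (h28_span_X_le_maximalIdeal 𝒪 d
        (Ideal.subset_span ⟨s, rfl⟩))
    · rw [Ideal.map_le_iff_le_comap]
      intro a ha
      rw [Ideal.mem_comap]
      have h1 : algebraMap 𝒪 (Pol 𝒪 ⧸ K) a =
          algebraMap (MvPowerSeries (Fin d) 𝒪) (Pol 𝒪 ⧸ K)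
            (algebraMap 𝒪 (MvPowerSeries (Fin d) 𝒪) a) := by
        rw [halg, e.commutes]
      rw [h1]
      exact Ideal.mem_map_of_mem _ (h28_map_le_maximalIdeal 𝒪 d (Ideal.mem_map_of_mem _ ha))
  have hfg : (⊤ : Submodule (MvPowerSeries (Fin d) 𝒪) (Pol 𝒪 ⧸ K)).FG :=
    (Module.Finite.of_finite : Module.Finite (MvPowerSeries (Fin d) 𝒪) (Pol 𝒪 ⧸ K)).fg_top
  have htop : (⊤ : Submodule (MvPowerSeries (Fin d) 𝒪) (Pol 𝒪 ⧸ K)) ≤
      LinearMap.range (Algebra.linearMap (MvPowerSeries (Fin d) 𝒪) (Pol 𝒪 ⧸ K)) ⊔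
        maximalIdeal (MvPowerSeries (Fin d) 𝒪) •
          (⊤ : Submodule (MvPowerSeries (Fin d) 𝒪) (Pol 𝒪 ⧸ K)) := by
    intro a _
    obtain ⟨c₀, hc₀⟩ := hK.1.residue_surjective (residue _ a)
    have h1 : a - algebraMap 𝒪 (Pol 𝒪 ⧸ K) c₀ ∈ maximalIdeal (Pol 𝒪 ⧸ K) := by
      rw [← residue_eq_zero_iff, map_sub, sub_eq_zero]
      exact hc₀.symm
    have h2 : a - algebraMap 𝒪 (Pol 𝒪 ⧸ K) c₀ ∈
        maximalIdeal (MvPowerSeries (Fin d) 𝒪) •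
          (⊤ : Submodule (MvPowerSeries (Fin d) 𝒪) (Pol 𝒪 ⧸ K)) := by
      rw [Ideal.smul_top_eq_map]
      exact hgen (hm h1)
    have h3 : algebraMap 𝒪 (Pol 𝒪 ⧸ K) c₀ ∈
        LinearMap.range (Algebra.linearMap (MvPowerSeries (Fin d) 𝒪) (Pol 𝒪 ⧸ K)) :=
      ⟨algebraMap 𝒪 (MvPowerSeries (Fin d) 𝒪) c₀, by
        rw [Algebra.linearMap_apply, halg, e.commutes]⟩
    have h4 : a = algebraMap 𝒪 (Pol 𝒪 ⧸ K) c₀ + (a - algebraMap 𝒪 (Pol 𝒪 ⧸ K) c₀) := by ring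
    rw [h4]
    exact Submodule.add_mem_sup h3 h2
  have hrange := Submodule.le_of_le_smul_of_le_jacobson_bot hfg (maximalIdeal_le_jacobson ⊥) htop
  intro a
  obtain ⟨z, hz⟩ := hrange (Submodule.mem_top : a ∈ _)
  exact ⟨z, hz⟩

end Main

theorem exists_coords_generate (𝒪 : Type) [CommRing 𝒪] [IsLocalRing 𝒪] [IsNoetherianRing 𝒪]
    [IsAdicComplete (IsLocalRing.maximalIdeal 𝒪) 𝒪]
    (𝒟 : ∀ ⦃A : Type⦄ [CommRing A] [IsLocalRing A] [Algebra 𝒪 A], GaloisRepAdic A → Prop)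
    (h𝒟 : GaloisRep.IsDeformationCondition 𝒪 𝒟)
    (ρbar : ResidualGaloisRep (IsLocalRing.ResidueField 𝒪))
    (hfin : GaloisRep.TangentFinite 𝒪 ρbar 𝒟)
    (rbar : Gal → M2 (IsLocalRing.ResidueField 𝒪)) (hrbar : IsMatOfRes ρbar rbar)
    (l₀ l₁ : List (𝒪 × Gal))
    (h₀ : (l₀.map fun p => IsLocalRing.residue 𝒪 p.1 • rbar p.2).sum = Matrix.single 0 0 1)
    (h₁ : (l₁.map fun p => IsLocalRing.residue 𝒪 p.1 • rbar p.2).sum = Matrix.single 1 0 1) :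
    ∃ (d : ℕ) (f : Fin d → Pol 𝒪), (∀ s, f s ∈ Mbar rbar) ∧
      ∀ K : Ideal (Pol 𝒪), KGood 𝒟 rbar l₀ l₁ K →
        ∀ e : MvPowerSeries (Fin d) 𝒪 →ₐ[𝒪] Pol 𝒪 ⧸ K,
          (∀ s, e (MvPowerSeries.X s) = Ideal.Quotient.mk K (f s)) → Function.Surjective e := by
  obtain ⟨d, x, hsep⟩ := exists_separating_coords 𝒪 𝒟 ρbar hfin rbar hrbar l₀ l₁ h₀ h₁
  have hex : ∀ s, ∃ c : 𝒪, residue 𝒪 c = rbar (x s).1 (x s).2.1 (x s).2.2 :=
    fun s => residue_surjective _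
  choose c hc using hex
  refine ⟨d, fun s => MvPolynomial.X (x s) - MvPolynomial.C (c s),
    fun s => X_sub_C_mem_Mbar rbar _ _ _ _ (hc s), fun K hK e he => ?_⟩
  exact h1k3_surjective h𝒟 x c hc hsep hK e he

end H24S53
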