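import Fermat.Agent.S53.Defs

/-!
# S53 core, part 1: general ring-theoretic lemmas
-/

set_option autoImplicit false
open IsLocalRing

namespace H24S53

section LocalQuotient

variable {P : Type*} [CommRing P]

/-- If `𝔐 ^ N ≤ K` then `1 - mk p` is a unit of `P ⧸ K` for `p ∈ 𝔐`. -/
theorem isUnit_one_sub_mk_of_mem {𝔐 K : Ideal P} {N : ℕ} (hN : 𝔐 ^ N ≤ K) {p : P} (hp : p ∈ 𝔐) :
    IsUnit (1 - Ideal.Quotient.mk K p) := by
  have h0 : (Ideal.Quotient.mk K p) ^ N = 0 := by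
    rw [← map_pow]
    exact Ideal.Quotient.eq_zero_iff_mem.mpr (hN (Ideal.pow_mem_pow hp N))
  exact IsNilpotent.isUnit_one_sub ⟨N, h0⟩

theorem isUnit_mk_of_notMem {𝔐 K : Ideal P} [h𝔐 : 𝔐.IsMaximal] {N : ℕ} (hN : 𝔐 ^ N ≤ K)
    {p : P} (hp : p ∉ 𝔐) : IsUnit (Ideal.Quotient.mk K p) := by
  obtain ⟨q, m, hm, hqm⟩ := h𝔐.exists_inv hp
  have h1 : Ideal.Quotient.mk K q * Ideal.Quotient.mk K p = 1 - Ideal.Quotient.mk K m := by
    rw [← map_mul, ← map_one (Ideal.Quotient.mk K), ← map_sub, ← hqm]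
    congr 1
    ring
  have h2 : IsUnit (Ideal.Quotient.mk K q * Ideal.Quotient.mk K p) := by
    rw [h1]; exact isUnit_one_sub_mk_of_mem hN hm
  exact isUnit_of_mul_isUnit_right h2

theorem not_isUnit_mk_of_mem {𝔐 K : Ideal P} [h𝔐 : 𝔐.IsMaximal] (hK : K ≤ 𝔐)
    {p : P} (hp : p ∈ 𝔐) : ¬ IsUnit (Ideal.Quotient.mk K p) := by
  intro hu
  obtain ⟨y, hy⟩ := hu.exists_right_inv
  obtain ⟨q, rfl⟩ := Ideal.Quotient.mk_surjective y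
  rw [← map_mul, ← map_one (Ideal.Quotient.mk K), Ideal.Quotient.eq] at hy
  have : (1 : P) ∈ 𝔐 := by
    have h1 : p * q - 1 ∈ 𝔐 := hK hy
    have h2 : p * q ∈ 𝔐 := 𝔐.mul_mem_right q hp
    have := 𝔐.sub_mem h2 h1
    simpa using this
  exact h𝔐.ne_top ((Ideal.eq_top_iff_one _).mpr this)

/-- A quotient of `P` by an ideal squeezed between a power of a maximal ideal and the maximal
ideal is a local ring. -/
theorem isLocalRing_quotient_of_pow_le {𝔐 K : Ideal P} [h𝔐 : 𝔐.IsMaximal] {N : ℕ}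
    (hN : 𝔐 ^ N ≤ K) (hK : K ≤ 𝔐) : IsLocalRing (P ⧸ K) := by
  haveI : Nontrivial (P ⧸ K) :=
    Ideal.Quotient.nontrivial_iff.mpr (fun h => h𝔐.ne_top (top_le_iff.mp (h ▸ hK)))
  refine IsLocalRing.of_isUnit_or_isUnit_one_sub_self fun x => ?_
  obtain ⟨p, rfl⟩ := Ideal.Quotient.mk_surjective x
  by_cases hp : p ∈ 𝔐
  · exact Or.inr (isUnit_one_sub_mk_of_mem hN hp)
  · exact Or.inl (isUnit_mk_of_notMem hN hp)

theorem isUnit_mk_iff {𝔐 K : Ideal P} [h𝔐 : 𝔐.IsMaximal] {N : ℕ}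
    (hN : 𝔐 ^ N ≤ K) (hK : K ≤ 𝔐) (p : P) : IsUnit (Ideal.Quotient.mk K p) ↔ p ∉ 𝔐 :=
  ⟨fun hu hp => not_isUnit_mk_of_mem hK hp hu, fun hp => isUnit_mk_of_notMem hN hp⟩

theorem mk_mem_maximalIdeal_iff {𝔐 K : Ideal P} [h𝔐 : 𝔐.IsMaximal] {N : ℕ}
    (hN : 𝔐 ^ N ≤ K) (hK : K ≤ 𝔐) [IsLocalRing (P ⧸ K)] (p : P) :
    Ideal.Quotient.mk K p ∈ maximalIdeal (P ⧸ K) ↔ p ∈ 𝔐 := by
  rw [mem_maximalIdeal, mem_nonunits_iff, isUnit_mk_iff hN hK, not_not]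

theorem maximalIdeal_pow_eq_bot_of_pow_le {𝔐 K : Ideal P} [h𝔐 : 𝔐.IsMaximal] {N : ℕ}
    (hN : 𝔐 ^ N ≤ K) (hK : K ≤ 𝔐) [IsLocalRing (P ⧸ K)] :
    maximalIdeal (P ⧸ K) ^ N = ⊥ := by
  have hmap : maximalIdeal (P ⧸ K) = 𝔐.map (Ideal.Quotient.mk K) := by
    apply le_antisymm
    · intro x hx
      obtain ⟨p, rfl⟩ := Ideal.Quotient.mk_surjective x
      exact Ideal.mem_map_of_mem _ ((mk_mem_maximalIdeal_iff hN hK p).mp hx)
    · rw [Ideal.map_le_iff_le_comap]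
      intro p hp
      exact (mk_mem_maximalIdeal_iff hN hK p).mpr hp
  rw [hmap, ← Ideal.map_pow, eq_bot_iff]
  calc (𝔐 ^ N).map (Ideal.Quotient.mk K) ≤ K.map (Ideal.Quotient.mk K) := Ideal.map_mono hN
    _ = ⊥ := Ideal.map_quotient_self K

end LocalQuotient

end H24S53
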