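import Fermat.Agent.S53.Defs
import Fermat.Agent.S53.Core1

/-!
# S53 core, part 2: normalised deformations, the polynomial ring `Pol`, tautological lifts
-/

set_option autoImplicit false
open IsLocalRing

namespace H24S53

/-- Entrywise image of a matrix-valued function under a ring hom. -/
def mapMat {A B : Type} [CommRing A] [CommRing B] (φ : A →+* B) (r : Gal → M2 A) : Gal → M2 B :=
  fun σ => (r σ).map φ

/-- A normalised `𝒟`-deformation of `rbar` over the local `𝒪`-algebra `A`, in matrix form. -/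
structure IsNDef {𝒪 : Type} [CommRing 𝒪] [IsLocalRing 𝒪]
    (𝒟 : ∀ ⦃A : Type⦄ [CommRing A] [IsLocalRing A] [Algebra 𝒪 A], GaloisRepAdic A → Prop)
    (rbar : Gal → M2 (ResidueField 𝒪)) (l₀ l₁ : List (𝒪 × Gal))
    (A : Type) [CommRing A] [IsLocalRing A] [Algebra 𝒪 A] (r : Gal → M2 A) : Prop where
  isLocalHom : IsLocalHom (algebraMap 𝒪 A)
  residue_surjective : Function.Surjective (IsLocalRing.residue A ∘ algebraMap 𝒪 A)
  isHom : IsHom r
  matCont : MatCont A r
  lifts : Lifts rbar r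
  norm : IsNormalized l₀ l₁ r
  type : 𝒟 (ofMat r isHom matCont)

/-- Index set of the variables: matrix entries of group elements. -/
abbrev Var : Type := Gal × Fin 2 × Fin 2

/-- The polynomial ring on the matrix entries. -/
abbrev Pol (𝒪 : Type) [CommRing 𝒪] : Type := MvPolynomial Var 𝒪

/-- Evaluation of polynomials at the entries of `r`. -/
noncomputable def evP {𝒪 A : Type} [CommRing 𝒪] [CommRing A] [Algebra 𝒪 A] (r : Gal → M2 A) :
    Pol 𝒪 →ₐ[𝒪] A :=
  MvPolynomial.aeval (fun x : Var => r x.1 x.2.1 x.2.2)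

@[simp] theorem evP_X {𝒪 A : Type} [CommRing 𝒪] [CommRing A] [Algebra 𝒪 A] (r : Gal → M2 A)
    (σ : Gal) (i j : Fin 2) : evP (𝒪 := 𝒪) r (MvPolynomial.X (σ, i, j)) = r σ i j := by
  simp [evP]

/-- The tautological matrix-valued function on a quotient of `Pol`. -/
noncomputable def rK {𝒪 : Type} [CommRing 𝒪] (K : Ideal (Pol 𝒪)) : Gal → M2 (Pol 𝒪 ⧸ K) :=
  fun σ => Matrix.of fun i j => Ideal.Quotient.mk K (MvPolynomial.X (σ, i, j))

@[simp] theorem rK_apply {𝒪 : Type} [CommRing 𝒪] (K : Ideal (Pol 𝒪)) (σ : Gal) (i j : Fin 2) :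
    rK K σ i j = Ideal.Quotient.mk K (MvPolynomial.X (σ, i, j)) := rfl

/-- The maximal ideal of `Pol` cut out by `rbar`. -/
noncomputable def Mbar {𝒪 : Type} [CommRing 𝒪] [IsLocalRing 𝒪] (rbar : Gal → M2 (ResidueField 𝒪)) :
    Ideal (Pol 𝒪) :=
  RingHom.ker (evP (𝒪 := 𝒪) rbar)

/-- Open ideals of `Pol`: squeezed between a power of `Mbar` and `Mbar`. -/
def IsOpenIdeal {𝒪 : Type} [CommRing 𝒪] [IsLocalRing 𝒪] (rbar : Gal → M2 (ResidueField 𝒪))
    (K : Ideal (Pol 𝒪)) : Prop :=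
  K ≤ Mbar rbar ∧ ∃ N : ℕ, Mbar rbar ^ N ≤ K

end H24S53
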