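import Fermat.Agent.S53.Core2
import Fermat.Agent.S53.MatrixRep

/-!
# S53 core, part 3: open ideals of `Pol`, transport of normalised deformations
-/

set_option autoImplicit false
open IsLocalRing

namespace H24S53

section General

variable {A B : Type} [CommRing A] [CommRing B]

theorem isHom_mapMat (φ : A →+* B) {r : Gal → M2 A} (hr : IsHom r) : IsHom (mapMat φ r) := by
  refine ⟨?_, fun σ τ => ?_⟩
  · show (r 1).map φ = 1
    rw [hr.1, Matrix.map_one _ (map_zero φ) (map_one φ)]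
  · show (r (σ * τ)).map φ = (r σ).map φ * (r τ).map φ
    rw [hr.2, Matrix.map_mul]

theorem mapMat_apply (φ : A →+* B) (r : Gal → M2 A) (σ : Gal) (i j : Fin 2) :
    mapMat φ r σ i j = φ (r σ i j) := rfl

theorem mapMat_injective {φ : A →+* B} (hφ : Function.Injective φ) {r r' : Gal → M2 A}
    (h : mapMat φ r = mapMat φ r') : r = r' := by
  funext σ
  ext i j
  apply hφ
  have := congrFun h σ
  exact congrFun (congrFun this i) j

variable [IsLocalRing A] [IsLocalRing B]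

theorem map_maximalIdeal_pow_le (φ : A →+* B) [IsLocalHom φ] (n : ℕ) :
    (maximalIdeal A ^ n).map φ ≤ maximalIdeal B ^ n := by
  rw [Ideal.map_pow]
  exact Ideal.pow_right_mono (Ideal.map_le_iff_le_comap.mpr fun a ha =>
    Ideal.mem_comap.mpr (map_nonunit φ a ha)) n

theorem matCont_mapMat (φ : A →+* B) [IsLocalHom φ] {r : Gal → M2 A} (hr : MatCont A r) :
    MatCont B (mapMat φ r) := by
  intro n
  obtain ⟨L, hL, h1⟩ := hr n
  refine ⟨L, hL, fun σ hσ i j => ?_⟩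
  have h2 : (mapMat φ r σ - 1) i j = φ ((r σ - 1) i j) := by
    simp only [mapMat, Matrix.sub_apply, Matrix.map_apply, map_sub]
    congr 1
    by_cases hij : i = j
    · subst hij; simp
    · simp [Matrix.one_apply_ne hij]
  rw [h2]
  exact map_maximalIdeal_pow_le φ n (Ideal.mem_map_of_mem φ (h1 σ hσ i j))

theorem matCont_iff_of_pow_eq_bot {N : ℕ} (hN : maximalIdeal A ^ N = ⊥) (r : Gal → M2 A) :
    MatCont A r ↔ ∃ L : IntermediateField ℚ (AlgebraicClosure ℚ), FiniteDimensional ℚ L ∧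
      ∀ σ : Gal, (∀ x ∈ L, σ x = x) → r σ = 1 := by
  constructor
  · intro h
    obtain ⟨L, hL, h1⟩ := h N
    refine ⟨L, hL, fun σ hσ => ?_⟩
    ext i j
    have := h1 σ hσ i j
    rw [hN, Ideal.mem_bot, Matrix.sub_apply, sub_eq_zero] at this
    exact this
  · rintro ⟨L, hL, h1⟩ n
    refine ⟨L, hL, fun σ hσ i j => ?_⟩
    rw [h1 σ hσ, sub_self]
    exact Ideal.zero_mem _

theorem isEquiv_baseChangeAlong_ofMat (φ : A →+* B) (hφ : IsLocalHom φ) {r : Gal → M2 A}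
    (hr : IsHom r) (hc : MatCont A r) (hr' : IsHom (mapMat φ r)) (hc' : MatCont B (mapMat φ r)) :
    ((ofMat r hr hc).baseChangeAlong φ hφ).IsEquiv (ofMat (mapMat φ r) hr' hc') := by
  have h1 : IsMatOf ((ofMat r hr hc).baseChangeAlong φ hφ) (mapMat φ r) :=
    (isMatOf_ofMat r hr hc).baseChangeAlong φ hφ
  have h2 : IsMatOf (ofMat (mapMat φ r) hr' hc') (mapMat φ r) := isMatOf_ofMat _ hr' hc'
  exact (isEquiv_iff_of_isMatOf h1 h2).mpr ⟨1, isUnit_one, fun σ => by rw [one_mul, mul_one]⟩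

end General

section Pol

variable {𝒪 : Type} [CommRing 𝒪] [IsLocalRing 𝒪] (rbar : Gal → M2 (ResidueField 𝒪))

theorem evP_C {A : Type} [CommRing A] [Algebra 𝒪 A] (r : Gal → M2 A) (c : 𝒪) :
    evP (𝒪 := 𝒪) r (MvPolynomial.C c) = algebraMap 𝒪 A c := by
  simp [evP]

theorem evP_rbar_surjective : Function.Surjective (evP (𝒪 := 𝒪) rbar) := by
  intro y
  obtain ⟨c, rfl⟩ := IsLocalRing.residue_surjective y
  exact ⟨MvPolynomial.C c, by rw [evP_C]; rfl⟩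

instance Mbar_isMaximal : (Mbar rbar).IsMaximal :=
  RingHom.ker_isMaximal_of_surjective _ (evP_rbar_surjective rbar)

theorem mem_Mbar_iff (p : Pol 𝒪) : p ∈ Mbar rbar ↔ evP (𝒪 := 𝒪) rbar p = 0 := Iff.rfl

theorem C_mem_Mbar_iff (c : 𝒪) : MvPolynomial.C c ∈ Mbar rbar ↔ c ∈ maximalIdeal 𝒪 := by
  rw [mem_Mbar_iff, evP_C, ← residue_eq_zero_iff]
  rfl

theorem X_sub_C_mem_Mbar (σ : Gal) (i j : Fin 2) (c : 𝒪) (h : residue 𝒪 c = rbar σ i j) :
    MvPolynomial.X (σ, i, j) - MvPolynomial.C c ∈ Mbar rbar := by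
  rw [mem_Mbar_iff, map_sub, evP_X, evP_C, ← h, sub_eq_zero]
  rfl

variable {rbar}

theorem IsOpenIdeal.isLocalRing {K : Ideal (Pol 𝒪)} (hK : IsOpenIdeal rbar K) :
    IsLocalRing (Pol 𝒪 ⧸ K) := by
  obtain ⟨h1, N, hN⟩ := hK
  exact isLocalRing_quotient_of_pow_le hN h1

theorem IsOpenIdeal.mk_mem_maximalIdeal_iff {K : Ideal (Pol 𝒪)} (hK : IsOpenIdeal rbar K)
    [IsLocalRing (Pol 𝒪 ⧸ K)] (p : Pol 𝒪) :
    Ideal.Quotient.mk K p ∈ maximalIdeal (Pol 𝒪 ⧸ K) ↔ p ∈ Mbar rbar := by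
  obtain ⟨h1, N, hN⟩ := hK
  exact H24S53.mk_mem_maximalIdeal_iff hN h1 p

theorem IsOpenIdeal.exists_pow_eq_bot {K : Ideal (Pol 𝒪)} (hK : IsOpenIdeal rbar K)
    [IsLocalRing (Pol 𝒪 ⧸ K)] : ∃ N : ℕ, maximalIdeal (Pol 𝒪 ⧸ K) ^ N = ⊥ := by
  obtain ⟨h1, N, hN⟩ := hK
  exact ⟨N, maximalIdeal_pow_eq_bot_of_pow_le hN h1⟩

theorem IsOpenIdeal.isLocalHom {K : Ideal (Pol 𝒪)} (hK : IsOpenIdeal rbar K)
    [IsLocalRing (Pol 𝒪 ⧸ K)] : IsLocalHom (algebraMap 𝒪 (Pol 𝒪 ⧸ K)) := by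
  constructor
  intro c hc
  by_contra hcu
  have h1 : MvPolynomial.C c ∈ Mbar rbar := (C_mem_Mbar_iff rbar c).mpr hcu
  have h2 : Ideal.Quotient.mk K (MvPolynomial.C c) ∈ maximalIdeal (Pol 𝒪 ⧸ K) :=
    (hK.mk_mem_maximalIdeal_iff _).mpr h1
  exact h2 hc

theorem IsOpenIdeal.residue_surjective {K : Ideal (Pol 𝒪)} (hK : IsOpenIdeal rbar K)
    [IsLocalRing (Pol 𝒪 ⧸ K)] :
    Function.Surjective (IsLocalRing.residue (Pol 𝒪 ⧸ K) ∘ algebraMap 𝒪 (Pol 𝒪 ⧸ K)) := by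
  intro y
  obtain ⟨x, rfl⟩ := IsLocalRing.residue_surjective y
  obtain ⟨p, rfl⟩ := Ideal.Quotient.mk_surjective x
  obtain ⟨c, hc⟩ := IsLocalRing.residue_surjective (evP (𝒪 := 𝒪) rbar p)
  refine ⟨c, ?_⟩
  show residue _ (algebraMap 𝒪 (Pol 𝒪 ⧸ K) c) = residue _ (Ideal.Quotient.mk K p)
  rw [← sub_eq_zero, ← map_sub, residue_eq_zero_iff]
  have h1 : MvPolynomial.C c - p ∈ Mbar rbar := by
    rw [mem_Mbar_iff, map_sub, evP_C, ← hc, sub_eq_zero]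
    rfl
  have := (hK.mk_mem_maximalIdeal_iff _).mpr h1
  rwa [map_sub] at this

theorem IsOpenIdeal.lifts {K : Ideal (Pol 𝒪)} (hK : IsOpenIdeal rbar K)
    [IsLocalRing (Pol 𝒪 ⧸ K)] : Lifts rbar (rK K) := by
  intro σ i j c hc
  have h1 := X_sub_C_mem_Mbar rbar σ i j c hc
  have := (hK.mk_mem_maximalIdeal_iff _).mpr h1
  rwa [map_sub] at this

theorem IsOpenIdeal.inf {K K' : Ideal (Pol 𝒪)} (hK : IsOpenIdeal rbar K)
    (hK' : IsOpenIdeal rbar K') : IsOpenIdeal rbar (K ⊓ K') := by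
  obtain ⟨h1, N, hN⟩ := hK
  obtain ⟨h1', N', hN'⟩ := hK'
  refine ⟨inf_le_left.trans h1, N + N', le_inf ?_ ?_⟩
  · exact (Ideal.pow_le_pow_right (Nat.le_add_right N N')).trans hN
  · exact (Ideal.pow_le_pow_right (Nat.le_add_left N' N)).trans hN'

theorem IsOpenIdeal.of_le {K K' : Ideal (Pol 𝒪)} (hK : IsOpenIdeal rbar K) (h : K ≤ K')
    (h' : K' ≤ Mbar rbar) : IsOpenIdeal rbar K' := by
  obtain ⟨_, N, hN⟩ := hK
  exact ⟨h', N, hN.trans h⟩

end Pol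

end H24S53
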