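import Fermat.Agent.S53.Core3

/-!
# S53 core, part 4: the family `KGood` of ideals of `Pol`; closure properties
-/

set_option autoImplicit false
open IsLocalRing

namespace H24S53

section EvMap

variable {𝒪 A B : Type} [CommRing 𝒪] [CommRing A] [CommRing B] [Algebra 𝒪 A] [Algebra 𝒪 B]

theorem ev_nil (r : Gal → M2 A) : ev (𝒪 := 𝒪) r [] = 0 := rfl

theorem ev_cons (r : Gal → M2 A) (p : 𝒪 × Gal) (l : List (𝒪 × Gal)) :
    ev r (p :: l) = algebraMap 𝒪 A p.1 • r p.2 + ev r l := by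
  simp [ev]

theorem ev_mapMat (φ : A →ₐ[𝒪] B) (r : Gal → M2 A) (l : List (𝒪 × Gal)) :
    (ev r l).map φ = ev (mapMat (φ : A →+* B) r) l := by
  induction l with
  | nil =>
    rw [ev_nil, ev_nil]
    ext i j
    simp
  | cons p l ih =>
    rw [ev_cons, ev_cons, ← ih]
    ext i j
    simp [mapMat, Matrix.map_apply, Matrix.add_apply, Matrix.smul_apply]

theorem ev_mapMat_apply (φ : A →ₐ[𝒪] B) (r : Gal → M2 A) (l : List (𝒪 × Gal)) (i j : Fin 2) :
    ev (mapMat (φ : A →+* B) r) l i j = φ (ev r l i j) := by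
  rw [← ev_mapMat]
  rfl

theorem isNormalized_mapMat (φ : A →ₐ[𝒪] B) {l₀ l₁ : List (𝒪 × Gal)} {r : Gal → M2 A}
    (h : IsNormalized l₀ l₁ r) : IsNormalized l₀ l₁ (mapMat (φ : A →+* B) r) := by
  obtain ⟨h1, h2, h3⟩ := h
  refine ⟨?_, ?_, ?_⟩
  · rw [ev_mapMat_apply, h1, map_zero]
  · rw [ev_mapMat_apply, h2, map_zero]
  · rw [ev_mapMat_apply, h3, map_one]

end EvMap

section Joint

variable {𝒪 A B B' : Type} [CommRing 𝒪] [CommRing A] [CommRing B] [CommRing B']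
  [Algebra 𝒪 A] [Algebra 𝒪 B] [Algebra 𝒪 B']

/-- joint injectivity of two ring homs -/
def JointInj (φ : A →+* B) (φ' : A →+* B') : Prop :=
  ∀ a b : A, φ a = φ b → φ' a = φ' b → a = b

theorem JointInj.of_injective {φ : A →+* B} (h : Function.Injective φ) : JointInj φ φ :=
  fun _ _ h1 _ => h h1

theorem JointInj.matrix_ext {φ : A →+* B} {φ' : A →+* B'} (h : JointInj φ φ') {M M' : M2 A}
    (h1 : M.map φ = M'.map φ) (h2 : M.map φ' = M'.map φ') : M = M' := by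
  ext i j
  exact h _ _ (congrFun (congrFun h1 i) j) (congrFun (congrFun h2 i) j)

theorem JointInj.isHom {φ : A →+* B} {φ' : A →+* B'} (h : JointInj φ φ') {r : Gal → M2 A}
    (h1 : IsHom (mapMat φ r)) (h2 : IsHom (mapMat φ' r)) : IsHom r := by
  refine ⟨?_, fun σ τ => ?_⟩
  · apply h.matrix_ext
    · rw [Matrix.map_one _ (map_zero φ) (map_one φ)]; exact h1.1
    · rw [Matrix.map_one _ (map_zero φ') (map_one φ')]; exact h2.1
  · apply h.matrix_ext
    · rw [Matrix.map_mul]; exact h1.2 σ τ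
    · rw [Matrix.map_mul]; exact h2.2 σ τ

theorem JointInj.isNormalized {φ : A →ₐ[𝒪] B} {φ' : A →ₐ[𝒪] B'}
    (h : JointInj (φ : A →+* B) (φ' : A →+* B')) {l₀ l₁ : List (𝒪 × Gal)} {r : Gal → M2 A}
    (h1 : IsNormalized l₀ l₁ (mapMat (φ : A →+* B) r))
    (h2 : IsNormalized l₀ l₁ (mapMat (φ' : A →+* B') r)) : IsNormalized l₀ l₁ r := by
  obtain ⟨a1, a2, a3⟩ := h1
  obtain ⟨b1, b2, b3⟩ := h2
  rw [ev_mapMat_apply] at a1 a2 a3 b1 b2 b3
  refine ⟨h _ _ ?_ ?_, h _ _ ?_ ?_, h _ _ ?_ ?_⟩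
  · rw [map_zero]; exact a1
  · rw [map_zero]; exact b1
  · rw [map_zero]; exact a2
  · rw [map_zero]; exact b2
  · rw [map_one]; exact a3
  · rw [map_one]; exact b3

variable [IsLocalRing A] [IsLocalRing B] [IsLocalRing B']

theorem JointInj.matCont {φ : A →+* B} {φ' : A →+* B'} (h : JointInj φ φ')
    {N N' N'' : ℕ} (hN : maximalIdeal A ^ N = ⊥) (hN' : maximalIdeal B ^ N' = ⊥)
    (hN'' : maximalIdeal B' ^ N'' = ⊥) {r : Gal → M2 A}
    (h1 : MatCont B (mapMat φ r)) (h2 : MatCont B' (mapMat φ' r)) : MatCont A r := by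
  rw [matCont_iff_of_pow_eq_bot hN]
  obtain ⟨L, hL, hL1⟩ := (matCont_iff_of_pow_eq_bot hN' _).mp h1
  obtain ⟨L', hL', hL1'⟩ := (matCont_iff_of_pow_eq_bot hN'' _).mp h2
  refine ⟨L ⊔ L', inferInstance, fun σ hσ => ?_⟩
  apply h.matrix_ext
  · rw [Matrix.map_one _ (map_zero φ) (map_one φ)]
    exact hL1 σ fun x hx => hσ x ((le_sup_left : L ≤ L ⊔ L') hx)
  · rw [Matrix.map_one _ (map_zero φ') (map_one φ')]
    exact hL1' σ fun x hx => hσ x ((le_sup_right : L' ≤ L ⊔ L') hx)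

end Joint

end H24S53
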