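import Fermat.Agent.S53.Core4

/-!
# S53 core, part 5: `KGood` ideals: kernels of finite normalised deformations, intersections
-/

set_option autoImplicit false
open IsLocalRing

namespace H24S53

variable {𝒪 : Type} [CommRing 𝒪] [IsLocalRing 𝒪]
  (𝒟 : ∀ ⦃A : Type⦄ [CommRing A] [IsLocalRing A] [Algebra 𝒪 A], GaloisRepAdic A → Prop)
  (rbar : Gal → M2 (ResidueField 𝒪)) (l₀ l₁ : List (𝒪 × Gal))

/-- The good ideals: open, finite quotient, and the tautological lift is a normalised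
`𝒟`-deformation. -/
def KGood (K : Ideal (Pol 𝒪)) : Prop :=
  IsOpenIdeal rbar K ∧ Finite (Pol 𝒪 ⧸ K) ∧
    ∀ [IsLocalRing (Pol 𝒪 ⧸ K)], IsNDef 𝒟 rbar l₀ l₁ (Pol 𝒪 ⧸ K) (rK K)

variable {𝒟 rbar l₀ l₁}

theorem residue_comp_evP {A : Type} [CommRing A] [IsLocalRing A] [Algebra 𝒪 A]
    [IsLocalHom (algebraMap 𝒪 A)] {r : Gal → M2 A} (hl : Lifts rbar r) (p : Pol 𝒪) :
    residue A (evP (𝒪 := 𝒪) r p) =
      ResidueField.map (algebraMap 𝒪 A) (evP (𝒪 := 𝒪) rbar p) := by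
  have key : (residue A).comp (evP (𝒪 := 𝒪) r : Pol 𝒪 →+* A) =
      (ResidueField.map (algebraMap 𝒪 A)).comp
        (evP (𝒪 := 𝒪) rbar : Pol 𝒪 →+* ResidueField 𝒪) := by
    apply MvPolynomial.ringHom_ext
    · intro c
      show residue A (evP (𝒪 := 𝒪) r (MvPolynomial.C c)) =
        ResidueField.map (algebraMap 𝒪 A) (evP (𝒪 := 𝒪) rbar (MvPolynomial.C c))
      rw [evP_C, evP_C]
      exact (ResidueField.map_residue (algebraMap 𝒪 A) c).symm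
    · rintro ⟨σ, i, j⟩
      show residue A (evP (𝒪 := 𝒪) r (MvPolynomial.X (σ, i, j))) =
        ResidueField.map (algebraMap 𝒪 A) (evP (𝒪 := 𝒪) rbar (MvPolynomial.X (σ, i, j)))
      rw [evP_X, evP_X]
      obtain ⟨c, hc⟩ := IsLocalRing.residue_surjective (rbar σ i j)
      have h1 := hl σ i j c hc
      rw [← residue_eq_zero_iff, map_sub, sub_eq_zero] at h1
      rw [h1, ← hc]
      exact (ResidueField.map_residue (algebraMap 𝒪 A) c).symm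
  exact DFunLike.congr_fun key p

theorem evP_mem_maximalIdeal_iff {A : Type} [CommRing A] [IsLocalRing A] [Algebra 𝒪 A]
    [IsLocalHom (algebraMap 𝒪 A)] {r : Gal → M2 A} (hl : Lifts rbar r) (p : Pol 𝒪) :
    evP (𝒪 := 𝒪) r p ∈ maximalIdeal A ↔ p ∈ Mbar rbar := by
  rw [← residue_eq_zero_iff, residue_comp_evP hl, mem_Mbar_iff, map_eq_zero]

theorem rK_eq_mapMat_mk (K : Ideal (Pol 𝒪)) {A : Type} [CommRing A] [Algebra 𝒪 A]
    (φ : Pol 𝒪 ⧸ K →ₐ[𝒪] A) (r : Gal → M2 A)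
    (h : ∀ σ i j, φ (Ideal.Quotient.mk K (MvPolynomial.X (σ, i, j))) = r σ i j) :
    mapMat (φ : Pol 𝒪 ⧸ K →+* A) (rK K) = r := by
  funext σ
  ext i j
  exact h σ i j

theorem mapMat_factor_rK {K K' : Ideal (Pol 𝒪)} (h : K ≤ K') :
    mapMat (Ideal.Quotient.factorₐ 𝒪 h : Pol 𝒪 ⧸ K →+* Pol 𝒪 ⧸ K') (rK K) = rK K' :=
  rK_eq_mapMat_mk K (Ideal.Quotient.factorₐ 𝒪 h) (rK K') fun _ _ _ => rfl

theorem exists_maximalIdeal_pow_eq_bot_of_finite (A : Type) [CommRing A] [IsLocalRing A]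
    [Finite A] : ∃ N : ℕ, maximalIdeal A ^ N = ⊥ := by
  have h := (isArtinianRing_iff_isNilpotent_maximalIdeal A).mp inferInstance
  obtain ⟨N, hN⟩ := h
  exact ⟨N, hN⟩

theorem IsNDef.isArtinianTestAlgebra {A : Type} [CommRing A] [IsLocalRing A] [Algebra 𝒪 A]
    [Finite A] {r : Gal → M2 A} (h : IsNDef 𝒟 rbar l₀ l₁ A r) :
    GaloisRep.IsArtinianTestAlgebra 𝒪 A :=
  ⟨h.isLocalHom, h.residue_surjective, inferInstance⟩

theorem isOpenIdeal_ker {A : Type} [CommRing A] [IsLocalRing A] [Algebra 𝒪 A]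
    [IsLocalHom (algebraMap 𝒪 A)] {N : ℕ} (hN : maximalIdeal A ^ N = ⊥)
    {r : Gal → M2 A} (hl : Lifts rbar r) :
    IsOpenIdeal rbar (RingHom.ker (evP (𝒪 := 𝒪) r)) := by
  refine ⟨fun p hp => ?_, N, fun p hp => ?_⟩
  · rw [← evP_mem_maximalIdeal_iff hl]
    rw [RingHom.mem_ker] at hp
    rw [hp]
    exact Ideal.zero_mem _
  · rw [RingHom.mem_ker]
    have h1 : (Mbar rbar).map (evP (𝒪 := 𝒪) r) ≤ maximalIdeal A := by
      rw [Ideal.map_le_iff_le_comap]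
      intro q hq
      exact (evP_mem_maximalIdeal_iff hl q).mpr hq
    have h2 : evP (𝒪 := 𝒪) r p ∈ (Mbar rbar ^ N).map (evP (𝒪 := 𝒪) r) :=
      Ideal.mem_map_of_mem _ hp
    rw [Ideal.map_pow] at h2
    have h3 := Ideal.pow_right_mono h1 N h2
    rwa [hN, Ideal.mem_bot] at h3

/-- **K1**: the kernel of a finite normalised `𝒟`-deformation is a good ideal. -/
theorem kGood_ker (h𝒟 : GaloisRep.IsDeformationCondition 𝒪 𝒟)
    {A : Type} [CommRing A] [IsLocalRing A] [Algebra 𝒪 A] [Finite A] {r : Gal → M2 A}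
    (h : IsNDef 𝒟 rbar l₀ l₁ A r) : KGood 𝒟 rbar l₀ l₁ (RingHom.ker (evP (𝒪 := 𝒪) r)) := by
  haveI := h.isLocalHom
  obtain ⟨N, hN⟩ := exists_maximalIdeal_pow_eq_bot_of_finite A
  have hopen : IsOpenIdeal rbar (RingHom.ker (evP (𝒪 := 𝒪) r)) := isOpenIdeal_ker hN h.lifts
  set K := RingHom.ker (evP (𝒪 := 𝒪) r) with hKdef
  let ι : Pol 𝒪 ⧸ K →ₐ[𝒪] A := Ideal.kerLiftAlg (evP (𝒪 := 𝒪) r)
  have hι : Function.Injective ι := Ideal.kerLiftAlg_injective _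
  have hιr : mapMat (ι : Pol 𝒪 ⧸ K →+* A) (rK K) = r :=
    rK_eq_mapMat_mk K ι r fun σ i j => by
      show Ideal.kerLiftAlg (evP (𝒪 := 𝒪) r) _ = _
      rw [Ideal.kerLiftAlg_mk, evP_X]
  have hfin : Finite (Pol 𝒪 ⧸ K) := Finite.of_injective ι hι
  refine ⟨hopen, hfin, ?_⟩
  intro _
  have hJ : JointInj (ι : Pol 𝒪 ⧸ K →+* A) (ι : Pol 𝒪 ⧸ K →+* A) :=
    JointInj.of_injective hι
  have hhom : IsHom (rK K) := hJ.isHom (by rw [hιr]; exact h.isHom) (by rw [hιr]; exact h.isHom)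
  obtain ⟨N', hN'⟩ := hopen.exists_pow_eq_bot
  have hcont : MatCont (Pol 𝒪 ⧸ K) (rK K) :=
    hJ.matCont hN' hN hN (by rw [hιr]; exact h.matCont) (by rw [hιr]; exact h.matCont)
  have hnorm : IsNormalized l₀ l₁ (rK K) :=
    JointInj.isNormalized (φ := ι) (φ' := ι) hJ (by rw [hιr]; exact h.norm)
      (by rw [hιr]; exact h.norm)
  have hιloc : IsLocalHom (ι : Pol 𝒪 ⧸ K →+* A) := by
    constructor
    intro x hx
    obtain ⟨p, rfl⟩ := Ideal.Quotient.mk_surjective x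
    by_contra hnu
    have h1 : Ideal.Quotient.mk K p ∈ maximalIdeal (Pol 𝒪 ⧸ K) := hnu
    rw [hopen.mk_mem_maximalIdeal_iff] at h1
    have h2 := (evP_mem_maximalIdeal_iff h.lifts p).mpr h1
    exact h2 hx
  have htestK : GaloisRep.IsArtinianTestAlgebra 𝒪 (Pol 𝒪 ⧸ K) :=
    ⟨hopen.isLocalHom, hopen.residue_surjective, inferInstance⟩
  have htype : 𝒟 (ofMat (rK K) hhom hcont) := by
    refine h𝒟.of_baseChangeAlong_injective htestK h.isArtinianTestAlgebra ι hιloc hι ?_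
    have hr' : IsHom (mapMat (ι : Pol 𝒪 ⧸ K →+* A) (rK K)) := by rw [hιr]; exact h.isHom
    have hc' : MatCont A (mapMat (ι : Pol 𝒪 ⧸ K →+* A) (rK K)) := by rw [hιr]; exact h.matCont
    have e1 := isEquiv_baseChangeAlong_ofMat (ι : Pol 𝒪 ⧸ K →+* A) hιloc hhom hcont hr' hc'
    have e2 : 𝒟 (ofMat (mapMat (ι : Pol 𝒪 ⧸ K →+* A) (rK K)) hr' hc') := by
      have := h.type
      convert this using 2
    obtain ⟨e⟩ := e1
    exact h𝒟.of_isEquiv h.isArtinianTestAlgebra ⟨e.symm⟩ e2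
  exact ⟨hopen.isLocalHom, hopen.residue_surjective, hhom, hcont, hopen.lifts, hnorm, htype⟩

end H24S53
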