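import Fermat.Agent.S53.Core5

/-!
# S53, component K2: good ideals of `Pol` are closed under `⊓`

Statement fixed in `NOTES/S53_interface.md`; private helpers are prefixed `h25k_`.
-/

set_option autoImplicit false
open IsLocalRing

namespace H24S53

variable {𝒪 : Type} [CommRing 𝒪] [IsLocalRing 𝒪]
  {𝒟 : ∀ ⦃A : Type⦄ [CommRing A] [IsLocalRing A] [Algebra 𝒪 A], GaloisRepAdic A → Prop}
  {rbar : Gal → M2 (IsLocalRing.ResidueField 𝒪)} {l₀ l₁ : List (𝒪 × Gal)}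

omit [IsLocalRing 𝒪] in
/-- The two projections from `Pol ⧸ (K ⊓ K')` are jointly injective. -/
theorem h25k_jointInj_factor (K K' : Ideal (Pol 𝒪)) :
    JointInj
      (Ideal.Quotient.factorₐ 𝒪 (inf_le_left : K ⊓ K' ≤ K) : Pol 𝒪 ⧸ (K ⊓ K') →+* Pol 𝒪 ⧸ K)
      (Ideal.Quotient.factorₐ 𝒪 (inf_le_right : K ⊓ K' ≤ K') :
        Pol 𝒪 ⧸ (K ⊓ K') →+* Pol 𝒪 ⧸ K') := by
  intro a b h1 h2
  obtain ⟨p, rfl⟩ := Ideal.Quotient.mk_surjective a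
  obtain ⟨q, rfl⟩ := Ideal.Quotient.mk_surjective b
  have h1' : Ideal.Quotient.mk K p = Ideal.Quotient.mk K q := h1
  have h2' : Ideal.Quotient.mk K' p = Ideal.Quotient.mk K' q := h2
  rw [Ideal.Quotient.eq] at h1' h2' ⊢
  exact ⟨h1', h2'⟩

/-- A factor map between quotients of `Pol` by open ideals is a local homomorphism. -/
theorem h25k_isLocalHom_factor {K K' : Ideal (Pol 𝒪)} (hK : IsOpenIdeal rbar K)
    (hK' : IsOpenIdeal rbar K') (h : K ≤ K') [IsLocalRing (Pol 𝒪 ⧸ K)]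
    [IsLocalRing (Pol 𝒪 ⧸ K')] :
    IsLocalHom (Ideal.Quotient.factorₐ 𝒪 h : Pol 𝒪 ⧸ K →+* Pol 𝒪 ⧸ K') := by
  constructor
  intro x hx
  obtain ⟨p, rfl⟩ := Ideal.Quotient.mk_surjective x
  by_contra hnu
  have h1 : Ideal.Quotient.mk K p ∈ maximalIdeal (Pol 𝒪 ⧸ K) := hnu
  rw [hK.mk_mem_maximalIdeal_iff] at h1
  have h2 : Ideal.Quotient.mk K' p ∈ maximalIdeal (Pol 𝒪 ⧸ K') :=
    (hK'.mk_mem_maximalIdeal_iff p).mpr h1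
  exact h2 hx

omit [IsLocalRing 𝒪] in
theorem h25k_factor_surjective {K K' : Ideal (Pol 𝒪)} (h : K ≤ K') :
    Function.Surjective (Ideal.Quotient.factorₐ 𝒪 h : Pol 𝒪 ⧸ K →ₐ[𝒪] Pol 𝒪 ⧸ K') := by
  intro y
  obtain ⟨p, rfl⟩ := Ideal.Quotient.mk_surjective y
  exact ⟨Ideal.Quotient.mk K p, rfl⟩

/-- **K2**: good ideals are closed under intersection. -/
theorem KGood.inf (h𝒟 : GaloisRep.IsDeformationCondition 𝒪 𝒟) {K K' : Ideal (Pol 𝒪)}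
    (hK : KGood 𝒟 rbar l₀ l₁ K) (hK' : KGood 𝒟 rbar l₀ l₁ K') :
    KGood 𝒟 rbar l₀ l₁ (K ⊓ K') := by
  obtain ⟨hoK, hfK, hdK⟩ := hK
  obtain ⟨hoK', hfK', hdK'⟩ := hK'
  have hopen : IsOpenIdeal rbar (K ⊓ K') := hoK.inf hoK'
  have hoC : IsOpenIdeal rbar (K ⊔ K') := hoK.of_le le_sup_left (sup_le hoK.1 hoK'.1)
  let pA : Pol 𝒪 ⧸ (K ⊓ K') →ₐ[𝒪] Pol 𝒪 ⧸ K := Ideal.Quotient.factorₐ 𝒪 inf_le_left
  let pB : Pol 𝒪 ⧸ (K ⊓ K') →ₐ[𝒪] Pol 𝒪 ⧸ K' := Ideal.Quotient.factorₐ 𝒪 inf_le_right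
  let f : Pol 𝒪 ⧸ K →ₐ[𝒪] Pol 𝒪 ⧸ (K ⊔ K') := Ideal.Quotient.factorₐ 𝒪 le_sup_left
  let g : Pol 𝒪 ⧸ K' →ₐ[𝒪] Pol 𝒪 ⧸ (K ⊔ K') := Ideal.Quotient.factorₐ 𝒪 le_sup_right
  have hJ : JointInj (pA : Pol 𝒪 ⧸ (K ⊓ K') →+* Pol 𝒪 ⧸ K)
      (pB : Pol 𝒪 ⧸ (K ⊓ K') →+* Pol 𝒪 ⧸ K') := h25k_jointInj_factor K K'
  have hinj : Function.Injective (fun x : Pol 𝒪 ⧸ (K ⊓ K') => (pA x, pB x)) := by
    intro a b hab
    have h1 : pA a = pA b := congrArg Prod.fst hab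
    have h2 : pB a = pB b := congrArg Prod.snd hab
    exact hJ a b h1 h2
  have hfin : Finite (Pol 𝒪 ⧸ (K ⊓ K')) := Finite.of_injective _ hinj
  have hfC : Finite (Pol 𝒪 ⧸ (K ⊔ K')) :=
    Finite.of_surjective f (h25k_factor_surjective le_sup_left)
  refine ⟨hopen, hfin, ?_⟩
  intro _
  have : IsLocalRing (Pol 𝒪 ⧸ K) := hoK.isLocalRing
  have : IsLocalRing (Pol 𝒪 ⧸ K') := hoK'.isLocalRing
  have : IsLocalRing (Pol 𝒪 ⧸ (K ⊔ K')) := hoC.isLocalRing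
  have hA : IsNDef 𝒟 rbar l₀ l₁ (Pol 𝒪 ⧸ K) (rK K) := hdK
  have hB : IsNDef 𝒟 rbar l₀ l₁ (Pol 𝒪 ⧸ K') (rK K') := hdK'
  have hpAr : mapMat (pA : Pol 𝒪 ⧸ (K ⊓ K') →+* Pol 𝒪 ⧸ K) (rK (K ⊓ K')) = rK K :=
    mapMat_factor_rK inf_le_left
  have hpBr : mapMat (pB : Pol 𝒪 ⧸ (K ⊓ K') →+* Pol 𝒪 ⧸ K') (rK (K ⊓ K')) = rK K' :=
    mapMat_factor_rK inf_le_right
  have hhom : IsHom (rK (K ⊓ K')) :=
    hJ.isHom (by rw [hpAr]; exact hA.isHom) (by rw [hpBr]; exact hB.isHom)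
  obtain ⟨N, hN⟩ := hopen.exists_pow_eq_bot
  obtain ⟨NA, hNA⟩ := hoK.exists_pow_eq_bot
  obtain ⟨NB, hNB⟩ := hoK'.exists_pow_eq_bot
  have hcont : MatCont (Pol 𝒪 ⧸ (K ⊓ K')) (rK (K ⊓ K')) :=
    hJ.matCont hN hNA hNB (by rw [hpAr]; exact hA.matCont) (by rw [hpBr]; exact hB.matCont)
  have hnorm : IsNormalized l₀ l₁ (rK (K ⊓ K')) :=
    JointInj.isNormalized (φ := pA) (φ' := pB) hJ (by rw [hpAr]; exact hA.norm)
      (by rw [hpBr]; exact hB.norm)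
  have hpA : IsLocalHom (pA : Pol 𝒪 ⧸ (K ⊓ K') →+* Pol 𝒪 ⧸ K) :=
    h25k_isLocalHom_factor hopen hoK inf_le_left
  have hpB : IsLocalHom (pB : Pol 𝒪 ⧸ (K ⊓ K') →+* Pol 𝒪 ⧸ K') :=
    h25k_isLocalHom_factor hopen hoK' inf_le_right
  have htP : GaloisRep.IsArtinianTestAlgebra 𝒪 (Pol 𝒪 ⧸ (K ⊓ K')) :=
    ⟨hopen.isLocalHom, hopen.residue_surjective, inferInstance⟩
  have htA : GaloisRep.IsArtinianTestAlgebra 𝒪 (Pol 𝒪 ⧸ K) :=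
    ⟨hoK.isLocalHom, hoK.residue_surjective, inferInstance⟩
  have htB : GaloisRep.IsArtinianTestAlgebra 𝒪 (Pol 𝒪 ⧸ K') :=
    ⟨hoK'.isLocalHom, hoK'.residue_surjective, inferInstance⟩
  have htC : GaloisRep.IsArtinianTestAlgebra 𝒪 (Pol 𝒪 ⧸ (K ⊔ K')) :=
    ⟨hoC.isLocalHom, hoC.residue_surjective, inferInstance⟩
  have hcomp : f.comp pA = g.comp pB := by
    apply Ideal.Quotient.algHom_ext
    rfl
  have hsurj : ∀ (a : Pol 𝒪 ⧸ K) (b : Pol 𝒪 ⧸ K'), f a = g b → ∃ x, pA x = a ∧ pB x = b := by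
    intro a b hab
    obtain ⟨p, rfl⟩ := Ideal.Quotient.mk_surjective a
    obtain ⟨q, rfl⟩ := Ideal.Quotient.mk_surjective b
    have h1 : Ideal.Quotient.mk (K ⊔ K') p = Ideal.Quotient.mk (K ⊔ K') q := hab
    rw [Ideal.Quotient.eq, Submodule.mem_sup] at h1
    obtain ⟨κ, hκ, κ', hκ', hsum⟩ := h1
    refine ⟨Ideal.Quotient.mk (K ⊓ K') (p - κ), ?_, ?_⟩
    · show Ideal.Quotient.mk K (p - κ) = Ideal.Quotient.mk K p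
      rw [Ideal.Quotient.eq]
      have : p - κ - p = -κ := by ring
      rw [this]
      exact K.neg_mem hκ
    · show Ideal.Quotient.mk K' (p - κ) = Ideal.Quotient.mk K' q
      rw [Ideal.Quotient.eq]
      have : p - κ - q = κ' := by
        have : p - q = κ + κ' := hsum.symm
        linear_combination this
      rw [this]
      exact hκ'
  have htype : 𝒟 (ofMat (rK (K ⊓ K')) hhom hcont) := by
    refine h𝒟.of_fibreProduct htA htB htC htP f g pA pB hpA hpB hcomp hinj hsurj ?_ ?_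
    · have hr' : IsHom (mapMat (pA : Pol 𝒪 ⧸ (K ⊓ K') →+* Pol 𝒪 ⧸ K) (rK (K ⊓ K'))) := by
        rw [hpAr]; exact hA.isHom
      have hc' : MatCont (Pol 𝒪 ⧸ K)
          (mapMat (pA : Pol 𝒪 ⧸ (K ⊓ K') →+* Pol 𝒪 ⧸ K) (rK (K ⊓ K'))) := by
        rw [hpAr]; exact hA.matCont
      have e1 := isEquiv_baseChangeAlong_ofMat (pA : Pol 𝒪 ⧸ (K ⊓ K') →+* Pol 𝒪 ⧸ K) hpA
        hhom hcont hr' hc'
      have e2 : 𝒟 (ofMat (mapMat (pA : Pol 𝒪 ⧸ (K ⊓ K') →+* Pol 𝒪 ⧸ K) (rK (K ⊓ K')))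
          hr' hc') := by
        have := hA.type
        convert this using 2
      obtain ⟨e⟩ := e1
      exact h𝒟.of_isEquiv htA ⟨e.symm⟩ e2
    · have hr' : IsHom (mapMat (pB : Pol 𝒪 ⧸ (K ⊓ K') →+* Pol 𝒪 ⧸ K') (rK (K ⊓ K'))) := by
        rw [hpBr]; exact hB.isHom
      have hc' : MatCont (Pol 𝒪 ⧸ K')
          (mapMat (pB : Pol 𝒪 ⧸ (K ⊓ K') →+* Pol 𝒪 ⧸ K') (rK (K ⊓ K'))) := by
        rw [hpBr]; exact hB.matCont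
      have e1 := isEquiv_baseChangeAlong_ofMat (pB : Pol 𝒪 ⧸ (K ⊓ K') →+* Pol 𝒪 ⧸ K') hpB
        hhom hcont hr' hc'
      have e2 : 𝒟 (ofMat (mapMat (pB : Pol 𝒪 ⧸ (K ⊓ K') →+* Pol 𝒪 ⧸ K') (rK (K ⊓ K')))
          hr' hc') := by
        have := hB.type
        convert this using 2
      obtain ⟨e⟩ := e1
      exact h𝒟.of_isEquiv htB ⟨e.symm⟩ e2
  exact ⟨hopen.isLocalHom, hopen.residue_surjective, hhom, hcont, hopen.lifts, hnorm, htype⟩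

end H24S53
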