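import Fermat.Agent.S53.Defs

/-!
# S53, component ML: a Mittag-Leffler / Chevalley lemma for open ideals of a complete local ring

Statement fixed in `NOTES/S53_interface.md`; private helpers are prefixed `h1ml_`.
-/

set_option autoImplicit false

namespace H24S53

open IsLocalRing

section ML

variable {S : Type} [CommRing S] [IsLocalRing S] [IsNoetherianRing S]

theorem h1ml_index_pow_ne_zero [Finite (ResidueField S)] (n : ℕ) :
    ((maximalIdeal S) ^ n).toAddSubgroup.index ≠ 0 := by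
  have : Finite (S ⧸ maximalIdeal S) := inferInstanceAs (Finite (ResidueField S))
  have hfin : Finite (S ⧸ (maximalIdeal S) ^ n) :=
    Ideal.finite_quotient_pow (IsNoetherian.noetherian (maximalIdeal S)) n
  rw [← AddSubgroup.finiteIndex_iff]
  exact AddSubgroup.finiteIndex_iff_finite_quotient.2 hfin

/-- Among the ideals `b ⊔ m^n`, `b ∈ ℬ`, there is a least one. -/
theorem h1ml_exists_least [Finite (ResidueField S)] (ℬ : Set (Ideal S)) (hne : ℬ.Nonempty)
    (hinf : ∀ b ∈ ℬ, ∀ b' ∈ ℬ, b ⊓ b' ∈ ℬ) (n : ℕ) :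
    ∃ b ∈ ℬ, ∀ b' ∈ ℬ, b ≤ b' ⊔ maximalIdeal S ^ n := by
  classical
  let f : Ideal S → ℕ := fun b => (b ⊔ maximalIdeal S ^ n).toAddSubgroup.index
  have hC := h1ml_index_pow_ne_zero (S := S) n
  have hdvd : ∀ b, f b ∣ ((maximalIdeal S) ^ n).toAddSubgroup.index := fun b =>
    AddSubgroup.index_dvd_of_le
      (show ((maximalIdeal S) ^ n).toAddSubgroup ≤ (b ⊔ maximalIdeal S ^ n).toAddSubgroup from
        fun x hx => (le_sup_right : maximalIdeal S ^ n ≤ b ⊔ maximalIdeal S ^ n) hx)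
  have hf0 : ∀ b, f b ≠ 0 := fun b h0 => hC (by
    have := hdvd b
    rw [h0] at this
    exact zero_dvd_iff.mp this)
  have hbdd : BddAbove (f '' ℬ) := ⟨_, by
    rintro _ ⟨b, -, rfl⟩
    exact Nat.le_of_dvd (Nat.pos_of_ne_zero hC) (hdvd b)⟩
  obtain ⟨b, hb, hbmax⟩ := Nat.sSup_mem (hne.image f) hbdd
  refine ⟨b, hb, fun b' hb' => ?_⟩
  have hle : ((b ⊓ b') ⊔ maximalIdeal S ^ n) ≤ b ⊔ maximalIdeal S ^ n :=
    sup_le_sup_right inf_le_left _
  have hle' : ((b ⊓ b') ⊔ maximalIdeal S ^ n).toAddSubgroup ≤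
      (b ⊔ maximalIdeal S ^ n).toAddSubgroup := fun x hx => hle hx
  have h1 : f (b ⊓ b') ≤ f b := by
    rw [hbmax]
    exact le_csSup hbdd ⟨_, hinf b hb b' hb', rfl⟩
  have h2 : f b ∣ f (b ⊓ b') := AddSubgroup.index_dvd_of_le hle'
  have h3 : f (b ⊓ b') = f b :=
    le_antisymm h1 (Nat.le_of_dvd (Nat.pos_of_ne_zero (hf0 _)) h2)
  have h4 : ((b ⊓ b') ⊔ maximalIdeal S ^ n).toAddSubgroup.relIndex
      (b ⊔ maximalIdeal S ^ n).toAddSubgroup = 1 := by
    have hmul := AddSubgroup.relIndex_mul_index hle'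
    have hmul' : ((b ⊓ b') ⊔ maximalIdeal S ^ n).toAddSubgroup.relIndex
        (b ⊔ maximalIdeal S ^ n).toAddSubgroup * f b = 1 * f b := by
      rw [one_mul]
      exact hmul.trans h3
    exact Nat.eq_of_mul_eq_mul_right (Nat.pos_of_ne_zero (hf0 b)) hmul'
  have h5 : (b ⊔ maximalIdeal S ^ n).toAddSubgroup ≤
      ((b ⊓ b') ⊔ maximalIdeal S ^ n).toAddSubgroup := AddSubgroup.relIndex_eq_one.mp h4
  intro x hx
  have hx1 : x ∈ (b ⊓ b') ⊔ maximalIdeal S ^ n :=
    h5 ((le_sup_left : b ≤ b ⊔ maximalIdeal S ^ n) hx)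
  exact (sup_le_sup_right inf_le_right _ : (b ⊓ b') ⊔ maximalIdeal S ^ n ≤ _) hx1

/-- A decreasing sequence in `ℬ` whose `n`-th term is below every `b ⊔ m^n`. -/
theorem h1ml_exists_seq [Finite (ResidueField S)] (ℬ : Set (Ideal S)) (hne : ℬ.Nonempty)
    (hinf : ∀ b ∈ ℬ, ∀ b' ∈ ℬ, b ⊓ b' ∈ ℬ) :
    ∃ B : ℕ → Ideal S, (∀ n, B n ∈ ℬ) ∧ (∀ n, B (n + 1) ≤ B n) ∧
      ∀ n, ∀ b' ∈ ℬ, B n ≤ b' ⊔ maximalIdeal S ^ n := by
  choose bn hbn hbn_le using fun n => h1ml_exists_least ℬ hne hinf n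
  let B : ℕ → Ideal S := fun n => Nat.rec (bn 0) (fun k Bk => Bk ⊓ bn (k + 1)) n
  have hB0 : B 0 = bn 0 := rfl
  have hBs : ∀ k, B (k + 1) = B k ⊓ bn (k + 1) := fun _ => rfl
  have hmem : ∀ n, B n ∈ ℬ := by
    intro n
    induction n with
    | zero => rw [hB0]; exact hbn 0
    | succ k ih => rw [hBs]; exact hinf _ ih _ (hbn _)
  have hle : ∀ n, B n ≤ bn n := by
    intro n
    cases n with
    | zero => rw [hB0]
    | succ k => rw [hBs]; exact inf_le_right
  exact ⟨B, hmem, fun n => by rw [hBs]; exact inf_le_left,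
    fun n b' hb' => (hle n).trans (hbn_le n b' hb')⟩

omit [IsLocalRing S] [IsNoetherianRing S] in
theorem h1ml_antitone {B : ℕ → Ideal S} (hB : ∀ n, B (n + 1) ≤ B n) {a b : ℕ} (h : a ≤ b) :
    B b ≤ B a := by
  induction h with
  | refl => exact le_rfl
  | step _ ih => exact (hB _).trans ih

omit [IsNoetherianRing S] in
theorem h1ml_pow_le {a b : ℕ} (h : a ≤ b) : maximalIdeal S ^ b ≤ maximalIdeal S ^ a :=
  Ideal.pow_le_pow_right h

omit [IsNoetherianRing S] in
/-- A sequence with `y (k+1) - y k ∈ m^(n+k)` has a limit `L` with `y k - L ∈ m^(n+k)`. -/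
theorem h1ml_limit [IsAdicComplete (maximalIdeal S) S] (n : ℕ) (y : ℕ → S)
    (hy : ∀ k, y k - y (k + 1) ∈ maximalIdeal S ^ (n + k)) :
    ∃ L : S, ∀ k, y k - L ∈ maximalIdeal S ^ (n + k) := by
  have hcauchy : ∀ a b, a ≤ b → y a - y b ∈ maximalIdeal S ^ (n + a) := by
    intro a b hab
    induction hab with
    | refl => rw [sub_self]; exact Ideal.zero_mem _
    | @step c hac ih =>
      have hac' : a ≤ c := hac
      have h1 : y c - y (c + 1) ∈ maximalIdeal S ^ (n + a) :=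
        h1ml_pow_le (by omega) (hy c)
      have : y a - y (c + 1) = (y a - y c) + (y c - y (c + 1)) := by ring
      rw [this]
      exact Ideal.add_mem _ ih h1
  have hprec : ∀ {a b : ℕ}, a ≤ b →
      y a ≡ y b [SMOD (maximalIdeal S ^ a • ⊤ : Submodule S S)] := by
    intro a b hab
    rw [SModEq.sub_mem, smul_eq_mul, Ideal.mul_top]
    exact h1ml_pow_le (by omega) (hcauchy a b hab)
  obtain ⟨L, hL⟩ := IsPrecomplete.prec (I := maximalIdeal S) (M := S) inferInstance hprec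
  refine ⟨L, fun k => ?_⟩
  have h2 : y (n + k) - L ∈ maximalIdeal S ^ (n + k) := by
    have := hL (n + k)
    rw [SModEq.sub_mem, smul_eq_mul, Ideal.mul_top] at this
    exact this
  have h3 : y k - y (n + k) ∈ maximalIdeal S ^ (n + k) := hcauchy k (n + k) (by omega)
  have : y k - L = (y k - y (n + k)) + (y (n + k) - L) := by ring
  rw [this]
  exact Ideal.add_mem _ h3 h2

theorem mittagLeffler_ideals (S : Type) [CommRing S] [IsLocalRing S] [IsNoetherianRing S]
    [IsAdicComplete (IsLocalRing.maximalIdeal S) S] [Finite (IsLocalRing.ResidueField S)]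
    (ℬ : Set (Ideal S)) (hne : ℬ.Nonempty) (hinf : ∀ b ∈ ℬ, ∀ b' ∈ ℬ, b ⊓ b' ∈ ℬ)
    (hopen : ∀ b ∈ ℬ, ∃ n, IsLocalRing.maximalIdeal S ^ n ≤ b) :
    (∀ n, ∃ b ∈ ℬ, b ≤ sInf ℬ ⊔ IsLocalRing.maximalIdeal S ^ n) ∧
    (∀ c : Ideal S → S, (∀ b ∈ ℬ, ∀ b' ∈ ℬ, b ≤ b' → c b - c b' ∈ b') →
      ∃ u : S, ∀ b ∈ ℬ, u - c b ∈ b) := by
  obtain ⟨B, hBmem, hBanti, hBle⟩ := h1ml_exists_seq ℬ hne hinf
  -- `B N ≤ b` as soon as `m^N ≤ b`
  have hBsub : ∀ b ∈ ℬ, ∀ N, maximalIdeal S ^ N ≤ b → ∀ K, N ≤ K → B K ≤ b := by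
    intro b hb N hN K hK
    exact (hBle K b hb).trans (sup_le le_rfl ((h1ml_pow_le hK).trans hN))
  constructor
  · intro n
    refine ⟨B n, hBmem n, fun x hx => ?_⟩
    have step : ∀ k (y : S), y ∈ B (n + k) →
        ∃ y' : S, y' ∈ B (n + k + 1) ∧ y - y' ∈ maximalIdeal S ^ (n + k) := by
      intro k y hy
      have hy' : y ∈ B (n + k + 1) ⊔ maximalIdeal S ^ (n + k) :=
        hBle (n + k) (B (n + k + 1)) (hBmem _) hy
      obtain ⟨y', hy'mem, z, hz, rfl⟩ := Submodule.mem_sup.mp hy'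
      exact ⟨y', hy'mem, by simpa using hz⟩
    choose! nxt hnxt_mem hnxt_sub using step
    let Y : ℕ → S := fun k => Nat.rec x (fun j yj => nxt j yj) k
    have hY0 : Y 0 = x := rfl
    have hYs : ∀ k, Y (k + 1) = nxt k (Y k) := fun _ => rfl
    have hYmem : ∀ k, Y k ∈ B (n + k) := by
      intro k
      induction k with
      | zero => exact hx
      | succ j ih => rw [hYs]; exact hnxt_mem j (Y j) ih
    have hYsub : ∀ k, Y k - Y (k + 1) ∈ maximalIdeal S ^ (n + k) := fun k => by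
      rw [hYs]; exact hnxt_sub k (Y k) (hYmem k)
    obtain ⟨L, hL⟩ := h1ml_limit n Y hYsub
    have hLinf : L ∈ sInf ℬ := by
      rw [Submodule.mem_sInf]
      intro b hb
      obtain ⟨N, hN⟩ := hopen b hb
      have h1 : Y N ∈ b := hBsub b hb N hN (n + N) (by omega) (hYmem N)
      have h2 : Y N - L ∈ b := hN (h1ml_pow_le (by omega) (hL N))
      have : L = Y N - (Y N - L) := by ring
      rw [this]
      exact Ideal.sub_mem _ h1 h2
    have hxL : x - L ∈ maximalIdeal S ^ n := by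
      have := hL 0
      rwa [hY0, add_zero] at this
    have : x = L + (x - L) := by ring
    rw [this]
    exact Submodule.add_mem_sup hLinf hxL
  · intro c hc
    have step : ∀ k (s : S), s - c (B k) ∈ B k →
        ∃ s' : S, s' - c (B (k + 1)) ∈ B (k + 1) ∧ s - s' ∈ maximalIdeal S ^ k := by
      intro k s hs
      have h1 : c (B (k + 1)) - c (B k) ∈ B k :=
        hc (B (k + 1)) (hBmem _) (B k) (hBmem _) (hBanti k)
      have h2 : c (B (k + 1)) - s ∈ B k := by
        have : c (B (k + 1)) - s = (c (B (k + 1)) - c (B k)) - (s - c (B k)) := by ring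
        rw [this]
        exact Ideal.sub_mem _ h1 hs
      have h3 : c (B (k + 1)) - s ∈ B (k + 1) ⊔ maximalIdeal S ^ k :=
        hBle k (B (k + 1)) (hBmem _) h2
      obtain ⟨β, hβ, μ, hμ, hsum⟩ := Submodule.mem_sup.mp h3
      refine ⟨s + μ, ?_, ?_⟩
      · have : s + μ - c (B (k + 1)) = -β := by
          have : μ = c (B (k + 1)) - s - β := by rw [← hsum]; ring
          rw [this]; ring
        rw [this]
        exact Ideal.neg_mem_iff _ |>.2 hβ
      · have : s - (s + μ) = -μ := by ring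
        rw [this]
        exact Ideal.neg_mem_iff _ |>.2 hμ
    choose! nxt hnxt_mem hnxt_sub using step
    let s : ℕ → S := fun k => Nat.rec (c (B 0)) (fun j sj => nxt j sj) k
    have hs0 : s 0 = c (B 0) := rfl
    have hss : ∀ k, s (k + 1) = nxt k (s k) := fun _ => rfl
    have hsmem : ∀ k, s k - c (B k) ∈ B k := by
      intro k
      induction k with
      | zero => rw [hs0, sub_self]; exact Ideal.zero_mem _
      | succ j ih => rw [hss]; exact hnxt_mem j (s j) ih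
    have hssub : ∀ k, s k - s (k + 1) ∈ maximalIdeal S ^ (0 + k) := fun k => by
      rw [hss, zero_add]; exact hnxt_sub k (s k) (hsmem k)
    obtain ⟨u, hu⟩ := h1ml_limit 0 s hssub
    refine ⟨u, fun b hb => ?_⟩
    obtain ⟨N, hN⟩ := hopen b hb
    have hBN : B N ≤ b := hBsub b hb N hN N le_rfl
    have h1 : s N - u ∈ b := hN (by have := hu N; rwa [zero_add] at this)
    have h2 : s N - c (B N) ∈ b := hBN (hsmem N)
    have h3 : c (B N) - c b ∈ b := hc (B N) (hBmem N) b hb hBN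
    have : u - c b = -(s N - u) + (s N - c (B N)) + (c (B N) - c b) := by ring
    rw [this]
    exact Ideal.add_mem _ (Ideal.add_mem _ ((Ideal.neg_mem_iff _).2 h1) h2) h3

end ML

end H24S53
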