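import Fermat.Agent.S53.Core5
import Fermat.Agent.S53.Normalize
import Fermat.Agent.S53.Burnside
import Fermat.Agent.S53.MittagLeffler
import Fermat.Agent.S53.ResidualLift
import Fermat.Agent.S53.PowerSeries
import Fermat.Agent.S53.KInf
import Fermat.Agent.S53.Coords

/-!
# S53 core, part 6: the maps `S = 𝒪[[y]] → Pol ⧸ K` and the universal ring `R = S ⧸ J`
-/

set_option autoImplicit false
set_option linter.unusedSectionVars false
set_option linter.style.haveILetI false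
open IsLocalRing

namespace H24S53

variable {𝒪 : Type} [CommRing 𝒪] [IsLocalRing 𝒪]
  (𝒟 : ∀ ⦃A : Type⦄ [CommRing A] [IsLocalRing A] [Algebra 𝒪 A], GaloisRepAdic A → Prop)
  (rbar : Gal → M2 (ResidueField 𝒪)) (l₀ l₁ : List (𝒪 × Gal))

/-- The type of good ideals. -/
abbrev GoodK : Type := {K : Ideal (Pol 𝒪) // KGood 𝒟 rbar l₀ l₁ K}

/-- The power series ring. -/
abbrev PS (𝒪 : Type) [CommRing 𝒪] (d : ℕ) : Type := MvPowerSeries (Fin d) 𝒪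

variable {𝒟 rbar l₀ l₁} {d : ℕ} (f : Fin d → Pol 𝒪) (hf : ∀ s, f s ∈ Mbar rbar)

include hf

theorem exists_eK (K : GoodK 𝒟 rbar l₀ l₁) :
    ∃ e : PS 𝒪 d →ₐ[𝒪] Pol 𝒪 ⧸ K.1, ∀ s, e (MvPowerSeries.X s) = Ideal.Quotient.mk K.1 (f s) := by
  haveI := K.2.1.isLocalRing
  haveI := K.2.1.isLocalHom
  exact mvPowerSeries_exists_algHom 𝒪 d (Pol 𝒪 ⧸ K.1) K.2.1.exists_pow_eq_bot
    (fun s => Ideal.Quotient.mk K.1 (f s))
    (fun s => (K.2.1.mk_mem_maximalIdeal_iff _).mpr (hf s))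

/-- The evaluation map `S → Pol ⧸ K`, `y_s ↦ f_s`. -/
noncomputable def eK (K : GoodK 𝒟 rbar l₀ l₁) : PS 𝒪 d →ₐ[𝒪] Pol 𝒪 ⧸ K.1 :=
  Classical.choose (exists_eK f hf K)

theorem eK_X (K : GoodK 𝒟 rbar l₀ l₁) (s : Fin d) :
    eK f hf K (MvPowerSeries.X s) = Ideal.Quotient.mk K.1 (f s) :=
  Classical.choose_spec (exists_eK f hf K) s

theorem eK_ext (K : GoodK 𝒟 rbar l₀ l₁) (e : PS 𝒪 d →ₐ[𝒪] Pol 𝒪 ⧸ K.1)
    (he : ∀ s, e (MvPowerSeries.X s) = Ideal.Quotient.mk K.1 (f s)) : e = eK f hf K := by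
  haveI := K.2.1.isLocalRing
  haveI := K.2.1.isLocalHom
  refine mvPowerSeries_algHom_ext 𝒪 d (Pol 𝒪 ⧸ K.1) K.2.1.exists_pow_eq_bot e (eK f hf K)
    (fun s => by rw [he, eK_X]) (fun s => ?_)
  rw [he]
  exact (K.2.1.mk_mem_maximalIdeal_iff _).mpr (hf s)

theorem eK_factor (K K' : GoodK 𝒟 rbar l₀ l₁) (h : K.1 ≤ K'.1) :
    (Ideal.Quotient.factorₐ 𝒪 h).comp (eK f hf K) = eK f hf K' := by
  apply eK_ext
  intro s
  rw [AlgHom.comp_apply, eK_X]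
  rfl

theorem eK_factor_apply (K K' : GoodK 𝒟 rbar l₀ l₁) (h : K.1 ≤ K'.1) (u : PS 𝒪 d) :
    Ideal.Quotient.factor h (eK f hf K u) = eK f hf K' u := by
  have := DFunLike.congr_fun (eK_factor f hf K K' h) u
  exact this

/-- The kernel of `eK`. -/
noncomputable def bK (K : GoodK 𝒟 rbar l₀ l₁) : Ideal (PS 𝒪 d) := RingHom.ker (eK f hf K)

theorem mem_bK (K : GoodK 𝒟 rbar l₀ l₁) (u : PS 𝒪 d) : u ∈ bK f hf K ↔ eK f hf K u = 0 :=
  Iff.rfl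

variable (h𝒟 : GaloisRep.IsDeformationCondition 𝒪 𝒟)

omit hf in
/-- intersection of good ideals, as a good ideal -/
noncomputable def GoodK.inf (K K' : GoodK 𝒟 rbar l₀ l₁) : GoodK 𝒟 rbar l₀ l₁ :=
  ⟨K.1 ⊓ K'.1, KGood.inf h𝒟 K.2 K'.2⟩

omit hf in
theorem GoodK.inf_le_left (K K' : GoodK 𝒟 rbar l₀ l₁) : (GoodK.inf h𝒟 K K').1 ≤ K.1 :=
  fun _ hx => hx.1

omit hf in
theorem GoodK.inf_le_right (K K' : GoodK 𝒟 rbar l₀ l₁) : (GoodK.inf h𝒟 K K').1 ≤ K'.1 :=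
  fun _ hx => hx.2

omit hf in
theorem GoodK.mem_inf (K K' : GoodK 𝒟 rbar l₀ l₁) (p : Pol 𝒪) :
    p ∈ (GoodK.inf h𝒟 K K').1 ↔ p ∈ K.1 ∧ p ∈ K'.1 := Iff.rfl

omit hf in
theorem factor_mk_eq_zero_iff {R : Type} [CommRing R] {I J : Ideal R} (h : I ≤ J) (p : R) :
    Ideal.Quotient.factor h (Ideal.Quotient.mk I p) = 0 ↔ p ∈ J := by
  rw [Ideal.Quotient.factor_mk, Ideal.Quotient.eq_zero_iff_mem]

theorem bK_inf (K K' : GoodK 𝒟 rbar l₀ l₁) :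
    bK f hf (GoodK.inf h𝒟 K K') = bK f hf K ⊓ bK f hf K' := by
  ext u
  rw [Ideal.mem_inf, mem_bK, mem_bK, mem_bK]
  have h1 := eK_factor_apply f hf (GoodK.inf h𝒟 K K') K (GoodK.inf_le_left h𝒟 K K') u
  have h2 := eK_factor_apply f hf (GoodK.inf h𝒟 K K') K' (GoodK.inf_le_right h𝒟 K K') u
  constructor
  · intro h
    rw [← h1, ← h2, h, map_zero, map_zero]
    exact ⟨rfl, rfl⟩
  · rintro ⟨ha, hb⟩
    obtain ⟨p, hp⟩ := Ideal.Quotient.mk_surjective (eK f hf (GoodK.inf h𝒟 K K') u)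
    rw [← hp] at h1 h2 ⊢
    rw [ha] at h1
    rw [hb] at h2
    rw [factor_mk_eq_zero_iff] at h1 h2
    rw [Ideal.Quotient.eq_zero_iff_mem, GoodK.mem_inf]
    exact ⟨h1, h2⟩

variable (hgen : ∀ K : Ideal (Pol 𝒪), KGood 𝒟 rbar l₀ l₁ K →
  ∀ e : PS 𝒪 d →ₐ[𝒪] Pol 𝒪 ⧸ K,
    (∀ s, e (MvPowerSeries.X s) = Ideal.Quotient.mk K (f s)) → Function.Surjective e)

include hgen in
theorem eK_surjective (K : GoodK 𝒟 rbar l₀ l₁) : Function.Surjective (eK f hf K) :=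
  hgen K.1 K.2 _ (eK_X f hf K)

include hgen h𝒟 in
/-- `K ↦ bK K` reflects the order. -/
theorem le_of_bK_le (K K' : GoodK 𝒟 rbar l₀ l₁) (h : bK f hf K ≤ bK f hf K') : K.1 ≤ K'.1 := by
  intro p hp
  obtain ⟨v, hv⟩ := eK_surjective f hf hgen (GoodK.inf h𝒟 K K') (Ideal.Quotient.mk _ p)
  have h1 := eK_factor_apply f hf (GoodK.inf h𝒟 K K') K (GoodK.inf_le_left h𝒟 K K') v
  have h2 := eK_factor_apply f hf (GoodK.inf h𝒟 K K') K' (GoodK.inf_le_right h𝒟 K K') v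
  rw [hv] at h1 h2
  have h3 : v ∈ bK f hf K := by
    rw [mem_bK, ← h1, factor_mk_eq_zero_iff]
    exact hp
  have h4 := h h3
  rw [mem_bK, ← h2, factor_mk_eq_zero_iff] at h4
  exact h4

omit hf in
/-- A pro-representing package: a local `𝒪`-algebra `R` with compatible surjections onto all
the good quotients `Pol ⧸ K`, cofinal kernels, and a matrix-valued function inducing all the
tautological ones. -/
structure UnivPkg
    (𝒟 : ∀ ⦃A : Type⦄ [CommRing A] [IsLocalRing A] [Algebra 𝒪 A], GaloisRepAdic A → Prop)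
    (rbar : Gal → M2 (ResidueField 𝒪)) (l₀ l₁ : List (𝒪 × Gal))
    (R : Type) [CommRing R] [IsLocalRing R] [Algebra 𝒪 R] : Type where
  /-- the projections -/
  q : ∀ K : GoodK 𝒟 rbar l₀ l₁, R →ₐ[𝒪] Pol 𝒪 ⧸ K.1
  q_surjective : ∀ K, Function.Surjective (q K)
  q_factor : ∀ (K K' : GoodK 𝒟 rbar l₀ l₁) (h : K.1 ≤ K'.1) (a : R),
    Ideal.Quotient.factor h (q K a) = q K' a
  cofinal : ∀ n : ℕ, ∃ K, RingHom.ker (q K) ≤ maximalIdeal R ^ n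
  /-- the universal matrix-valued function -/
  r : Gal → M2 R
  q_r : ∀ K σ i j, q K (r σ i j) = Ideal.Quotient.mk K.1 (MvPolynomial.X (σ, i, j))

end H24S53
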