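import Fermat.Agent.S53.Core6
import Fermat.Prelude.Thm_IsLocalRing_isAdicComplete_of_module_finite

/-!
# S53 core, part 7: construction of the pro-representing package
-/

set_option autoImplicit false
set_option linter.unusedSectionVars false
set_option linter.style.haveILetI false
open IsLocalRing

namespace H24S53

section Quot

variable {S : Type} [CommRing S] [IsLocalRing S]

theorem quot_isLocalRing (J : Ideal S) (hJ : J ≤ maximalIdeal S) : IsLocalRing (S ⧸ J) := by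
  haveI : Nontrivial (S ⧸ J) :=
    Ideal.Quotient.nontrivial_iff.mpr
      (fun h => (maximalIdeal.isMaximal S).ne_top (top_le_iff.mp (h ▸ hJ)))
  exact IsLocalRing.of_surjective' (Ideal.Quotient.mk J) Ideal.Quotient.mk_surjective

theorem quot_isLocalHom_mk (J : Ideal S) [IsLocalRing (S ⧸ J)] :
    IsLocalHom (Ideal.Quotient.mk J) :=
  IsLocalHom.of_surjective _ Ideal.Quotient.mk_surjective

theorem quot_isAdicComplete [IsNoetherianRing S] [IsAdicComplete (maximalIdeal S) S]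
    (J : Ideal S) [IsLocalRing (S ⧸ J)] : IsAdicComplete (maximalIdeal (S ⧸ J)) (S ⧸ J) := by
  haveI : IsLocalHom (algebraMap S (S ⧸ J)) := quot_isLocalHom_mk J
  exact IsLocalRing.isAdicComplete_of_module_finite (𝒪 := S) (T := S ⧸ J)

theorem quot_maximalIdeal_pow (J : Ideal S) [IsLocalRing (S ⧸ J)] (n : ℕ) :
    (maximalIdeal S ^ n).map (Ideal.Quotient.mk J) ≤ maximalIdeal (S ⧸ J) ^ n := by
  haveI := quot_isLocalHom_mk J
  rw [Ideal.map_pow]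
  refine Ideal.pow_right_mono ?_ n
  rw [Ideal.map_le_iff_le_comap]
  intro x hx
  exact (IsLocalRing.mem_maximalIdeal _).mpr
    (fun hu => hx (isUnit_of_map_unit (Ideal.Quotient.mk J) x hu))

end Quot

section PSInst

variable (𝒪 : Type) [CommRing 𝒪] [IsLocalRing 𝒪] (d : ℕ)

theorem ps_sub_const_mem (u : PS 𝒪 d) :
    u - algebraMap 𝒪 (PS 𝒪 d) (MvPowerSeries.constantCoeff u) ∈ maximalIdeal (PS 𝒪 d) := by
  rw [h28_mem_maximalIdeal_iff]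
  simp [MvPowerSeries.algebraMap_apply]

theorem ps_isLocalHom : IsLocalHom (algebraMap 𝒪 (PS 𝒪 d)) := by
  constructor
  intro c hc
  rw [MvPowerSeries.isUnit_iff_constantCoeff] at hc
  simpa [MvPowerSeries.algebraMap_apply] using hc

theorem ps_residue_surjective :
    Function.Surjective (residue (PS 𝒪 d) ∘ algebraMap 𝒪 (PS 𝒪 d)) := by
  intro x
  obtain ⟨u, rfl⟩ := residue_surjective x
  refine ⟨MvPowerSeries.constantCoeff u, ?_⟩
  rw [Function.comp_apply, eq_comm, ← sub_eq_zero, ← map_sub, residue_eq_zero_iff]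
  exact ps_sub_const_mem 𝒪 d u

theorem ps_finite_residueField [Finite (ResidueField 𝒪)] :
    Finite (ResidueField (PS 𝒪 d)) := by
  haveI := ps_isLocalHom 𝒪 d
  refine Finite.of_surjective (ResidueField.map (algebraMap 𝒪 (PS 𝒪 d))) ?_
  intro x
  obtain ⟨c, hc⟩ := ps_residue_surjective 𝒪 d x
  exact ⟨residue 𝒪 c, by rw [ResidueField.map_residue]; exact hc⟩

end PSInst

section Construct

variable {𝒪 : Type} [CommRing 𝒪] [IsLocalRing 𝒪]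
  {𝒟 : ∀ ⦃A : Type⦄ [CommRing A] [IsLocalRing A] [Algebra 𝒪 A], GaloisRepAdic A → Prop}
  {rbar : Gal → M2 (ResidueField 𝒪)} {l₀ l₁ : List (𝒪 × Gal)}
  {d : ℕ} (f : Fin d → Pol 𝒪) (hf : ∀ s, f s ∈ Mbar rbar)

theorem eK_mem_maximalIdeal (K : GoodK 𝒟 rbar l₀ l₁) [IsLocalRing (Pol 𝒪 ⧸ K.1)]
    {u : PS 𝒪 d} (hu : u ∈ maximalIdeal (PS 𝒪 d)) :
    eK f hf K u ∈ maximalIdeal (Pol 𝒪 ⧸ K.1) := by
  haveI := K.2.1.isLocalHom
  rw [mvPowerSeries_maximalIdeal_eq] at hu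
  have hle : Ideal.map (algebraMap 𝒪 (PS 𝒪 d)) (maximalIdeal 𝒪) ⊔
      Ideal.span (Set.range MvPowerSeries.X) ≤
      (maximalIdeal (Pol 𝒪 ⧸ K.1)).comap (eK f hf K) := by
    rw [sup_le_iff]
    constructor
    · rw [Ideal.map_le_iff_le_comap]
      intro c hc
      rw [Ideal.mem_comap, Ideal.mem_comap, AlgHom.commutes]
      exact (IsLocalRing.mem_maximalIdeal _).mpr
        (fun h => hc (isUnit_of_map_unit (algebraMap 𝒪 (Pol 𝒪 ⧸ K.1)) c h))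
    · rw [Ideal.span_le]
      rintro _ ⟨s, rfl⟩
      rw [SetLike.mem_coe, Ideal.mem_comap, eK_X]
      exact (K.2.1.mk_mem_maximalIdeal_iff _).mpr (hf s)
  exact hle hu

theorem bK_le_maximalIdeal (K : GoodK 𝒟 rbar l₀ l₁) : bK f hf K ≤ maximalIdeal (PS 𝒪 d) := by
  haveI := K.2.1.isLocalRing
  intro u hu
  rw [mem_bK] at hu
  refine (IsLocalRing.mem_maximalIdeal _).mpr (fun h => ?_)
  have h1 : IsUnit (eK f hf K u) := h.map (eK f hf K)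
  rw [hu] at h1
  exact not_isUnit_zero h1

theorem exists_pow_le_bK (K : GoodK 𝒟 rbar l₀ l₁) :
    ∃ n : ℕ, maximalIdeal (PS 𝒪 d) ^ n ≤ bK f hf K := by
  haveI := K.2.1.isLocalRing
  obtain ⟨N, hN⟩ := K.2.1.exists_pow_eq_bot
  refine ⟨N, ?_⟩
  have h1 : (maximalIdeal (PS 𝒪 d)).map (eK f hf K) ≤ maximalIdeal (Pol 𝒪 ⧸ K.1) := by
    rw [Ideal.map_le_iff_le_comap]
    intro u hu
    exact eK_mem_maximalIdeal f hf K hu
  intro u hu
  rw [mem_bK]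
  have h2 : eK f hf K u ∈ (maximalIdeal (PS 𝒪 d) ^ N).map (eK f hf K) :=
    Ideal.mem_map_of_mem _ hu
  rw [Ideal.map_pow] at h2
  have h3 := Ideal.pow_right_mono h1 N h2
  rw [hN] at h3
  exact h3

/-- The defining ideal of the universal ring. -/
noncomputable def JU : Ideal (PS 𝒪 d) := sInf (Set.range (bK (𝒟 := 𝒟) (l₀ := l₀) (l₁ := l₁) f hf))

theorem JU_le_bK (K : GoodK 𝒟 rbar l₀ l₁) :
    JU (𝒟 := 𝒟) (l₀ := l₀) (l₁ := l₁) f hf ≤ bK f hf K :=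
  sInf_le ⟨K, rfl⟩

theorem mem_JU (u : PS 𝒪 d) :
    u ∈ JU (𝒟 := 𝒟) (l₀ := l₀) (l₁ := l₁) f hf ↔ ∀ K : GoodK 𝒟 rbar l₀ l₁, eK f hf K u = 0 := by
  unfold JU
  rw [Ideal.mem_sInf]
  constructor
  · intro h K
    exact h ⟨K, rfl⟩
  · rintro h _ ⟨K, rfl⟩
    exact h K

theorem JU_le_maximalIdeal (hne : Nonempty (GoodK 𝒟 rbar l₀ l₁)) :
    JU (𝒟 := 𝒟) (l₀ := l₀) (l₁ := l₁) f hf ≤ maximalIdeal (PS 𝒪 d) :=
  hne.elim fun K => (JU_le_bK f hf K).trans (bK_le_maximalIdeal f hf K)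

section ML

variable [IsNoetherianRing 𝒪] [IsAdicComplete (maximalIdeal 𝒪) 𝒪] [Finite (ResidueField 𝒪)]
  (h𝒟 : GaloisRep.IsDeformationCondition 𝒪 𝒟)
  (hgen : ∀ K : Ideal (Pol 𝒪), KGood 𝒟 rbar l₀ l₁ K →
    ∀ e : PS 𝒪 d →ₐ[𝒪] Pol 𝒪 ⧸ K,
      (∀ s, e (MvPowerSeries.X s) = Ideal.Quotient.mk K (f s)) → Function.Surjective e)
  (hne : Nonempty (GoodK 𝒟 rbar l₀ l₁))

include h𝒟 hne in
theorem ml_main :
    (∀ n, ∃ b ∈ Set.range (bK (𝒟 := 𝒟) (l₀ := l₀) (l₁ := l₁) f hf),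
      b ≤ JU (𝒟 := 𝒟) (l₀ := l₀) (l₁ := l₁) f hf ⊔ maximalIdeal (PS 𝒪 d) ^ n) ∧
    (∀ c : Ideal (PS 𝒪 d) → PS 𝒪 d,
      (∀ b ∈ Set.range (bK (𝒟 := 𝒟) (l₀ := l₀) (l₁ := l₁) f hf),
        ∀ b' ∈ Set.range (bK (𝒟 := 𝒟) (l₀ := l₀) (l₁ := l₁) f hf), b ≤ b' → c b - c b' ∈ b') →
      ∃ u : PS 𝒪 d, ∀ b ∈ Set.range (bK (𝒟 := 𝒟) (l₀ := l₀) (l₁ := l₁) f hf), u - c b ∈ b) := by
  haveI := mvPowerSeries_isAdicComplete 𝒪 d
  haveI := ps_finite_residueField 𝒪 d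
  refine mittagLeffler_ideals (PS 𝒪 d) (Set.range (bK (𝒟 := 𝒟) (l₀ := l₀) (l₁ := l₁) f hf))
    ?_ ?_ ?_
  · exact hne.elim fun K => ⟨_, ⟨K, rfl⟩⟩
  · rintro _ ⟨K, rfl⟩ _ ⟨K', rfl⟩
    exact ⟨GoodK.inf h𝒟 K K', bK_inf f hf h𝒟 K K'⟩
  · rintro _ ⟨K, rfl⟩
    exact exists_pow_le_bK f hf K

include h𝒟 hne in
theorem exists_cofinal (n : ℕ) : ∃ K : GoodK 𝒟 rbar l₀ l₁,
    bK f hf K ≤ JU (𝒟 := 𝒟) (l₀ := l₀) (l₁ := l₁) f hf ⊔ maximalIdeal (PS 𝒪 d) ^ n := by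
  obtain ⟨_, ⟨K, rfl⟩, hK⟩ := (ml_main f hf h𝒟 hne).1 n
  exact ⟨K, hK⟩

include h𝒟 hgen hne in
theorem exists_univ_entry (x : Var) : ∃ u : PS 𝒪 d, ∀ K : GoodK 𝒟 rbar l₀ l₁,
    eK f hf K u = Ideal.Quotient.mk K.1 (MvPolynomial.X x) := by
  classical
  -- local preimages
  have hpre : ∀ K : GoodK 𝒟 rbar l₀ l₁, ∃ v : PS 𝒪 d,
      eK f hf K v = Ideal.Quotient.mk K.1 (MvPolynomial.X x) :=
    fun K => eK_surjective f hf hgen K _
  choose v hv using hpre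
  let c : Ideal (PS 𝒪 d) → PS 𝒪 d := fun b =>
    if h : ∃ K : GoodK 𝒟 rbar l₀ l₁, bK f hf K = b then v (Classical.choose h) else 0
  have hc : ∀ K : GoodK 𝒟 rbar l₀ l₁, c (bK f hf K) = v K := by
    intro K
    have h : ∃ K' : GoodK 𝒟 rbar l₀ l₁, bK f hf K' = bK f hf K := ⟨K, rfl⟩
    have hspec := Classical.choose_spec h
    have heq : Classical.choose h = K := by
      apply Subtype.ext
      exact le_antisymm (le_of_bK_le f hf h𝒟 hgen _ _ hspec.le)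
        (le_of_bK_le f hf h𝒟 hgen _ _ hspec.ge)
    simp only [c, dif_pos h, heq]
  obtain ⟨u, hu⟩ := (ml_main f hf h𝒟 hne).2 c (by
    rintro _ ⟨K, rfl⟩ _ ⟨K', rfl⟩ hle
    rw [hc, hc, mem_bK, map_sub, sub_eq_zero, hv]
    have hKK' := le_of_bK_le f hf h𝒟 hgen K K' hle
    rw [← eK_factor_apply f hf K K' hKK', hv]
    rfl)
  refine ⟨u, fun K => ?_⟩
  have h1 := hu _ ⟨K, rfl⟩
  rw [hc, mem_bK, map_sub, sub_eq_zero, hv] at h1
  exact h1

include hf h𝒟 hgen hne in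
/-- The pro-representing package exists. -/
theorem exists_univPkg :
    ∃ (R : Type) (_ : CommRing R) (_ : IsLocalRing R) (_ : IsNoetherianRing R)
      (_ : IsAdicComplete (maximalIdeal R) R) (_ : Algebra 𝒪 R)
      (_ : IsLocalHom (algebraMap 𝒪 R)),
      Function.Surjective (residue R ∘ algebraMap 𝒪 R) ∧ Nonempty (UnivPkg 𝒟 rbar l₀ l₁ R) := by
  classical
  set J : Ideal (PS 𝒪 d) := JU (𝒟 := 𝒟) (l₀ := l₀) (l₁ := l₁) f hf with hJ
  haveI hloc : IsLocalRing (PS 𝒪 d ⧸ J) := quot_isLocalRing J (JU_le_maximalIdeal f hf hne)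
  haveI := mvPowerSeries_isAdicComplete 𝒪 d
  haveI hcomp : IsAdicComplete (maximalIdeal (PS 𝒪 d ⧸ J)) (PS 𝒪 d ⧸ J) :=
    quot_isAdicComplete J
  haveI hmk : IsLocalHom (Ideal.Quotient.mk J) := quot_isLocalHom_mk J
  have hmkmem : ∀ u : PS 𝒪 d, u ∈ maximalIdeal (PS 𝒪 d) →
      Ideal.Quotient.mk J u ∈ maximalIdeal (PS 𝒪 d ⧸ J) := fun u hu =>
    (IsLocalRing.mem_maximalIdeal _).mpr
      (fun h => hu (isUnit_of_map_unit (Ideal.Quotient.mk J) u h))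
  have hlh : IsLocalHom (algebraMap 𝒪 (PS 𝒪 d ⧸ J)) := by
    constructor
    intro c hc
    have h1 : algebraMap 𝒪 (PS 𝒪 d ⧸ J) c = Ideal.Quotient.mk J (algebraMap 𝒪 (PS 𝒪 d) c) := rfl
    rw [h1] at hc
    have h2 := isUnit_of_map_unit (Ideal.Quotient.mk J) _ hc
    haveI := ps_isLocalHom 𝒪 d
    exact isUnit_of_map_unit (algebraMap 𝒪 (PS 𝒪 d)) c h2
  have hsurj : Function.Surjective (residue (PS 𝒪 d ⧸ J) ∘ algebraMap 𝒪 (PS 𝒪 d ⧸ J)) := by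
    intro x
    obtain ⟨a, rfl⟩ := residue_surjective x
    obtain ⟨u, rfl⟩ := Ideal.Quotient.mk_surjective a
    refine ⟨MvPowerSeries.constantCoeff u, ?_⟩
    rw [Function.comp_apply, eq_comm, ← sub_eq_zero, ← map_sub, residue_eq_zero_iff]
    have h1 : algebraMap 𝒪 (PS 𝒪 d ⧸ J) (MvPowerSeries.constantCoeff u) =
        Ideal.Quotient.mk J (algebraMap 𝒪 (PS 𝒪 d) (MvPowerSeries.constantCoeff u)) := rfl
    rw [h1, ← map_sub]
    exact hmkmem _ (ps_sub_const_mem 𝒪 d u)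
  -- the universal entries
  have hent := exists_univ_entry f hf h𝒟 hgen hne
  choose uu huu using hent
  let q : ∀ K : GoodK 𝒟 rbar l₀ l₁, (PS 𝒪 d ⧸ J) →ₐ[𝒪] Pol 𝒪 ⧸ K.1 := fun K =>
    Ideal.Quotient.liftₐ J (eK f hf K) (fun a ha => (mem_JU f hf a).mp ha K)
  have hq : ∀ K u, q K (Ideal.Quotient.mk J u) = eK f hf K u := fun K u => rfl
  refine ⟨PS 𝒪 d ⧸ J, inferInstance, hloc, inferInstance, hcomp, inferInstance, hlh, hsurj,
    ⟨{ q := q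
       q_surjective := ?_
       q_factor := ?_
       cofinal := ?_
       r := fun σ => Matrix.of fun i j => Ideal.Quotient.mk J (uu (σ, i, j))
       q_r := ?_ }⟩⟩
  · intro K y
    obtain ⟨u, hu⟩ := eK_surjective f hf hgen K y
    exact ⟨Ideal.Quotient.mk J u, by rw [hq, hu]⟩
  · intro K K' h a
    obtain ⟨u, rfl⟩ := Ideal.Quotient.mk_surjective a
    rw [hq, hq]
    exact eK_factor_apply f hf K K' h u
  · intro n
    obtain ⟨K, hK⟩ := exists_cofinal f hf h𝒟 hne n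
    refine ⟨K, fun a ha => ?_⟩
    obtain ⟨u, rfl⟩ := Ideal.Quotient.mk_surjective a
    rw [RingHom.mem_ker] at ha
    have ha' : eK f hf K u = 0 := ha
    have h1 : u ∈ J ⊔ maximalIdeal (PS 𝒪 d) ^ n := hK ((mem_bK f hf K u).mpr ha')
    have h2 : Ideal.Quotient.mk J u ∈ (J ⊔ maximalIdeal (PS 𝒪 d) ^ n).map (Ideal.Quotient.mk J) :=
      Ideal.mem_map_of_mem _ h1
    rw [Ideal.map_sup, Ideal.map_quotient_self, bot_sup_eq] at h2
    exact quot_maximalIdeal_pow J n h2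
  · intro K σ i j
    show q K (Ideal.Quotient.mk J (uu (σ, i, j))) = _
    rw [hq, huu]

end ML

end Construct

end H24S53
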