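import Mathlib
import Fermat.Prelude.Def_GaloisRep_DeformationRingData
import Fermat.Prelude.Def_GaloisRep_DeformationCondition

/-!
# S53 (universal deformation ring): shared definitions

Matrix-level description of `GaloisRepAdic` used by all S53 helper files.
-/

set_option autoImplicit false

namespace H24S53

/-- The absolute Galois group of `ℚ`. -/
abbrev Gal : Type := AlgebraicClosure ℚ ≃ₐ[ℚ] AlgebraicClosure ℚ

/-- `2 × 2` matrices. -/
abbrev M2 (A : Type) : Type := Matrix (Fin 2) (Fin 2) A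

/-- Adic continuity of a matrix-valued function on the Galois group. -/
def MatCont (A : Type) [CommRing A] [IsLocalRing A] (r : Gal → M2 A) : Prop :=
  ∀ n : ℕ, ∃ L : IntermediateField ℚ (AlgebraicClosure ℚ), FiniteDimensional ℚ L ∧
    ∀ σ : Gal, (∀ x ∈ L, σ x = x) → ∀ i j, (r σ - 1) i j ∈ IsLocalRing.maximalIdeal A ^ n

/-- `r` is multiplicative. -/
def IsHom {A : Type} [CommRing A] (r : Gal → M2 A) : Prop :=
  r 1 = 1 ∧ ∀ σ τ, r (σ * τ) = r σ * r τ

/-- `r` is the matrix of `ρ` in some basis. -/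
def IsMatOf {A : Type} [CommRing A] [IsLocalRing A] (ρ : GaloisRepAdic A) (r : Gal → M2 A) :
    Prop :=
  ∃ b : Module.Basis (Fin 2) A ρ.V, ∀ σ, LinearMap.toMatrix b b (ρ.ρ σ) = r σ

/-- `r` is the matrix of the residual representation `ρ` in some basis. -/
def IsMatOfRes {k : Type} [Field k] (ρ : ResidualGaloisRep k) (r : Gal → M2 k) : Prop :=
  ∃ b : Module.Basis (Fin 2) k ρ.V, ∀ σ, LinearMap.toMatrix b b (ρ.ρ σ) = r σ

/-- Evaluation of a formal `𝒪`-linear combination of group elements. -/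
def ev {𝒪 A : Type} [CommRing 𝒪] [CommRing A] [Algebra 𝒪 A] (r : Gal → M2 A)
    (l : List (𝒪 × Gal)) : M2 A :=
  (l.map fun p => algebraMap 𝒪 A p.1 • r p.2).sum

/-- `r` lifts `rbar` (entrywise, modulo the maximal ideal). -/
def Lifts {𝒪 A : Type} [CommRing 𝒪] [IsLocalRing 𝒪] [CommRing A] [IsLocalRing A] [Algebra 𝒪 A]
    (rbar : Gal → M2 (IsLocalRing.ResidueField 𝒪)) (r : Gal → M2 A) : Prop :=
  ∀ σ i j, ∀ c : 𝒪, IsLocalRing.residue 𝒪 c = rbar σ i j →
    r σ i j - algebraMap 𝒪 A c ∈ IsLocalRing.maximalIdeal A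

/-- Normalisation with respect to the data `l₀` (maps to `E₁₁`) and `l₁` (maps to `E₂₁`). -/
def IsNormalized {𝒪 A : Type} [CommRing 𝒪] [CommRing A] [Algebra 𝒪 A]
    (l₀ l₁ : List (𝒪 × Gal)) (r : Gal → M2 A) : Prop :=
  ev r l₀ 0 1 = 0 ∧ ev r l₀ 1 0 = 0 ∧ ev r l₁ 1 0 = 1

section OfMat

variable {A : Type} [CommRing A] [IsLocalRing A]

omit [IsLocalRing A] in
theorem mem_smul_top_pi_of_forall_mem (I : Ideal A) (v : Fin 2 → A) (h : ∀ i, v i ∈ I) :
    v ∈ I • (⊤ : Submodule A (Fin 2 → A)) := by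
  have hv : v = ∑ i : Fin 2, v i • (Pi.single i (1 : A) : Fin 2 → A) := by
    ext j
    simp [Finset.sum_apply, Pi.single_apply]
  rw [hv]
  exact Submodule.sum_mem _ fun i _ => Submodule.smul_mem_smul (h i) Submodule.mem_top

/-- The `GaloisRepAdic` attached to a continuous multiplicative matrix-valued function. -/
noncomputable def ofMat (r : Gal → M2 A) (hr : IsHom r) (hc : MatCont A r) : GaloisRepAdic A where
  V := Fin 2 → A
  finrank_eq := by simp
  ρ :=
    { toFun := fun σ => Matrix.toLin' (r σ)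
      map_one' := by rw [hr.1, Matrix.toLin'_one]; rfl
      map_mul' := fun σ τ => by rw [hr.2, Matrix.toLin'_mul]; rfl }
  isAdicContinuous := by
    intro n
    obtain ⟨L, hL, h1⟩ := hc n
    refine ⟨L, hL, fun σ hσ v => ?_⟩
    apply mem_smul_top_pi_of_forall_mem
    intro i
    have : (Matrix.toLin' (r σ)) v - v = (r σ - 1).mulVec v := by
      rw [Matrix.toLin'_apply, Matrix.sub_mulVec, Matrix.one_mulVec]
    show ((Matrix.toLin' (r σ)) v - v) i ∈ _
    rw [this, Matrix.mulVec, dotProduct]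
    exact Ideal.sum_mem _ fun j _ => Ideal.mul_mem_right _ _ (h1 σ hσ i j)

@[simp] theorem ofMat_ρ_apply (r : Gal → M2 A) (hr : IsHom r) (hc : MatCont A r) (σ : Gal) :
    (ofMat r hr hc).ρ σ = Matrix.toLin' (r σ) := rfl

end OfMat

end H24S53
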