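import Fermat.Agent.S53.Core6
import Fermat.Agent.S53.UnivBasic
import Fermat.Agent.S53.UnivUnique
import Fermat.Agent.S53.UnivExists
import Fermat.Agent.S53.TypeEquiv

/-!
# S53, slice U6 (helper2): the universal property of a universal package
-/

set_option autoImplicit false
set_option linter.unusedSectionVars false
set_option linter.style.haveILetI false
open IsLocalRing

namespace H24S53

variable {𝒪 : Type} [CommRing 𝒪] [IsLocalRing 𝒪]
  {𝒟 : ∀ ⦃A : Type⦄ [CommRing A] [IsLocalRing A] [Algebra 𝒪 A], GaloisRepAdic A → Prop}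
  {rbar : Gal → M2 (ResidueField 𝒪)} {l₀ l₁ : List (𝒪 × Gal)}

section Pkg
variable {R : Type} [CommRing R] [IsLocalRing R] [Algebra 𝒪 R]

/-- the image of a lift under a local `𝒪`-algebra hom is a lift. -/
theorem h2u6_lifts_mapMat {A : Type} [CommRing A] [IsLocalRing A] [Algebra 𝒪 A]
    (φ : R →ₐ[𝒪] A) (hφ : IsLocalHom (φ : R →+* A)) {r : Gal → M2 R} (hl : Lifts rbar r) :
    Lifts rbar (mapMat (φ : R →+* A) r) := by
  intro σ i j c hc
  have h1 := hl σ i j c hc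
  have h2 : mapMat (φ : R →+* A) r σ i j - algebraMap 𝒪 A c = φ (r σ i j - algebraMap 𝒪 R c) := by
    rw [map_sub, AlgHom.commutes]
    rfl
  rw [h2]
  have h3 : (φ : R →+* A) (r σ i j - algebraMap 𝒪 R c) ∈ maximalIdeal A := by
    haveI := hφ
    exact map_nonunit (φ : R →+* A) _ h1
  exact h3

theorem UnivPkg.universal [Finite (ResidueField 𝒪)]
    (h𝒟 : GaloisRep.IsDeformationCondition 𝒪 𝒟)
    (ρbar : ResidualGaloisRep (ResidueField 𝒪)) (hrbar : IsMatOfRes ρbar rbar)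
    (h₀ : (l₀.map fun p => residue 𝒪 p.1 • rbar p.2).sum = Matrix.single 0 0 1)
    (h₁ : (l₁.map fun p => residue 𝒪 p.1 • rbar p.2).sum = Matrix.single 1 0 1)
    [IsNoetherianRing R] [IsAdicComplete (maximalIdeal R) R] [IsLocalHom (algebraMap 𝒪 R)]
    (P : UnivPkg 𝒟 rbar l₀ l₁ R) (hr : IsHom P.r) (hc : MatCont R P.r)
    (A : Type) [CommRing A] [IsLocalRing A] [IsNoetherianRing A]
    [IsAdicComplete (maximalIdeal A) A] [Algebra 𝒪 A] [IsLocalHom (algebraMap 𝒪 A)]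
    (hsurj : Function.Surjective (residue A ∘ algebraMap 𝒪 A))
    (ρA : GaloisRepAdic A) (hD : 𝒟 ρA)
    (hres : ρA.residual.IsEquiv (ρbar.baseChangeAlong (ResidueField.map (algebraMap 𝒪 A)))) :
    ∃! φ : R →ₐ[𝒪] A, ∃ hφ : IsLocalHom (φ : R →+* A),
      ((ofMat P.r hr hc).baseChangeAlong (φ : R →+* A) hφ).IsEquiv ρA := by
  obtain ⟨rA, hNDef, hMat⟩ :=
    exists_isNDef_of_deformation h𝒟 ρbar rbar hrbar l₀ l₁ h₀ h₁ hsurj ρA hD hres
  obtain ⟨φ, hφ, hφr⟩ := P.exists_algHom h𝒟 rA hNDef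
  have hmap : mapMat (φ : R →+* A) P.r = rA := by
    funext σ
    ext i j
    exact hφr σ i j
  refine ⟨φ, ⟨hφ, ?_⟩, ?_⟩
  · have h1 : IsMatOf ((ofMat P.r hr hc).baseChangeAlong (φ : R →+* A) hφ)
        (mapMat (φ : R →+* A) P.r) :=
      (isMatOf_ofMat P.r hr hc).baseChangeAlong (φ : R →+* A) hφ
    rw [hmap] at h1
    exact (isEquiv_iff_of_isMatOf h1 hMat).mpr ⟨1, isUnit_one, fun σ => by rw [one_mul, mul_one]⟩
  · rintro φ' ⟨hφ', he⟩
    have h1 : IsMatOf ((ofMat P.r hr hc).baseChangeAlong (φ' : R →+* A) hφ')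
        (mapMat (φ' : R →+* A) P.r) :=
      (isMatOf_ofMat P.r hr hc).baseChangeAlong (φ' : R →+* A) hφ'
    obtain ⟨g, hg, hconj⟩ := (isEquiv_iff_of_isMatOf h1 hMat).mp he
    have hl' : Lifts rbar (mapMat (φ' : R →+* A) P.r) := h2u6_lifts_mapMat φ' hφ' P.lifts
    have hn' : IsNormalized l₀ l₁ (mapMat (φ' : R →+* A) P.r) :=
      isNormalized_mapMat φ' P.isNormalized
    have heq : mapMat (φ' : R →+* A) P.r = rA :=
      normalized_unique rbar l₀ l₁ h₀ h₁ _ _ hl' hNDef.lifts hn' hNDef.norm g hg hconj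
    apply P.algHom_ext φ' φ hφ' hφ
    intro σ i j
    have e1 : φ' (P.r σ i j) = mapMat (φ' : R →+* A) P.r σ i j := rfl
    rw [e1, heq, hφr]

end Pkg

end H24S53
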